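import Mathlib
import Fermat.Prelude.Def_FLTPrelim_Ramification

set_option autoImplicit false

open NumberField

namespace Fermat.Agent.S14

/-- `F = ℚ(ζ) ⊆ Ω` -/
abbrev cycF {Ω : Type} [Field Ω] [Algebra ℚ Ω] (ζ : Ω) : IntermediateField ℚ Ω :=
  IntermediateField.adjoin ℚ {ζ}

/-- The Galois-cohomological datum extracted from an admissible extension. -/
structure CocycleDatum (p : ℕ) [Fact p.Prime] (Ω : Type) [Field Ω] [Algebra ℚ Ω] where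
  ζ : Ω
  hζ : IsPrimitiveRoot ζ p
  χ : (Ω ≃ₐ[ℚ] Ω) → (ZMod p)ˣ
  hχ : ∀ σ, σ ζ = ζ ^ (χ σ : ZMod p).val
  b : (Ω ≃ₐ[ℚ] Ω) → ZMod p
  hcoc : ∀ σ τ, b (σ * τ) = (χ τ : ZMod p) * b σ + b τ
  hopen : ∃ E : IntermediateField ℚ Ω, FiniteDimensional ℚ E ∧ ∀ σ ∈ E.fixingSubgroup, b σ = 0
  hunr : ∀ ℓ : ℕ, ℓ.Prime → ℓ ≠ p → ∀ A : ValuationSubring Ω, A.LiesOverPrime ℓ →
    ∀ σ ∈ A.inertiaSubgroupIn ℚ, χ σ = 1 → b σ = 0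
  hloc : ∀ A : ValuationSubring Ω, A.LiesOverPrime p →
    ∀ σ ∈ A.decompositionSubgroup ℚ, χ σ = 1 → b σ = 0

end Fermat.Agent.S14
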