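import Fermat.Agent.Lib.Frobenius
import Fermat.Agent.S14.BridgeDefs

set_option autoImplicit false

open scoped Pointwise
open Fermat.Agent.Lib.Frobenius

namespace Fermat.Agent.S14

section abstractLift

universe u

variable {B : Type*} [CommRing B]
variable {G : Type u} [Group G] [MulSemiringAction G B]
variable [TopologicalSpace G] [CompactSpace G] [TotallyDisconnectedSpace G]
variable [IsTopologicalGroup G] [TopologicalSpace B] [DiscreteTopology B] [ContinuousSMul G B]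

/-- If `σ` maps `Q ∩ B^H` into `Q` (`H` closed), some element of `σ H` stabilises `Q`. -/
theorem lift_exists_stab [Algebra.IsIntegral ℤ B] (H : Subgroup G) (hH : IsClosed (H : Set G))
    (Q : Ideal B) [hQ : Q.IsMaximal] (σ : G)
    (h0 : ∀ x : B, (∀ h ∈ H, h • x = x) → x ∈ Q → σ • x ∈ Q) :
    ∃ h ∈ H, (σ * h) • Q = Q := by
  have : CompactSpace H := isCompact_iff_compactSpace.mp hH.isCompact
  let O := FixedPoints.subalgebra ℤ B H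
  have : Algebra.IsInvariant O B H := ⟨fun x h ↦ ⟨⟨x, h⟩, rfl⟩⟩
  have hfix : ∀ x : O, ∀ h ∈ H, h • (x : B) = x := fun x h hh => x.2 ⟨h, hh⟩
  have hint : Algebra.IsIntegral O B := Algebra.IsIntegral.tower_top ℤ
  have hmax : (Q.under O).IsMaximal := Ideal.isMaximal_comap_of_isIntegral_of_isMaximal Q
  have hle : Q.under O ≤ (σ⁻¹ • Q).under O := by
    intro x hx
    rw [Ideal.under_def, Ideal.mem_comap] at hx ⊢
    rw [Ideal.mem_pointwise_smul_iff_inv_smul_mem, inv_inv]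
    exact h0 (x : B) (hfix x) hx
  have hprime : ((σ⁻¹ • Q).under O).IsPrime := inferInstance
  have hunder : Q.under O = (σ⁻¹ • Q).under O := hmax.eq_of_le hprime.ne_top hle
  obtain ⟨h, hh⟩ := Algebra.IsInvariant.exists_smul_of_under_eq_of_profinite (A := O) (G := H)
    Q (σ⁻¹ • Q) hunder
  refine ⟨h, h.2, ?_⟩
  have hh' : σ⁻¹ • Q = (h : G) • Q := hh
  rw [mul_smul, ← hh', smul_inv_smul]

/-- If `σ` acts trivially modulo `Q` on the `H`-invariants (`H` closed), then some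
element of the coset `σ H` lies in the inertia group of `Q`. -/
theorem lift_exists_inertia [Algebra.IsIntegral ℤ B] (H : Subgroup G) (hH : IsClosed (H : Set G))
    (Q : Ideal B) [hQ : Q.IsMaximal] (σ : G)
    (h0 : ∀ x : B, (∀ h ∈ H, h • x = x) → σ • x - x ∈ Q) :
    ∃ h ∈ H, σ * h ∈ Q.inertia G := by
  obtain ⟨h₁, hh₁, hstab⟩ := lift_exists_stab H hH Q σ (fun x hx hxQ => by
    have := Q.add_mem (h0 x hx) hxQ
    simpa using this)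
  have : CompactSpace H := isCompact_iff_compactSpace.mp hH.isCompact
  let O := FixedPoints.subalgebra ℤ B H
  have : Algebra.IsInvariant O B H := ⟨fun x h ↦ ⟨⟨x, h⟩, rfl⟩⟩
  have hfix : ∀ x : O, ∀ h ∈ H, h • (x : B) = x := fun x h hh => x.2 ⟨h, hh⟩
  have hτO : ∀ x : O, (σ * h₁) • (x : B) - x ∈ Q := by
    intro x
    rw [mul_smul, hfix x h₁ hh₁]
    exact h0 x (hfix x)
  let e₀ : (B ⧸ Q) ≃ₐ[ℤ ⧸ Q.under ℤ] (B ⧸ Q) :=
    Ideal.Quotient.stabilizerHom Q (Q.under ℤ) G ⟨σ * h₁, hstab⟩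
  have he₀ : ∀ b : B, e₀ (Ideal.Quotient.mk Q b) = Ideal.Quotient.mk Q ((σ * h₁) • b) :=
    fun b => rfl
  let e : (B ⧸ Q) ≃ₐ[O ⧸ Q.under O] (B ⧸ Q) :=
    AlgEquiv.ofRingEquiv (f := e₀.toRingEquiv) (by
      intro r
      obtain ⟨x, rfl⟩ := Ideal.Quotient.mk_surjective r
      show e₀ (Ideal.Quotient.mk Q (x : B)) = Ideal.Quotient.mk Q (x : B)
      rw [he₀, Ideal.Quotient.eq]
      exact hτO x)
  obtain ⟨u, hu⟩ := Ideal.Quotient.stabilizerHom_surjective_of_profinite (G := H)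
    (Q.under O) Q e
  refine ⟨h₁ * ((u : H) : G)⁻¹, H.mul_mem hh₁ (H.inv_mem (u : H).2), ?_⟩
  intro b
  have h1 : Ideal.Quotient.mk Q ((u : H) • ((((u : H) : G)⁻¹) • b)) =
      Ideal.Quotient.mk Q ((σ * h₁) • ((((u : H) : G)⁻¹) • b)) :=
    DFunLike.congr_fun hu (Ideal.Quotient.mk Q ((((u : H) : G)⁻¹) • b))
  rw [Subgroup.smul_def, smul_inv_smul, Ideal.Quotient.eq] at h1
  have h2 : (σ * (h₁ * ((u : H) : G)⁻¹)) • b - b = -(b - (σ * h₁) • ((((u : H) : G)⁻¹) • b)) := by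
    rw [← mul_assoc, mul_smul (σ * h₁)]
    ring
  rw [h2]
  exact Q.neg_mem h1

end abstractLift

variable {Ω : Type} [Field Ω] [Algebra ℚ Ω] [IsAlgClosure ℚ Ω]

theorem lift_mem_decomposition (𝒜 : ValuationSubring Ω) {ℓ : ℕ}
    (hℓ : ℓ.Prime) (h𝒜 : 𝒜.LiesOverPrime ℓ) (σ : Ω ≃ₐ[ℚ] Ω)
    (hσQ : σ • idealQ 𝒜 = idealQ 𝒜) : σ ∈ 𝒜.decompositionSubgroup ℚ := by
  have : CharZero Ω := algebraRat.charZero Ω
  have hσQ' : σ⁻¹ • idealQ 𝒜 = idealQ 𝒜 := by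
    rw [inv_smul_eq_iff, hσQ]
  rw [MulAction.mem_stabilizer_iff]
  ext x
  rw [ValuationSubring.mem_pointwise_smul_iff_inv_smul_mem]
  constructor
  · intro h
    have := map_mem_of_stabilizer 𝒜 hℓ h𝒜 σ hσQ h
    simpa using this
  · intro h
    exact map_mem_of_stabilizer 𝒜 hℓ h𝒜 σ⁻¹ hσQ' h

theorem lift_mem_inertiaSubgroupIn (𝒜 : ValuationSubring Ω) {ℓ : ℕ}
    (hℓ : ℓ.Prime) (h𝒜 : 𝒜.LiesOverPrime ℓ) (σ : Ω ≃ₐ[ℚ] Ω)
    (hσ : σ ∈ (idealQ 𝒜).inertia (Ω ≃ₐ[ℚ] Ω)) : σ ∈ 𝒜.inertiaSubgroupIn ℚ := by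
  have : CharZero Ω := algebraRat.charZero Ω
  have hσQ : σ • idealQ 𝒜 = idealQ 𝒜 := Ideal.inertia_le_stabilizer (idealQ 𝒜) hσ
  have hdec : σ ∈ 𝒜.decompositionSubgroup ℚ := lift_mem_decomposition 𝒜 hℓ h𝒜 σ hσQ
  refine ⟨⟨σ, hdec⟩, ?_, rfl⟩
  show (⟨σ, hdec⟩ : 𝒜.decompositionSubgroup ℚ) ∈ 𝒜.inertiaSubgroup ℚ
  rw [ValuationSubring.inertiaSubgroup, MonoidHom.mem_ker]
  ext x
  show (⟨σ, hdec⟩ : 𝒜.decompositionSubgroup ℚ) • x = x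
  obtain ⟨⟨a, ha⟩, rfl⟩ := IsLocalRing.residue_surjective x
  rw [← IsLocalRing.ResidueField.residue_smul]
  have hint : ∀ b : integralClosure ℤ Ω,
      IsLocalRing.residue 𝒜 ((⟨σ, hdec⟩ : 𝒜.decompositionSubgroup ℚ) • incl 𝒜 b) =
        IsLocalRing.residue 𝒜 (incl 𝒜 b) := by
    intro b
    rw [← sub_eq_zero, ← map_sub, IsLocalRing.residue_eq_zero_iff]
    exact hσ b
  obtain ⟨b, s, hb, hs, hsn, hsx⟩ := exists_integral_fraction 𝒜 hℓ h𝒜 a ha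
  let s' : integralClosure ℤ Ω := ⟨s, hs⟩
  let b' : integralClosure ℤ Ω := ⟨b, hb⟩
  have hmul : incl 𝒜 s' * ⟨a, ha⟩ = incl 𝒜 b' := Subtype.ext hsx
  have hs1 : IsLocalRing.residue 𝒜 (incl 𝒜 s') ≠ 0 := by
    rw [Ne, IsLocalRing.residue_eq_zero_iff]
    intro h
    exact hsn ((mem_idealQ 𝒜 s').mp h)
  have e1 := hint b'
  rw [← hmul, smul_mul', map_mul, hint s', map_mul] at e1
  exact mul_left_cancel₀ hs1 e1

theorem lift_idealQ_isMaximal (𝒜 : ValuationSubring Ω) {ℓ : ℕ}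
    (hℓ : ℓ.Prime) (h𝒜 : 𝒜.LiesOverPrime ℓ) : (idealQ 𝒜).IsMaximal := by
  have := idealQ_liesOver 𝒜 hℓ h𝒜
  have hmax : (Ideal.span {(ℓ : ℤ)}).IsMaximal :=
    PrincipalIdealRing.isMaximal_of_irreducible
      (Nat.prime_iff_prime_int.mp hℓ).irreducible
  exact Ideal.IsMaximal.of_liesOver_isMaximal (idealQ 𝒜) (Ideal.span {(ℓ : ℤ)})

/-- (BR-LIFT-D) -/
theorem lift_decomposition (𝒜 : ValuationSubring Ω) {ℓ : ℕ} (hℓ : ℓ.Prime)
    (h𝒜 : 𝒜.LiesOverPrime ℓ) (H : Subgroup (Ω ≃ₐ[ℚ] Ω)) (hH : IsClosed (H : Set (Ω ≃ₐ[ℚ] Ω)))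
    (σ : Ω ≃ₐ[ℚ] Ω)
    (hσ : ∀ x : Ω, IsIntegral ℤ x → (∀ h ∈ H, h x = x) → x ∈ 𝒜.nonunits → σ x ∈ 𝒜.nonunits) :
    ∃ h ∈ H, σ * h ∈ 𝒜.decompositionSubgroup ℚ := by
  have := lift_idealQ_isMaximal 𝒜 hℓ h𝒜
  letI : TopologicalSpace (integralClosure ℤ Ω) := ⊥
  haveI : DiscreteTopology (integralClosure ℤ Ω) := ⟨rfl⟩
  haveI : ContinuousSMul (Ω ≃ₐ[ℚ] Ω) (integralClosure ℤ Ω) := by
    rw [continuousSMul_iff_stabilizer_isOpen]
    intro b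
    convert stabilizer_isOpen_of_isIntegral (K := ℚ) (b : Ω) using 2
    ext σ
    simp only [MulAction.mem_stabilizer_iff]
    exact Subtype.ext_iff
  obtain ⟨h, hh, hstab⟩ := lift_exists_stab H hH (idealQ 𝒜) σ (fun x hx hxQ => by
    rw [mem_idealQ] at hxQ ⊢
    exact hσ (x : Ω) x.2 (fun h hh => congrArg Subtype.val (hx h hh)) hxQ)
  exact ⟨h, hh, lift_mem_decomposition 𝒜 hℓ h𝒜 _ hstab⟩

/-- (BR-LIFT-I) -/
theorem lift_inertia (𝒜 : ValuationSubring Ω) {ℓ : ℕ} (hℓ : ℓ.Prime)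
    (h𝒜 : 𝒜.LiesOverPrime ℓ) (H : Subgroup (Ω ≃ₐ[ℚ] Ω)) (hH : IsClosed (H : Set (Ω ≃ₐ[ℚ] Ω)))
    (σ : Ω ≃ₐ[ℚ] Ω)
    (hσ : ∀ x : Ω, IsIntegral ℤ x → (∀ h ∈ H, h x = x) → σ x - x ∈ 𝒜.nonunits) :
    ∃ h ∈ H, σ * h ∈ 𝒜.inertiaSubgroupIn ℚ := by
  have := lift_idealQ_isMaximal 𝒜 hℓ h𝒜
  letI : TopologicalSpace (integralClosure ℤ Ω) := ⊥
  haveI : DiscreteTopology (integralClosure ℤ Ω) := ⟨rfl⟩
  haveI : ContinuousSMul (Ω ≃ₐ[ℚ] Ω) (integralClosure ℤ Ω) := by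
    rw [continuousSMul_iff_stabilizer_isOpen]
    intro b
    convert stabilizer_isOpen_of_isIntegral (K := ℚ) (b : Ω) using 2
    ext σ
    simp only [MulAction.mem_stabilizer_iff]
    exact Subtype.ext_iff
  obtain ⟨h, hh, hin⟩ := lift_exists_inertia H hH (idealQ 𝒜) σ (fun x hx => by
    rw [mem_idealQ]
    exact hσ (x : Ω) x.2 (fun h hh => congrArg Subtype.val (hx h hh)))
  exact ⟨h, hh, lift_mem_inertiaSubgroupIn 𝒜 hℓ h𝒜 _ hin⟩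

end Fermat.Agent.S14
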