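import Fermat.Agent.S14.BridgeKer
import Fermat.Agent.S14.BridgeLift

set_option autoImplicit false

open Fermat.Agent.Lib.Frobenius

namespace Fermat.Agent.S14

section rankone

variable {K : Type*} [Field K]

open Polynomial in
/-- a polynomial over `ℤ` with constant coefficient prime to `ℓ` takes a unit value at a nonunit -/
lemma approx_aeval_unit (A : ValuationSubring K) {ℓ : ℕ} (hℓ : ℓ.Prime) (hA : A.LiesOverPrime ℓ)
    (y : K) (hy : y ∈ A.nonunits) (f : ℤ[X]) (hf : ¬ (ℓ : ℤ) ∣ f.coeff 0) :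
    aeval y f ∈ A ∧ aeval y f ∉ A.nonunits := by
  have hyA : y ∈ A := A.nonunits_subset hy
  have hmem : ∀ g : ℤ[X], aeval y g ∈ A := by
    intro g
    rw [aeval_eq_sum_range]
    refine sum_mem fun i _ => ?_
    rw [zsmul_eq_mul]
    exact mul_mem (intCast_mem _ _) (pow_mem hyA _)
  refine ⟨hmem f, fun h => ?_⟩
  have h1 : aeval y f = y * aeval y f.divX + (f.coeff 0 : K) := by
    conv_lhs => rw [← divX_mul_X_add f]
    simp only [map_add, map_mul, aeval_X, aeval_C]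
    rw [mul_comm]; simp
  have h2 : (f.coeff 0 : K) ∈ A.nonunits := by
    have : (f.coeff 0 : K) = aeval y f + y * (-(aeval y f.divX)) := by rw [h1]; ring
    rw [this]
    exact nonunits_add A h (nonunits_mul A hy (neg_mem (hmem _)))
  exact intCast_not_mem_nonunits A hℓ hA hf h2

open Polynomial in
lemma approx_rank_aux (A : ValuationSubring K) {ℓ : ℕ} (hℓ : ℓ.Prime) (hA : A.LiesOverPrime ℓ)
    (y : K) (hy : y ∈ A.nonunits) (i : ℕ) :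
    ∀ (f : ℤ[X]) (k : ℕ), ¬ (ℓ : ℤ) ∣ f.coeff i → (∃ z ∈ A, y ^ k * aeval y f = ℓ * z) →
      ∃ N : ℕ, ∃ z ∈ A, y ^ N = ℓ * z := by
  have hyA : y ∈ A := A.nonunits_subset hy
  have base : ∀ (f : ℤ[X]) (k : ℕ), ¬ (ℓ : ℤ) ∣ f.coeff 0 →
      (∃ z ∈ A, y ^ k * aeval y f = ℓ * z) → ∃ N : ℕ, ∃ z ∈ A, y ^ N = ℓ * z := by
    rintro f k hf ⟨z, hz, hzk⟩
    obtain ⟨hu, hu'⟩ := approx_aeval_unit A hℓ hA y hy f hf
    have hu0 : aeval y f ≠ 0 := by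
      intro h0; apply hu'; rw [h0, ValuationSubring.mem_nonunits_iff, map_zero]; exact zero_lt_one
    have hinv : (aeval y f)⁻¹ ∈ A := by
      have h1 : A.valuation (aeval y f) = 1 := by
        refine le_antisymm ((A.valuation_le_one_iff _).2 hu) (not_lt.1 fun h => hu' ?_)
        exact (ValuationSubring.mem_nonunits_iff A).2 h
      rw [← A.valuation_le_one_iff, map_inv₀, h1, inv_one]
    refine ⟨k, z * (aeval y f)⁻¹, mul_mem hz hinv, ?_⟩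
    rw [← mul_assoc, ← hzk, mul_assoc, mul_inv_cancel₀ hu0, mul_one]
  induction i with
  | zero => exact base
  | succ i ih =>
    rintro f k hf ⟨z, hz, hzk⟩
    by_cases h0 : (ℓ : ℤ) ∣ f.coeff 0
    · obtain ⟨c, hc⟩ := h0
      refine ih f.divX (k + 1) (by rwa [coeff_divX]) ⟨z - y ^ k * c, ?_, ?_⟩
      · exact sub_mem hz (mul_mem (pow_mem hyA _) (intCast_mem _ _))
      · have h1 : aeval y f = y * aeval y f.divX + (f.coeff 0 : K) := by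
          conv_lhs => rw [← divX_mul_X_add f]
          simp only [map_add, map_mul, aeval_X, aeval_C]
          rw [mul_comm]; simp
        rw [h1, hc] at hzk
        push_cast at hzk
        linear_combination hzk
    · exact base f k h0 ⟨z, hz, hzk⟩

/-- (RANK ONE) a power of an integral nonunit is divisible by `ℓ`. -/
lemma approx_rank_one (A : ValuationSubring K) {ℓ : ℕ} (hℓ : ℓ.Prime) (hA : A.LiesOverPrime ℓ)
    (y : K) (hy : y ∈ A.nonunits) (hint : IsIntegral ℤ y) :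
    ∃ N : ℕ, ∃ z ∈ A, y ^ N = ℓ * z := by
  obtain ⟨f, hf, hfy⟩ := hint
  refine approx_rank_aux A hℓ hA y hy f.natDegree f 0 ?_ ⟨0, A.zero_mem, ?_⟩
  · rw [Polynomial.coeff_natDegree, hf.leadingCoeff]
    intro h
    have := Int.isUnit_iff_natAbs_eq.1 (isUnit_of_dvd_one h)
    simp at this
    exact hℓ.one_lt.ne' this
  · rw [Polynomial.aeval_def, hfy]; simp

end rankone

section main

variable {p : ℕ} [Fact p.Prime] {Ω : Type} [Field Ω] [Algebra ℚ Ω]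

/-- the ring of `ker`-fixed algebraic integers -/
def CocycleDatum.fixRing (D : CocycleDatum p Ω) : Subalgebra ℤ Ω where
  carrier := {r | IsIntegral ℤ r ∧ ∀ h ∈ D.ker, h r = r}
  mul_mem' := fun ha hb => ⟨ha.1.mul hb.1, fun h hh => by rw [map_mul, ha.2 h hh, hb.2 h hh]⟩
  add_mem' := fun ha hb => ⟨ha.1.add hb.1, fun h hh => by rw [map_add, ha.2 h hh, hb.2 h hh]⟩
  algebraMap_mem' := fun n => ⟨isIntegral_algebraMap, fun h _ => by simp⟩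

lemma CocycleDatum.mem_fixRing (D : CocycleDatum p Ω) (r : Ω) :
    r ∈ D.fixRing ↔ IsIntegral ℤ r ∧ ∀ h ∈ D.ker, h r = r := Iff.rfl

instance CocycleDatum.fixRing_isIntegral (D : CocycleDatum p Ω) :
    Algebra.IsIntegral ℤ D.fixRing :=
  ⟨fun r => (isIntegral_algHom_iff D.fixRing.val Subtype.val_injective).1 r.2.1⟩

/-- `r ↦ g r` as a ring homomorphism from the fixed ring to a valuation subring -/
def CocycleDatum.approxHom (D : CocycleDatum p Ω) (𝒜 : ValuationSubring Ω) (g : Ω ≃ₐ[ℚ] Ω) :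
    D.fixRing →+* 𝒜 :=
  ((g : Ω →+* Ω).comp D.fixRing.val.toRingHom).codRestrict 𝒜.toSubring
    (fun r => isIntegral_mem 𝒜 (map_isIntegral_int (g : Ω →+* Ω) r.2.1))

@[simp] lemma CocycleDatum.coe_approxHom (D : CocycleDatum p Ω) (𝒜 : ValuationSubring Ω)
    (g : Ω ≃ₐ[ℚ] Ω) (r : D.fixRing) : ((D.approxHom 𝒜 g r : 𝒜) : Ω) = g (r : Ω) := rfl

lemma CocycleDatum.zeta_isIntegral (D : CocycleDatum p Ω) : IsIntegral ℤ D.ζ :=
  D.hζ.isIntegral (Fact.out : p.Prime).pos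

/-- `λ = ζ - 1` as an element of the valuation subring -/
def CocycleDatum.lamA (D : CocycleDatum p Ω) (𝒜 : ValuationSubring Ω) : 𝒜 :=
  ⟨D.ζ - 1, isIntegral_mem 𝒜 (D.zeta_isIntegral.sub isIntegral_one)⟩

/-- `𝔞_g = {r | g r ∈ λ^n 𝒜}` -/
def CocycleDatum.approxIdeal (D : CocycleDatum p Ω) (𝒜 : ValuationSubring Ω) (n : ℕ)
    (g : Ω ≃ₐ[ℚ] Ω) : Ideal D.fixRing :=
  (Ideal.span {D.lamA 𝒜 ^ n}).comap (D.approxHom 𝒜 g)

/-- `P_g = {r | g r ∈ 𝔪}` -/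
def CocycleDatum.approxPrime (D : CocycleDatum p Ω) (𝒜 : ValuationSubring Ω)
    (g : Ω ≃ₐ[ℚ] Ω) : Ideal D.fixRing :=
  (IsLocalRing.maximalIdeal 𝒜).comap (D.approxHom 𝒜 g)

instance CocycleDatum.approxPrime_isPrime (D : CocycleDatum p Ω) (𝒜 : ValuationSubring Ω)
    (g : Ω ≃ₐ[ℚ] Ω) : (D.approxPrime 𝒜 g).IsPrime :=
  Ideal.comap_isPrime _ _

lemma CocycleDatum.mem_approxIdeal (D : CocycleDatum p Ω) (𝒜 : ValuationSubring Ω) (n : ℕ)
    (g : Ω ≃ₐ[ℚ] Ω) (r : D.fixRing) :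
    r ∈ D.approxIdeal 𝒜 n g ↔ ∃ y ∈ 𝒜, g (r : Ω) = (D.ζ - 1) ^ n * y := by
  rw [CocycleDatum.approxIdeal, Ideal.mem_comap, Ideal.mem_span_singleton]
  constructor
  · rintro ⟨y, hy⟩
    refine ⟨y, y.2, ?_⟩
    have := congrArg (Subtype.val : 𝒜 → Ω) hy
    simpa [CocycleDatum.lamA] using this
  · rintro ⟨y, hy, h⟩
    refine ⟨⟨y, hy⟩, Subtype.ext ?_⟩
    simpa [CocycleDatum.lamA] using h

lemma CocycleDatum.mem_approxPrime (D : CocycleDatum p Ω) (𝒜 : ValuationSubring Ω)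
    (g : Ω ≃ₐ[ℚ] Ω) (r : D.fixRing) :
    r ∈ D.approxPrime 𝒜 g ↔ g (r : Ω) ∈ 𝒜.nonunits := by
  rw [CocycleDatum.approxPrime, Ideal.mem_comap,
    ValuationSubring.mem_nonunits_iff_exists_mem_maximalIdeal]
  constructor
  · intro h
    exact ⟨(D.approxHom 𝒜 g r).2, h⟩
  · rintro ⟨_, h⟩
    exact h

/-- `p ∈ λ 𝒜` -/
lemma CocycleDatum.exists_p_eq (D : CocycleDatum p Ω) (𝒜 : ValuationSubring Ω) :
    ∃ w ∈ 𝒜, (p : Ω) = (D.ζ - 1) * w := by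
  have hζA : D.ζ ∈ 𝒜 := isIntegral_mem 𝒜 D.zeta_isIntegral
  have hp1 : 1 < p := (Fact.out : p.Prime).one_lt
  have hsum : ∑ k ∈ Finset.range p, D.ζ ^ k = 0 := D.hζ.geom_sum_eq_zero hp1
  refine ⟨-∑ k ∈ Finset.range p, ∑ l ∈ Finset.range k, D.ζ ^ l, ?_, ?_⟩
  · exact neg_mem (sum_mem fun k _ => sum_mem fun l _ => pow_mem hζA l)
  · have h1 : ∀ k, (D.ζ - 1) * ∑ l ∈ Finset.range k, D.ζ ^ l = D.ζ ^ k - 1 := fun k =>
      mul_geom_sum D.ζ k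
    rw [mul_neg, Finset.mul_sum]
    simp only [h1]
    rw [Finset.sum_sub_distrib, hsum]
    simp

lemma CocycleDatum.approxPrime_le_radical (D : CocycleDatum p Ω) (𝒜 : ValuationSubring Ω)
    (h𝒜 : 𝒜.LiesOverPrime p) (n : ℕ) (g : Ω ≃ₐ[ℚ] Ω) :
    D.approxPrime 𝒜 g ≤ (D.approxIdeal 𝒜 n g).radical := by
  intro r hr
  rw [D.mem_approxPrime] at hr
  obtain ⟨N, z, hz, hN⟩ := approx_rank_one 𝒜 (Fact.out : p.Prime) h𝒜 _ hr
    (map_isIntegral_int (g : Ω →+* Ω) r.2.1)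
  obtain ⟨w, hw, hpw⟩ := D.exists_p_eq 𝒜
  refine ⟨N * n, ?_⟩
  rw [D.mem_approxIdeal]
  refine ⟨(w * z) ^ n, pow_mem (mul_mem hw hz) n, ?_⟩
  have : g ((r ^ (N * n) : D.fixRing) : Ω) = (g (r : Ω) ^ N) ^ n := by
    rw [← pow_mul]; simp
  have hN' : g (r : Ω) ^ N = (p : Ω) * z := hN
  rw [this, hN', hpw, mul_assoc, mul_pow]

lemma CocycleDatum.approxPrime_isMaximal (D : CocycleDatum p Ω) (𝒜 : ValuationSubring Ω)
    (h𝒜 : 𝒜.LiesOverPrime p) (g : Ω ≃ₐ[ℚ] Ω) : (D.approxPrime 𝒜 g).IsMaximal := by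
  have hp : p.Prime := Fact.out
  apply Ideal.isMaximal_of_isIntegral_of_isMaximal_comap (R := ℤ)
  have : (D.approxPrime 𝒜 g).comap (algebraMap ℤ D.fixRing) = Ideal.span {(p : ℤ)} := by
    ext m
    rw [Ideal.mem_comap, D.mem_approxPrime, Ideal.mem_span_singleton]
    have hc : g ((algebraMap ℤ D.fixRing m : D.fixRing) : Ω) = (m : Ω) := by simp
    rw [hc]
    constructor
    · intro h
      by_contra hn
      exact intCast_not_mem_nonunits 𝒜 hp h𝒜 hn h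
    · rintro ⟨c, rfl⟩
      push_cast
      exact nonunits_mul 𝒜 h𝒜 (intCast_mem _ c)
  rw [this]
  exact PrincipalIdealRing.isMaximal_of_irreducible (Nat.prime_iff_prime_int.mp hp).irreducible

variable [IsAlgClosure ℚ Ω]

lemma CocycleDatum.approx_coprime (D : CocycleDatum p Ω) (𝒜 : ValuationSubring Ω)
    (h𝒜 : 𝒜.LiesOverPrime p) (n : ℕ) (g₁ : Ω ≃ₐ[ℚ] Ω) (h1 : D.χ g₁ = 1) (hb : D.b g₁ = 1)
    (i j : Fin p) (hij : i ≠ j) :
    IsCoprime (D.approxIdeal 𝒜 n (g₁ ^ (i : ℕ))) (D.approxIdeal 𝒜 n (g₁ ^ (j : ℕ))) := by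
  rw [Ideal.isCoprime_iff_sup_eq]
  by_contra hne
  obtain ⟨M, hM, hle⟩ := Ideal.exists_le_maximal _ hne
  have hP : ∀ g, D.approxIdeal 𝒜 n g ≤ M → D.approxPrime 𝒜 g = M := fun g hg =>
    (D.approxPrime_isMaximal 𝒜 h𝒜 g).eq_of_le hM.ne_top
      ((D.approxPrime_le_radical 𝒜 h𝒜 n g).trans (hM.isPrime.radical_le_iff.2 hg))
  have hi := hP _ (le_sup_left.trans hle)
  have hj := hP _ (le_sup_right.trans hle)
  obtain ⟨h, hh, hdec⟩ := lift_decomposition 𝒜 (Fact.out : p.Prime) h𝒜 D.ker D.isClosed_ker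
    (g₁ ^ (j : ℕ) * (g₁ ^ (i : ℕ))⁻¹) (by
      intro x hx hfix hxn
      let r : D.fixRing := ⟨(g₁ ^ (i : ℕ))⁻¹ x,
        map_isIntegral_int (((g₁ ^ (i : ℕ))⁻¹ : Ω ≃ₐ[ℚ] Ω) : Ω →+* Ω) hx,
        D.fixed_of_fixed x hfix _⟩
      have hr : r ∈ D.approxPrime 𝒜 (g₁ ^ (i : ℕ)) := by
        rw [D.mem_approxPrime]
        have : (g₁ ^ (i : ℕ)) ((g₁ ^ (i : ℕ))⁻¹ x) = x := by
          rw [← AlgEquiv.mul_apply, mul_inv_cancel, AlgEquiv.one_apply]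
        change (g₁ ^ (i : ℕ)) ((g₁ ^ (i : ℕ))⁻¹ x) ∈ 𝒜.nonunits
        rw [this]; exact hxn
      rw [hi, ← hj, D.mem_approxPrime] at hr
      exact hr)
  have hχi : D.χ (g₁ ^ (i : ℕ)) = 1 := by rw [D.chi_pow, h1, one_pow]
  have hχj : D.χ (g₁ ^ (j : ℕ)) = 1 := by rw [D.chi_pow, h1, one_pow]
  have hχi' : D.χ (g₁ ^ (i : ℕ))⁻¹ = 1 := by rw [D.chi_inv, hχi, inv_one]
  have hχ : D.χ (g₁ ^ (j : ℕ) * (g₁ ^ (i : ℕ))⁻¹ * h) = 1 := by
    rw [D.chi_mul, D.chi_mul, hχj, hχi', hh.1, one_mul, one_mul]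
  have hbb : D.b (g₁ ^ (j : ℕ) * (g₁ ^ (i : ℕ))⁻¹ * h) = (j : ℕ) - (i : ℕ) := by
    rw [D.b_mul_of_chi _ _ hh.1, D.b_mul_of_chi _ _ hχi', D.b_inv_of_chi _ hχi,
      D.b_pow_of_chi _ h1, D.b_pow_of_chi _ h1, hb, hh.2]
    ring
  have h0 := D.hloc 𝒜 h𝒜 _ hdec hχ
  rw [hbb, sub_eq_zero] at h0
  apply hij
  have h2 := congrArg ZMod.val h0
  rw [ZMod.val_natCast, ZMod.val_natCast, Nat.mod_eq_of_lt i.2, Nat.mod_eq_of_lt j.2] at h2
  exact Fin.ext h2.symm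

/-- (BR-D) -/
theorem exists_approx (D : CocycleDatum p Ω) (B : Ω) (hB : IsIntegral ℤ B)
    (hBg : ∀ g : Ω ≃ₐ[ℚ] Ω, D.χ g = 1 → g B = D.ζ ^ (D.b g).val * B)
    (𝒜 : ValuationSubring Ω) (h𝒜 : 𝒜.LiesOverPrime p) (n : ℕ) :
    ∃ x ∈ cycF D.ζ, IsIntegral ℤ x ∧ ∃ y ∈ 𝒜, B - x = (D.ζ - 1) ^ n * y := by
  have hp : p.Prime := Fact.out
  by_cases hall : ∀ g : Ω ≃ₐ[ℚ] Ω, D.χ g = 1 → D.b g = 0
  · refine ⟨B, ?_, hB, 0, 𝒜.zero_mem, by simp⟩
    rw [D.mem_cycF_iff]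
    intro g hg
    rw [hBg g hg, hall g hg]
    simp
  push Not at hall
  obtain ⟨g₀, hg₀, hg₀'⟩ := hall
  obtain ⟨g₁, h1, hb⟩ := D.exists_b_eq_one g₀ hg₀ hg₀'
  let B' : D.fixRing := ⟨B, hB, fun h hh => by rw [hBg h hh.1, hh.2]; simp⟩
  have : NeZero p := ⟨hp.ne_zero⟩
  obtain ⟨y, hy⟩ := Ideal.exists_forall_sub_mem_ideal
    (I := fun j : Fin p => D.approxIdeal 𝒜 n (g₁ ^ (j : ℕ)))
    (fun i j hij => D.approx_coprime 𝒜 h𝒜 n g₁ h1 hb i j hij)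
    (fun j : Fin p => if (j : ℕ) = 0 then B' else 0)
  have hy' : ∀ j : ℕ, j < p → ∃ z ∈ 𝒜,
      (g₁ ^ j) ((y : Ω) - if j = 0 then B else 0) = (D.ζ - 1) ^ n * z := by
    intro j hj
    have := hy ⟨j, hj⟩
    rw [D.mem_approxIdeal] at this
    obtain ⟨z, hz, hzz⟩ := this
    refine ⟨z, hz, ?_⟩
    rw [← hzz]
    by_cases h0 : j = 0
    · simp [h0, B']
    · simp [h0]
  choose! z hz hzz using hy'
  refine ⟨∑ j ∈ Finset.range p, (g₁ ^ j) (y : Ω), D.res_zero_mem g₁ h1 hb _ y.2.2, ?_,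
    -∑ j ∈ Finset.range p, z j, ?_, ?_⟩
  · exact IsIntegral.sum _ fun j _ => map_isIntegral_int ((g₁ ^ j : Ω ≃ₐ[ℚ] Ω) : Ω →+* Ω) y.2.1
  · exact neg_mem (sum_mem fun j hj => hz j (Finset.mem_range.1 hj))
  · rw [mul_neg, Finset.mul_sum, ← Finset.sum_congr rfl
      (fun j hj => hzz j (Finset.mem_range.1 hj))]
    simp only [map_sub]
    rw [Finset.sum_sub_distrib]
    have : ∑ j ∈ Finset.range p, (g₁ ^ j) (if j = 0 then B else 0) = B := by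
      rw [Finset.sum_eq_single 0]
      · simp
      · intro j _ hj; simp [hj]
      · intro h; exact absurd (Finset.mem_range.2 hp.pos) h
    rw [this]
    ring

end main

end Fermat.Agent.S14
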