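import Fermat.Agent.S14.BridgeDefs

set_option autoImplicit false

open NumberField

namespace Fermat.Agent.S14

variable {p : ℕ} [Fact p.Prime] {Ω : Type} [Field Ω] [Algebra ℚ Ω]

namespace CocycleDatum

variable (D : CocycleDatum p Ω)

lemma zeta_pow_val_eq_iff (a c : ZMod p) : D.ζ ^ a.val = D.ζ ^ c.val ↔ a = c := by
  constructor
  · intro h
    have := D.hζ.pow_inj (ZMod.val_lt a) (ZMod.val_lt c) h
    exact ZMod.val_injective p this
  · rintro rfl; rfl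

lemma zeta_pow_natCast_val (n : ℕ) : D.ζ ^ ((n : ZMod p)).val = D.ζ ^ n := by
  rw [ZMod.val_natCast]
  conv_rhs => rw [← Nat.div_add_mod n p]
  rw [pow_add, pow_mul, D.hζ.pow_eq_one, one_pow, one_mul]

lemma zeta_pow_add_val (a c : ZMod p) : D.ζ ^ (a + c).val = D.ζ ^ a.val * D.ζ ^ c.val := by
  rw [← pow_add, ← zeta_pow_natCast_val D (a.val + c.val)]
  simp

lemma zeta_pow_mul_val (a c : ZMod p) : D.ζ ^ (a * c).val = (D.ζ ^ a.val) ^ c.val := by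
  rw [← pow_mul, ← zeta_pow_natCast_val D (a.val * c.val)]
  simp

lemma chi_eq_one_iff (g : Ω ≃ₐ[ℚ] Ω) : D.χ g = 1 ↔ g D.ζ = D.ζ := by
  rw [D.hχ g]
  have h1 : D.ζ = D.ζ ^ (1 : ZMod p).val := by
    rw [ZMod.val_one, pow_one]
  constructor
  · intro h
    rw [h, Units.val_one, ← h1]
  · intro h
    have h2 : D.ζ ^ (D.χ g : ZMod p).val = D.ζ ^ (1 : ZMod p).val := by rw [h, ← h1]
    exact Units.ext ((zeta_pow_val_eq_iff D _ _).mp h2)

lemma chi_mul (g h : Ω ≃ₐ[ℚ] Ω) : D.χ (g * h) = D.χ g * D.χ h := by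
  apply Units.ext
  rw [← zeta_pow_val_eq_iff D, ← D.hχ, AlgEquiv.mul_apply, D.hχ h, map_pow, D.hχ g,
    Units.val_mul, zeta_pow_mul_val]

lemma chi_one : D.χ 1 = 1 := by
  rw [chi_eq_one_iff]; rfl

lemma chi_inv (g : Ω ≃ₐ[ℚ] Ω) : D.χ g⁻¹ = (D.χ g)⁻¹ := by
  rw [eq_inv_iff_mul_eq_one, ← chi_mul, inv_mul_cancel, chi_one]

lemma b_one : D.b 1 = 0 := by
  have := D.hcoc 1 1
  rw [mul_one, chi_one, Units.val_one, one_mul] at this
  simpa using this

lemma b_mul_of_chi (g h : Ω ≃ₐ[ℚ] Ω) (hh : D.χ h = 1) : D.b (g * h) = D.b g + D.b h := by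
  rw [D.hcoc, hh, Units.val_one, one_mul]

lemma chi_pow (g : Ω ≃ₐ[ℚ] Ω) (n : ℕ) : D.χ (g ^ n) = D.χ g ^ n := by
  induction n with
  | zero => simp [chi_one]
  | succ n ih => rw [pow_succ, chi_mul, ih, pow_succ]

lemma b_pow_of_chi (g : Ω ≃ₐ[ℚ] Ω) (hg : D.χ g = 1) (n : ℕ) : D.b (g ^ n) = n * D.b g := by
  induction n with
  | zero => simp [b_one]
  | succ n ih => rw [pow_succ, b_mul_of_chi D _ _ hg, ih]; push_cast; ring

lemma b_inv_of_chi (g : Ω ≃ₐ[ℚ] Ω) (hg : D.χ g = 1) : D.b g⁻¹ = - D.b g := by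
  have := b_mul_of_chi D g⁻¹ g hg
  rw [inv_mul_cancel, b_one] at this
  exact eq_neg_of_add_eq_zero_left this.symm

lemma b_conj (τ g : Ω ≃ₐ[ℚ] Ω) (hg : D.χ g = 1) :
    D.b (τ⁻¹ * g * τ) = (D.χ τ : ZMod p) * D.b g := by
  have h1 := D.hcoc τ⁻¹ τ
  rw [inv_mul_cancel, b_one] at h1
  rw [D.hcoc, b_mul_of_chi D _ _ hg, mul_add]
  linear_combination -h1

lemma mem_cycF_iff [IsAlgClosure ℚ Ω] (x : Ω) :
    x ∈ cycF D.ζ ↔ ∀ g : Ω ≃ₐ[ℚ] Ω, D.χ g = 1 → g x = x := by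
  haveI : IsAlgClosed Ω := IsAlgClosure.isAlgClosed ℚ
  haveI : IsGalois ℚ Ω := inferInstance
  have hfix : ∀ g : Ω ≃ₐ[ℚ] Ω, g ∈ (cycF D.ζ).fixingSubgroup ↔ D.χ g = 1 := by
    intro g
    rw [chi_eq_one_iff, IntermediateField.mem_fixingSubgroup_iff]
    constructor
    · intro h
      exact h _ (IntermediateField.mem_adjoin_simple_self ℚ D.ζ)
    · intro h y hy
      have : cycF D.ζ ≤ IntermediateField.fixedField (Subgroup.zpowers g) := by
        rw [IntermediateField.adjoin_simple_le_iff, IntermediateField.mem_fixedField_iff]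
        rintro f ⟨n, rfl⟩
        have hg : g ∈ MulAction.stabilizer (Ω ≃ₐ[ℚ] Ω) D.ζ := h
        exact (Subgroup.zpow_mem _ hg n)
      have h2 := this hy
      rw [IntermediateField.mem_fixedField_iff] at h2
      exact h2 g (Subgroup.mem_zpowers g)
  conv_lhs => rw [← InfiniteGalois.fixedField_fixingSubgroup (cycF D.ζ)]
  rw [IntermediateField.mem_fixedField_iff]
  exact ⟨fun h g hg => h g ((hfix g).mpr hg), fun h g hg => h g ((hfix g).mp hg)⟩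

end CocycleDatum

end Fermat.Agent.S14
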