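import Fermat.Agent.S14.Defs
import Fermat.Agent.S14.BridgeBasic

set_option autoImplicit false

open NumberField

namespace Fermat.Agent.S14

variable {p : ℕ} [Fact p.Prime] {Ω : Type} [Field Ω] [Algebra ℚ Ω] [IsAlgClosure ℚ Ω]

lemma cycF_isCyclotomicExtension {ζ : Ω} (hζ : IsPrimitiveRoot ζ p) :
    IsCyclotomicExtension {p} ℚ (cycF ζ) := by
  haveI : NeZero p := ⟨(Fact.out : p.Prime).ne_zero⟩
  have h := hζ.intermediateField_adjoin_isCyclotomicExtension ℚ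
  have e : (DivisionRing.toRatAlgebra : Algebra ℚ (cycF ζ)) = (cycF ζ).algebra' :=
    Subsingleton.elim _ _
  rw [e]
  exact h

lemma cycF_numberField {ζ : Ω} (hζ : IsPrimitiveRoot ζ p) : NumberField (cycF ζ) :=
  haveI := cycF_isCyclotomicExtension hζ
  haveI : NeZero p := ⟨(Fact.out : p.Prime).ne_zero⟩
  IsCyclotomicExtension.numberField {p} ℚ (cycF ζ)

/-- (BR-C1) every `σ_c` of `ℚ(ζ)` lifts to `Ω`. -/
theorem exists_lift_sig (D : CocycleDatum p Ω) [NumberField (cycF D.ζ)]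
    [IsCyclotomicExtension {p} ℚ (cycF D.ζ)] (c : (ZMod p)ˣ) :
    ∃ τ : Ω ≃ₐ[ℚ] Ω, D.χ τ = c ∧
      ∀ x : cycF D.ζ, τ (x : Ω) = ((sig p (cycF D.ζ) c x : cycF D.ζ) : Ω) := by
  have : Normal ℚ Ω := IsAlgClosure.normal ℚ Ω
  have : IsScalarTower ℚ (cycF D.ζ) Ω := IsScalarTower.of_algebraMap_eq' (Subsingleton.elim _ _)
  refine ⟨(sig p (cycF D.ζ) c).liftNormal Ω, ?_, ?_⟩
  · have h1 := AlgEquiv.liftNormal_commutes (sig p (cycF D.ζ) c) Ω
      ⟨D.ζ, IntermediateField.mem_adjoin_simple_self ℚ D.ζ⟩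
    have h2 : (⟨D.ζ, IntermediateField.mem_adjoin_simple_self ℚ D.ζ⟩ : cycF D.ζ) ^ p = 1 := by
      apply Subtype.ext
      simpa using D.hζ.pow_eq_one
    rw [IsCyclotomicExtension.Rat.galEquivZMod_apply_of_pow_eq p _ _ h2] at h1
    apply Units.ext
    rw [← D.zeta_pow_val_eq_iff, ← D.hχ]
    have hs : IsCyclotomicExtension.Rat.galEquivZMod p (cycF D.ζ) (sig p (cycF D.ζ) c) = c :=
      MulEquiv.apply_symm_apply _ c
    rw [hs] at h1
    exact h1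
  · intro x
    exact AlgEquiv.liftNormal_commutes (sig p (cycF D.ζ) c) Ω x

section Val

omit [Algebra ℚ Ω] [IsAlgClosure ℚ Ω]

lemma cyc_nu_add (A : ValuationSubring Ω) {x y : Ω} (hx : x ∈ A.nonunits)
    (hy : y ∈ A.nonunits) : x + y ∈ A.nonunits := by
  rw [ValuationSubring.mem_nonunits_iff] at *
  exact Valuation.map_add_lt _ hx hy

lemma cyc_nu_mul (A : ValuationSubring Ω) {x y : Ω} (hx : x ∈ A.nonunits)
    (hy : y ∈ A) : x * y ∈ A.nonunits := by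
  rw [ValuationSubring.mem_nonunits_iff] at *
  rw [map_mul]
  exact mul_lt_one_of_lt_of_le hx ((A.valuation_le_one_iff y).mpr hy)

lemma cyc_isIntegral_mem (A : ValuationSubring Ω) {x : Ω} (hx : IsIntegral ℤ x) : x ∈ A := by
  have h : IsIntegral A x := hx.tower_top
  obtain ⟨y, hy⟩ := IsIntegrallyClosed.algebraMap_eq_of_integral h
  rw [← hy]
  exact y.2

/-- a `p`-th root of unity is congruent to `1` modulo any place above `p`. -/
lemma cyc_sub_one_mem_nonunits (A : ValuationSubring Ω) (hA : A.LiesOverPrime p) {μ : Ω}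
    (hμ : μ ^ p = 1) : μ - 1 ∈ A.nonunits := by
  have hp : p.Prime := Fact.out
  have hμA : μ ∈ A := by
    apply cyc_isIntegral_mem
    exact ⟨Polynomial.X ^ p - 1, Polynomial.monic_X_pow_sub_C 1 hp.ne_zero, by simp [hμ]⟩
  let x : A := ⟨μ, hμA⟩ - 1
  obtain ⟨r, hr⟩ := exists_add_pow_prime_eq hp x 1
  have hr' := congrArg A.subtype hr
  have hx : A.subtype x = μ - 1 := rfl
  simp only [map_add, map_mul, map_pow, map_one, map_natCast, hx, sub_add_cancel, hμ, one_pow,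
    mul_one] at hr'
  have h1 : (μ - 1) ^ p = (p : Ω) * (-(μ - 1) * (r : Ω)) := by
    have h2 : A.subtype r = (r : Ω) := rfl
    rw [h2] at hr'
    linear_combination -hr'
  have h3 : (μ - 1) ^ p ∈ A.nonunits := by
    rw [h1]
    exact cyc_nu_mul A hA (A.mul_mem _ _ (A.neg_mem _ (A.sub_mem hμA A.one_mem)) r.2)
  rw [ValuationSubring.mem_nonunits_iff] at h3 ⊢
  rw [map_pow] at h3
  by_contra hlt
  rw [not_lt] at hlt
  exact absurd (one_le_pow₀ hlt) (not_le.mpr h3)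

end Val

/-- (BR-C2) -/
theorem mem_lam_pow (D : CocycleDatum p Ω) [NumberField (cycF D.ζ)]
    [IsCyclotomicExtension {p} ℚ (cycF D.ζ)] (𝒜 : ValuationSubring Ω) (h𝒜 : 𝒜.LiesOverPrime p)
    (n : ℕ) (z : 𝓞 (cycF D.ζ)) (y : Ω) (hy : y ∈ 𝒜)
    (h : ((z : cycF D.ζ) : Ω) = (D.ζ - 1) ^ n * y) : z ∈ lam p (cycF D.ζ) ^ n := by
  have hp : p.Prime := Fact.out
  have : NeZero p := ⟨hp.ne_zero⟩
  -- `ζ` as an element of `𝓞 F`
  let ζF : cycF D.ζ := ⟨D.ζ, IntermediateField.mem_adjoin_simple_self ℚ D.ζ⟩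
  have hζF : IsPrimitiveRoot ζF p := IsPrimitiveRoot.coe_submonoidClass_iff.mp D.hζ
  let zK : 𝓞 (cycF D.ζ) := hζF.toInteger
  have hzK : IsPrimitiveRoot zK p := hζF.toInteger_isPrimitiveRoot
  have hzKΩ : (((zK : 𝓞 (cycF D.ζ)) : cycF D.ζ) : Ω) = D.ζ := rfl
  have hz0 := zetaO_isPrimitiveRoot p (cycF D.ζ)
  -- integrality
  have hint : ∀ a : 𝓞 (cycF D.ζ), ((a : cycF D.ζ) : Ω) ∈ 𝒜 := by
    intro a
    apply cyc_isIntegral_mem
    have h1 : IsIntegral ℤ (a : cycF D.ζ) := a.2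
    exact h1.map (algebraMap (cycF D.ζ) Ω).toIntAlgHom
  -- the two generators divide each other
  have hd1 : zetaO p (cycF D.ζ) - 1 ∣ zK - 1 := by
    obtain ⟨i, -, hi⟩ := hz0.eq_pow_of_pow_eq_one hzK.pow_eq_one
    rw [← hi]
    simpa using sub_dvd_pow_sub_pow (zetaO p (cycF D.ζ)) 1 i
  have hd2 : zK - 1 ∣ zetaO p (cycF D.ζ) - 1 := by
    obtain ⟨i, -, hi⟩ := hzK.eq_pow_of_pow_eq_one hz0.pow_eq_one
    rw [← hi]
    simpa using sub_dvd_pow_sub_pow zK 1 i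
  have hζnu : D.ζ - 1 ∈ 𝒜.nonunits := cyc_sub_one_mem_nonunits 𝒜 h𝒜 D.hζ.pow_eq_one
  have hζ1 : D.ζ - 1 ≠ 0 := sub_ne_zero.mpr (D.hζ.ne_one hp.one_lt)
  -- `lam` is maximal
  have hprime : Prime (zetaO p (cycF D.ζ) - 1) :=
    (IsCyclotomicExtension.zeta_spec p ℚ (cycF D.ζ)).zeta_sub_one_prime'
  have hmax : (lam p (cycF D.ζ)).IsMaximal := by
    have h1 : (lam p (cycF D.ζ)).IsPrime := (Ideal.span_singleton_prime hprime.ne_zero).mpr hprime
    refine h1.isMaximal ?_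
    rw [lam, Ne, Ideal.span_singleton_eq_bot]
    exact hprime.ne_zero
  -- elements of `lam` are non-units of `𝒜`
  have hlam_nu : ∀ l ∈ lam p (cycF D.ζ), ((l : cycF D.ζ) : Ω) ∈ 𝒜.nonunits := by
    intro l hl
    obtain ⟨b, rfl⟩ := Ideal.mem_span_singleton.mp hl
    obtain ⟨b', hb'⟩ := hd2
    rw [hb', mul_assoc]
    have e : ((((zK - 1) * (b' * b) : 𝓞 (cycF D.ζ)) : cycF D.ζ) : Ω) =
        (D.ζ - 1) * (((b' * b : 𝓞 (cycF D.ζ)) : cycF D.ζ) : Ω) := by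
      simp [hzKΩ]
    rw [e]
    exact cyc_nu_mul 𝒜 hζnu (hint _)
  -- claim A
  have hA : ∀ w : 𝓞 (cycF D.ζ), ((w : cycF D.ζ) : Ω) ∈ 𝒜.nonunits → w ∈ lam p (cycF D.ζ) := by
    intro w hw
    by_contra hwl
    obtain ⟨a, l, hl, hal⟩ := hmax.exists_inv hwl
    have h1 : ((((a * w + l : 𝓞 (cycF D.ζ))) : cycF D.ζ) : Ω) ∈ 𝒜.nonunits := by
      have e : ((((a * w + l : 𝓞 (cycF D.ζ))) : cycF D.ζ) : Ω) =
          ((w : cycF D.ζ) : Ω) * ((a : cycF D.ζ) : Ω) + ((l : cycF D.ζ) : Ω) := by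
        simp [mul_comm]
      rw [e]
      exact cyc_nu_add 𝒜 (cyc_nu_mul 𝒜 hw (hint a)) (hlam_nu l hl)
    rw [hal] at h1
    have h2 : ((((1 : 𝓞 (cycF D.ζ))) : cycF D.ζ) : Ω) = 1 := by simp
    rw [h2, ValuationSubring.mem_nonunits_iff, map_one] at h1
    exact lt_irrefl _ h1
  induction n generalizing z with
  | zero => simp
  | succ n ih =>
    have hznu : ((z : cycF D.ζ) : Ω) ∈ 𝒜.nonunits := by
      rw [h, pow_succ', mul_assoc]
      exact cyc_nu_mul 𝒜 hζnu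
        (𝒜.mul_mem _ _ (𝒜.pow_mem (ValuationSubring.nonunits_subset hζnu) n) hy)
    obtain ⟨b, hb⟩ := Ideal.mem_span_singleton.mp (hA z hznu)
    obtain ⟨b', hb'⟩ := hd2
    have hz' : z = (zK - 1) * (b' * b) := by rw [hb, hb', mul_assoc]
    have e : ((z : cycF D.ζ) : Ω) = (D.ζ - 1) * (((b' * b : 𝓞 (cycF D.ζ)) : cycF D.ζ) : Ω) := by
      rw [hz']
      simp [hzKΩ]
    have h3 : (((b' * b : 𝓞 (cycF D.ζ)) : cycF D.ζ) : Ω) = (D.ζ - 1) ^ n * y := by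
      apply mul_left_cancel₀ hζ1
      rw [← e, h, pow_succ', mul_assoc]
    have h4 := ih (b' * b) h3
    rw [hz', pow_succ']
    exact Ideal.mul_mem_mul (Ideal.mem_span_singleton.mpr hd1) h4

end Fermat.Agent.S14
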