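import Fermat.Agent.Lib.Frobenius
import Fermat.Agent.S14.BridgeDefs

set_option autoImplicit false

open NumberField

namespace Fermat.Agent.S14

namespace BridgeIdeal

open IsDedekindDomain Fermat.Agent.Lib.Frobenius

/-- A prime ideal containing a nonzero natural number contains a prime number. -/
theorem exists_prime_natCast_mem {R : Type*} [CommRing R] (P : Ideal R) [hP : P.IsPrime] :
    ∀ N : ℕ, N ≠ 0 → (N : R) ∈ P → ∃ ℓ : ℕ, ℓ.Prime ∧ (ℓ : R) ∈ P := by
  intro N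
  induction N using Nat.strong_induction_on with
  | _ N ih =>
    intro hN0 hN
    have hN1 : N ≠ 1 := by
      rintro rfl
      apply hP.ne_top
      rw [Ideal.eq_top_iff_one]
      simpa using hN
    have hq : N.minFac.Prime := Nat.minFac_prime hN1
    have hdvd : N.minFac ∣ N := Nat.minFac_dvd N
    obtain ⟨m, hm⟩ := hdvd
    have hm0 : m ≠ 0 := by
      rintro rfl
      exact hN0 (by simpa using hm)
    have hcast : ((N.minFac : ℕ) : R) * (m : R) ∈ P := by
      have : (N : R) = ((N.minFac : ℕ) : R) * (m : R) := by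
        conv_lhs => rw [hm]
        push_cast
        rfl
      rwa [← this]
    rcases hP.mem_or_mem hcast with h | h
    · exact ⟨_, hq, h⟩
    · refine ih m ?_ hm0 h
      have h2 : 2 ≤ N.minFac := hq.two_le
      have hmpos : 0 < m := Nat.pos_of_ne_zero hm0
      calc m < 2 * m := by omega
        _ ≤ N.minFac * m := Nat.mul_le_mul_right m h2
        _ = N := hm.symm

theorem comap_nonunits_iff {K L : Type*} [Field K] [Field L] (A : ValuationSubring L)
    (f : K →+* L) (x : K) : x ∈ (A.comap f).nonunits ↔ f x ∈ A.nonunits := by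
  rw [ValuationSubring.mem_nonunits_iff_or, ValuationSubring.mem_nonunits_iff_or,
    ValuationSubring.mem_comap, map_inv₀, map_eq_zero]

variable {Ω : Type} [Field Ω] [Algebra ℚ Ω]

/-- Step 1: a valuation subring of `Ω` centred at `v`. -/
theorem exists_valuationSubring (K : IntermediateField ℚ Ω) [NumberField K]
    (v : HeightOneSpectrum (𝓞 K)) :
    ∃ (𝒜 : ValuationSubring Ω) (ℓ : ℕ), ℓ.Prime ∧ 𝒜.LiesOverPrime ℓ ∧
      ∀ x : 𝓞 K, x ∈ v.asIdeal ↔ (((x : K) : Ω)) ∈ 𝒜.nonunits := by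
  classical
  let φ : 𝓞 K →+* Ω := (algebraMap K Ω).comp (algebraMap (𝓞 K) K)
  have hφ : ∀ x : 𝓞 K, φ x = (((x : K) : Ω)) := fun _ => rfl
  have hφinj : Function.Injective φ :=
    (algebraMap K Ω).injective.comp (RingOfIntegers.coe_injective)
  let I : Ideal φ.range := v.asIdeal.map φ.rangeRestrict
  have hI : I ≠ ⊤ := by
    intro h
    have h1 : (1 : φ.range) ∈ I := by rw [h]; trivial
    obtain ⟨x, hx, hx1⟩ := (Ideal.mem_map_iff_of_surjective _ φ.rangeRestrict_surjective).mp h1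
    have hx2 : φ x = φ 1 := by
      have := congrArg Subtype.val hx1
      simpa using this
    have hx3 : x = 1 := hφinj hx2
    exact v.isPrime.ne_top ((Ideal.eq_top_iff_one _).mpr (hx3 ▸ hx))
  obtain ⟨𝒜, -, h𝒜⟩ := Ideal.image_subset_nonunits_valuationSubring I hI
  have hfwd : ∀ x : 𝓞 K, x ∈ v.asIdeal → φ x ∈ 𝒜.nonunits := by
    intro x hx
    exact h𝒜 ⟨φ.rangeRestrict x, Ideal.mem_map_of_mem _ hx, rfl⟩
  have hint : ∀ x : 𝓞 K, φ x ∈ 𝒜 := by
    intro x
    apply isIntegral_mem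
    have h1 : IsIntegral ℤ (x : K) := RingOfIntegers.isIntegral_coe x
    exact h1.map (algebraMap K Ω).toIntAlgHom
  have hone : (1 : Ω) ∉ 𝒜.nonunits := by
    rw [ValuationSubring.mem_nonunits_iff, map_one]
    exact lt_irrefl _
  have hmax : v.asIdeal.IsMaximal := v.isMaximal
  have hbwd : ∀ x : 𝓞 K, φ x ∈ 𝒜.nonunits → x ∈ v.asIdeal := by
    intro x hx
    by_contra hxv
    obtain ⟨y, m, hm, hy⟩ := hmax.exists_inv hxv
    apply hone
    have h1 : (1 : Ω) = φ x * φ y + φ m := by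
      rw [← map_mul, ← map_add, mul_comm x y, hy, map_one]
    rw [h1]
    exact nonunits_add 𝒜 (nonunits_mul 𝒜 hx (hint y)) (hfwd m hm)
  have hN0 : Ideal.absNorm v.asIdeal ≠ 0 := by
    rw [Ne, Ideal.absNorm_eq_zero_iff]
    exact v.ne_bot
  have := v.isPrime
  obtain ⟨ℓ, hℓ, hℓv⟩ := exists_prime_natCast_mem v.asIdeal _ hN0 (Ideal.absNorm_mem v.asIdeal)
  refine ⟨𝒜, ℓ, hℓ, ?_, fun x => ⟨hfwd x, hbwd x⟩⟩
  have := hfwd _ hℓv
  simpa [ValuationSubring.LiesOverPrime] using this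

/-- Step 2: elements of `K` which are units at `𝒜` are units at `v`. -/
theorem valuation_eq_one (K : IntermediateField ℚ Ω) [NumberField K]
    (v : HeightOneSpectrum (𝓞 K)) (𝒜 : ValuationSubring Ω) (ℓ : ℕ) (hℓ : ℓ.Prime)
    (h𝒜 : 𝒜.LiesOverPrime ℓ)
    (hv : ∀ x : 𝓞 K, x ∈ v.asIdeal ↔ (((x : K) : Ω)) ∈ 𝒜.nonunits)
    (x : K) (hx : 𝒜.valuation (x : Ω) = 1) : v.valuation K x = 1 := by
  let 𝒜' : ValuationSubring K := 𝒜.comap (algebraMap K Ω)
  have h𝒜' : 𝒜'.LiesOverPrime ℓ := by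
    change (ℓ : K) ∈ 𝒜'.nonunits
    rw [comap_nonunits_iff]
    simpa [ValuationSubring.LiesOverPrime] using h𝒜
  have hx' : x ∈ 𝒜' := by
    rw [ValuationSubring.mem_comap, ← ValuationSubring.valuation_le_one_iff]
    exact hx.le
  obtain ⟨b, s, hb, hs, hsn, hsx⟩ := exists_integral_fraction 𝒜' hℓ h𝒜' x hx'
  rw [comap_nonunits_iff] at hsn
  let b' : 𝓞 K := ⟨b, hb⟩
  let s' : 𝓞 K := ⟨s, hs⟩
  have hs'v : s' ∉ v.asIdeal := fun hmem => hsn ((hv s').mp hmem)
  have hb'v : b' ∉ v.asIdeal := by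
    intro hmem
    have h1 : (((b' : K) : Ω)) ∈ 𝒜.nonunits := (hv b').mp hmem
    apply hsn
    rw [ValuationSubring.mem_nonunits_iff] at h1 ⊢
    have h2 : (((b' : K) : Ω)) = algebraMap K Ω s * (x : Ω) := by
      change ((b : K) : Ω) = _
      rw [← hsx]
      rfl
    rw [h2, map_mul, hx, mul_one] at h1
    exact h1
  have e1 : v.valuation K (algebraMap (𝓞 K) K s') = 1 :=
    (HeightOneSpectrum.valuation_eq_one_iff_notMem (v := v) (K := K)).mpr hs'v
  have e2 : v.valuation K (algebraMap (𝓞 K) K b') = 1 :=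
    (HeightOneSpectrum.valuation_eq_one_iff_notMem (v := v) (K := K)).mpr hb'v
  have e3 : algebraMap (𝓞 K) K s' * x = algebraMap (𝓞 K) K b' := hsx
  have e4 := congrArg (v.valuation K) e3
  rw [map_mul, e1, e2, one_mul] at e4
  exact e4

/-- Step 3: divisibility of the multiplicity. -/
theorem dvd_count (K : IntermediateField ℚ Ω) [NumberField K] (α : 𝓞 K) (hα : α ≠ 0)
    (n : ℕ)
    (h : ∀ (𝒜 : ValuationSubring Ω) (ℓ : ℕ), ℓ.Prime → 𝒜.LiesOverPrime ℓ →
      ∃ k ∈ K, k ≠ 0 ∧ 𝒜.valuation (((α : K) : Ω)) = 𝒜.valuation k ^ n)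
    (v : HeightOneSpectrum (𝓞 K)) :
    n ∣ (Associates.mk v.asIdeal).count (Associates.mk (Ideal.span {α} : Ideal (𝓞 K))).factors := by
  obtain ⟨𝒜, ℓ, hℓ, h𝒜, hv⟩ := exists_valuationSubring K v
  obtain ⟨k, hkK, hk0, hk⟩ := h 𝒜 ℓ hℓ h𝒜
  let k' : K := ⟨k, hkK⟩
  have hk'0 : k' ≠ 0 := by
    intro h0
    exact hk0 (congrArg Subtype.val h0)
  have hwk : 𝒜.valuation k ≠ 0 := (Valuation.ne_zero_iff _).mpr hk0
  have hx : 𝒜.valuation ((((α : K) / k' ^ n : K)) : Ω) = 1 := by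
    have : ((((α : K) / k' ^ n : K)) : Ω) = (((α : K) : Ω)) / k ^ n := by
      push_cast
      rfl
    rw [this, map_div₀, map_pow, hk]
    exact div_self (pow_ne_zero _ hwk)
  have h1 := valuation_eq_one K v 𝒜 ℓ hℓ h𝒜 hv _ hx
  have hvk : v.valuation K k' ≠ 0 := (Valuation.ne_zero_iff _).mpr hk'0
  rw [map_div₀, map_pow, div_eq_one_iff_eq (pow_ne_zero _ hvk)] at h1
  have h2 : v.valuation K (α : K) = v.intValuation α := v.valuation_of_algebraMap α
  rw [h2, v.intValuation_if_neg hα] at h1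
  have h3 := congrArg WithZero.log h1
  rw [WithZero.log_exp, WithZero.log_pow] at h3
  have h4 : (n : ℤ) ∣ ((Associates.mk v.asIdeal).count
      (Associates.mk (Ideal.span {α} : Ideal (𝓞 K))).factors : ℤ) := by
    refine ⟨- WithZero.log (v.valuation K k'), ?_⟩
    rw [nsmul_eq_mul] at h3
    linarith
  exact_mod_cast h4

end BridgeIdeal

variable {Ω : Type} [Field Ω] [Algebra ℚ Ω] [IsAlgClosure ℚ Ω]

/-- (BR-V) -/
theorem exists_ideal_pow (K : IntermediateField ℚ Ω) [NumberField K] (α : 𝓞 K) (hα : α ≠ 0)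
    (n : ℕ) (hn : n ≠ 0)
    (h : ∀ (𝒜 : ValuationSubring Ω) (ℓ : ℕ), ℓ.Prime → 𝒜.LiesOverPrime ℓ →
      ∃ k ∈ K, k ≠ 0 ∧ 𝒜.valuation (((α : K) : Ω)) = 𝒜.valuation k ^ n) :
    ∃ I : Ideal (𝓞 K), Ideal.span {α} = I ^ n := by
  classical
  have hJ : (Ideal.span {α} : Ideal (𝓞 K)) ≠ ⊥ := by
    rwa [Ne, Ideal.span_singleton_eq_bot]
  have hcount : ∀ P : Ideal (𝓞 K), P ∈ UniqueFactorizationMonoid.normalizedFactors
      (Ideal.span {α} : Ideal (𝓞 K)) →
      n ∣ Multiset.count P (UniqueFactorizationMonoid.normalizedFactors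
        (Ideal.span {α} : Ideal (𝓞 K))) := by
    intro P hP
    have hPprime : Prime P := UniqueFactorizationMonoid.prime_of_normalized_factor P hP
    have hP0 : P ≠ ⊥ := hPprime.ne_zero
    have hPp : P.IsPrime := Ideal.isPrime_of_prime hPprime
    let v : IsDedekindDomain.HeightOneSpectrum (𝓞 K) := ⟨P, hPp, hP0⟩
    have := BridgeIdeal.dvd_count K α hα n h v
    rwa [Ideal.count_associates_factors_eq hJ hPp hP0] at this
  obtain ⟨u, hu⟩ := Multiset.exists_smul_of_dvd_count _ hcount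
  refine ⟨u.prod, ?_⟩
  rw [← Multiset.prod_nsmul, ← hu, Ideal.prod_normalizedFactors_eq_self hJ]

end Fermat.Agent.S14
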