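import Fermat.Agent.S14.BridgeKer

set_option autoImplicit false

open NumberField

namespace Fermat.Agent.S14

variable {p : ℕ} [Fact p.Prime] {Ω : Type} [Field Ω] [Algebra ℚ Ω] [IsAlgClosure ℚ Ω]

/-- an element not in `ker` moves some `ker`-fixed element -/
theorem exists_fixed_not_fixed (D : CocycleDatum p Ω) (g₁ : Ω ≃ₐ[ℚ] Ω) (hg₁ : g₁ ∉ D.ker) :
    ∃ θ : Ω, (∀ h ∈ D.ker, h θ = θ) ∧ g₁ θ ≠ θ := by
  have : IsAlgClosed Ω := IsAlgClosure.isAlgClosed ℚ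
  have : IsGalois ℚ Ω := inferInstance
  by_contra hcon
  push Not at hcon
  apply hg₁
  have h := InfiniteGalois.fixingSubgroup_fixedField (⟨D.ker, D.isClosed_ker⟩ :
    ClosedSubgroup (Ω ≃ₐ[ℚ] Ω))
  have h2 : g₁ ∈ (IntermediateField.fixedField D.ker).fixingSubgroup := by
    rw [IntermediateField.mem_fixingSubgroup_iff]
    intro x hx
    rw [IntermediateField.mem_fixedField_iff] at hx
    exact hcon x hx
  rw [h] at h2
  exact h2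

/-- (BR-Eb) Kummer generator, before making it integral. -/
theorem exists_kummer_generator_aux (D : CocycleDatum p Ω) :
    ∃ A : Ω, A ≠ 0 ∧ ∀ g : Ω ≃ₐ[ℚ] Ω, D.χ g = 1 → g A = D.ζ ^ (D.b g).val * A := by
  have hp : p.Prime := Fact.out
  have : CharZero Ω := algebraRat.charZero Ω
  by_cases hb : ∀ g : Ω ≃ₐ[ℚ] Ω, D.χ g = 1 → D.b g = 0
  · exact ⟨1, one_ne_zero, fun g hg => by rw [hb g hg]; simp⟩
  push Not at hb
  obtain ⟨g₀, hg₀, hbg₀⟩ := hb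
  obtain ⟨g₁, h1, hb1⟩ := D.exists_b_eq_one g₀ hg₀ hbg₀
  have hnot : g₁ ∉ D.ker := by
    rw [D.mem_ker, hb1]
    exact fun h => one_ne_zero h.2
  obtain ⟨θ, hθ, hθ1⟩ := exists_fixed_not_fixed D g₁ hnot
  have hex : ∃ i, 0 < i ∧ i < p ∧ D.res g₁ θ i ≠ 0 := by
    by_contra hcon
    push Not at hcon
    apply hθ1
    have hsum := D.sum_res g₁ θ
    rw [Finset.sum_eq_single_of_mem 0 (Finset.mem_range.mpr hp.pos)
      (fun i hi hi0 => hcon i (Nat.pos_of_ne_zero hi0) (Finset.mem_range.mp hi))] at hsum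
    have h0 := D.res_apply g₁ h1 hb1 θ hθ 0 g₁ h1
    rw [zero_mul, pow_zero, one_mul, hsum, map_mul, map_natCast] at h0
    exact mul_left_cancel₀ (Nat.cast_ne_zero.mpr hp.ne_zero) h0
  obtain ⟨i, hi0, hip, hRi⟩ := hex
  have hi : (i : ZMod p) ≠ 0 := by
    rw [Ne, ZMod.natCast_eq_zero_iff]
    exact Nat.not_dvd_of_pos_of_lt hi0 hip
  refine ⟨D.res g₁ θ i ^ ((i : ZMod p)⁻¹).val, pow_ne_zero _ hRi, fun g hg => ?_⟩
  rw [map_pow, D.res_apply g₁ h1 hb1 θ hθ i g hg, mul_pow, ← pow_mul]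
  congr 1
  rw [← D.zeta_pow_natCast_val]
  congr 2
  push_cast
  rw [ZMod.natCast_zmod_val, ZMod.natCast_zmod_val]
  field_simp

/-- (BR-Eb) Kummer generator (Lagrange resolvent). -/
theorem exists_kummer_generator (D : CocycleDatum p Ω) :
    ∃ A : Ω, A ≠ 0 ∧ IsIntegral ℤ A ∧
      ∀ g : Ω ≃ₐ[ℚ] Ω, D.χ g = 1 → g A = D.ζ ^ (D.b g).val * A := by
  obtain ⟨A, hA0, hA⟩ := exists_kummer_generator_aux D
  have : Algebra.IsAlgebraic ℚ Ω := IsAlgClosure.isAlgebraic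
  have halg : IsAlgebraic ℤ A :=
    (IsFractionRing.isAlgebraic_iff ℤ ℚ Ω).mpr (Algebra.IsAlgebraic.isAlgebraic A)
  obtain ⟨n, hn, hint⟩ := halg.exists_integral_multiple
  have : CharZero Ω := algebraRat.charZero Ω
  refine ⟨n • A, ?_, hint, fun g hg => ?_⟩
  · rw [zsmul_eq_mul]
    exact mul_ne_zero (Int.cast_ne_zero.mpr hn) hA0
  · rw [zsmul_eq_mul, map_mul, map_intCast, hA g hg]
    ring

/-- (BR-Ec) -/
theorem kummer_pow_mem (D : CocycleDatum p Ω) (A : Ω)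
    (hA : ∀ g : Ω ≃ₐ[ℚ] Ω, D.χ g = 1 → g A = D.ζ ^ (D.b g).val * A) :
    A ^ p ∈ cycF D.ζ := by
  rw [D.mem_cycF_iff]
  intro g hg
  rw [map_pow, hA g hg, mul_pow, ← pow_mul, mul_comm _ p, pow_mul, D.hζ.pow_eq_one, one_pow,
    one_mul]

/-- (BR-Ec) eigen-relation -/
theorem kummer_eigen (D : CocycleDatum p Ω) (A : Ω) (hA0 : A ≠ 0)
    (hA : ∀ g : Ω ≃ₐ[ℚ] Ω, D.χ g = 1 → g A = D.ζ ^ (D.b g).val * A) (τ : Ω ≃ₐ[ℚ] Ω) :
    ∃ k ∈ cycF D.ζ, τ (A ^ p) = (A ^ p) ^ ((D.χ τ : ZMod p) ^ 2).val * k ^ p := by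
  set m := ((D.χ τ : ZMod p) ^ 2).val with hm
  have hAm : A ^ m ≠ 0 := pow_ne_zero _ hA0
  refine ⟨τ A / A ^ m, ?_, ?_⟩
  · rw [D.mem_cycF_iff]
    intro g hg
    have hg' : D.χ (τ⁻¹ * g * τ) = 1 := by
      rw [D.chi_mul, D.chi_mul, D.chi_inv, hg, mul_one, inv_mul_cancel]
    have h1 : g (τ A) = τ ((τ⁻¹ * g * τ) A) := by
      simp [AlgEquiv.mul_apply]
    have h2 : g (τ A) = D.ζ ^ ((D.χ τ : ZMod p) ^ 2 * D.b g).val * τ A := by
      rw [h1, hA _ hg', D.b_conj τ g hg, map_mul, map_pow, D.hχ τ, ← D.zeta_pow_mul_val]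
      congr 3
      ring
    have h3 : g (A ^ m) = D.ζ ^ ((D.χ τ : ZMod p) ^ 2 * D.b g).val * A ^ m := by
      rw [map_pow, hA g hg, mul_pow, hm, ← D.zeta_pow_mul_val, mul_comm (D.b g)]
    have hz : D.ζ ^ ((D.χ τ : ZMod p) ^ 2 * D.b g).val ≠ 0 :=
      pow_ne_zero _ (D.hζ.ne_zero (Fact.out : p.Prime).ne_zero)
    rw [map_div₀, h2, h3, mul_div_mul_left _ _ hz]
  · rw [map_pow, div_pow, ← pow_mul, ← pow_mul, mul_comm p m]
    field_simp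

end Fermat.Agent.S14
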