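import Fermat.Agent.S14.BridgeKer
import Fermat.Agent.S14.BridgeLift

set_option autoImplicit false

namespace Fermat.Agent.S14

variable {p : ℕ} [Fact p.Prime] {Ω : Type} [Field Ω] [Algebra ℚ Ω] [IsAlgClosure ℚ Ω]

/-- `A ^ p` lies in `ℚ(ζ)`. -/
private lemma unram_pow_mem (D : CocycleDatum p Ω) (A : Ω)
    (hA : ∀ g : Ω ≃ₐ[ℚ] Ω, D.χ g = 1 → g A = D.ζ ^ (D.b g).val * A) :
    A ^ p ∈ cycF D.ζ := by
  rw [D.mem_cycF_iff]
  intro g hg
  rw [map_pow, hA g hg, mul_pow, ← pow_mul, mul_comm _ p, pow_mul, D.hζ.pow_eq_one, one_pow,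
    one_mul]

/-- the arithmetic core: a relation `w(A)^d = w(c)` with `0 < d < p` produces `k`. -/
private lemma unram_key (D : CocycleDatum p Ω) (A : Ω) (hA0 : A ≠ 0)
    (hA : ∀ g : Ω ≃ₐ[ℚ] Ω, D.χ g = 1 → g A = D.ζ ^ (D.b g).val * A)
    (𝒜 : ValuationSubring Ω) (d : ℕ) (hd0 : 0 < d) (hdp : d < p) (c : Ω) (hc : c ∈ cycF D.ζ)
    (hc0 : c ≠ 0) (h : 𝒜.valuation A ^ d = 𝒜.valuation c) :
    ∃ k ∈ cycF D.ζ, k ≠ 0 ∧ 𝒜.valuation (A ^ p) = 𝒜.valuation k ^ p := by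
  have hp : p.Prime := Fact.out
  have hcop : Nat.Coprime d p := (Nat.coprime_of_lt_prime hd0.ne' hdp hp).symm
  -- `u * d = 1 + v * p`
  obtain ⟨u, -, hu⟩ := Nat.exists_mul_mod_eq_one_of_coprime hcop hp.one_lt
  have hu' : d * u = 1 + p * (d * u / p) := by
    have := Nat.mod_add_div (d * u) p
    omega
  set v := d * u / p with hv
  have hAp := unram_pow_mem D A hA
  have hAp0 : (A ^ p) ^ v ≠ 0 := pow_ne_zero _ (pow_ne_zero _ hA0)
  refine ⟨c ^ u / (A ^ p) ^ v, div_mem (pow_mem hc u) (pow_mem hAp v),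
    div_ne_zero (pow_ne_zero _ hc0) hAp0, ?_⟩
  have hw : 𝒜.valuation A = 𝒜.valuation (c ^ u / (A ^ p) ^ v) := by
    rw [map_div₀, eq_div_iff ((Valuation.ne_zero_iff _).mpr hAp0), map_pow, map_pow, map_pow, ← h,
      ← pow_mul, ← pow_mul, ← pow_succ', hu', add_comm]
  rw [map_pow, hw]

omit [Algebra ℚ Ω] [IsAlgClosure ℚ Ω] in
/-- if the nonzero terms have pairwise distinct valuations and the sum is integral, every
term is integral. -/
private lemma unram_terms_le {Γ : Type*} [LinearOrderedCommGroupWithZero Γ] (w : Valuation Ω Γ)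
    (s : Finset ℕ) (t : ℕ → Ω)
    (hdist : ∀ i ∈ s, ∀ j ∈ s, i ≠ j → t i ≠ 0 → t j ≠ 0 → w (t i) ≠ w (t j))
    (hsum : w (∑ i ∈ s, t i) ≤ 1) : ∀ i ∈ s, w (t i) ≤ 1 := by
  intro i hi
  by_contra hcon
  rw [not_le] at hcon
  obtain ⟨i₀, hi₀, hmax⟩ := Finset.exists_max_image s (fun i => w (t i)) ⟨i, hi⟩
  have h1 : 1 < w (t i₀) := lt_of_lt_of_le hcon (hmax i hi)
  have hne : w (t i₀) ≠ 0 := (lt_trans zero_lt_one h1).ne'
  have ht0 : t i₀ ≠ 0 := (Valuation.ne_zero_iff _).mp hne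
  have hlt : w (∑ j ∈ s.erase i₀, t j) < w (t i₀) := by
    refine Valuation.map_sum_lt w hne ?_
    intro j hj
    have hjs := Finset.mem_of_mem_erase hj
    have hji := Finset.ne_of_mem_erase hj
    by_cases hj0 : t j = 0
    · rw [hj0, map_zero]; exact zero_lt_iff.mpr hne
    · exact lt_of_le_of_ne (hmax j hjs) (hdist j hjs i₀ hi₀ hji hj0 ht0)
  have hx : w (∑ i ∈ s, t i) = w (t i₀) := by
    rw [← Finset.add_sum_erase s t hi₀]
    exact Valuation.map_add_eq_of_lt_left w hlt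
  rw [hx] at hsum
  exact absurd hsum (not_le.mpr h1)

/-- (BR-U1) -/
theorem exists_valuation_eq_pow (D : CocycleDatum p Ω) (A : Ω) (hA0 : A ≠ 0)
    (hA : ∀ g : Ω ≃ₐ[ℚ] Ω, D.χ g = 1 → g A = D.ζ ^ (D.b g).val * A)
    (𝒜 : ValuationSubring Ω) (ℓ : ℕ) (hℓ : ℓ.Prime) (h𝒜 : 𝒜.LiesOverPrime ℓ) :
    ∃ k ∈ cycF D.ζ, k ≠ 0 ∧ 𝒜.valuation (A ^ p) = 𝒜.valuation k ^ p := by
  have hp : p.Prime := Fact.out
  by_cases hb : ∀ g : Ω ≃ₐ[ℚ] Ω, D.χ g = 1 → D.b g = 0
  · refine ⟨A, ?_, hA0, map_pow _ _ _⟩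
    rw [D.mem_cycF_iff]
    intro g hg
    rw [hA g hg, hb g hg, ZMod.val_zero, pow_zero, one_mul]
  simp only [not_forall] at hb
  obtain ⟨g₀, hg₀, hbg₀⟩ := hb
  obtain ⟨g₁, h1, hb1⟩ := D.exists_b_eq_one g₀ hg₀ hbg₀
  by_contra hstar
  -- the key consequence of the negation
  have hkey : ∀ d : ℕ, 0 < d → d < p → ∀ c ∈ cycF D.ζ, c ≠ 0 →
      𝒜.valuation A ^ d ≠ 𝒜.valuation c := fun d hd0 hdp c hc hc0 h =>
    hstar (unram_key D A hA0 hA 𝒜 d hd0 hdp c hc hc0 h)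
  have hwA : 𝒜.valuation A ≠ 0 := (Valuation.ne_zero_iff _).mpr hA0
  have hg1A : g₁ A = D.ζ * A := by
    rw [hA g₁ h1, hb1, ZMod.val_one, pow_one]
  have hζint : IsIntegral ℤ D.ζ := D.hζ.isIntegral hp.pos
  have hclaim : ∀ x : Ω, IsIntegral ℤ x → (∀ h ∈ D.ker, h x = x) → g₁ x - x ∈ 𝒜.nonunits := by
    intro x hxint hxfix
    obtain ⟨c, hc, hx⟩ := D.exists_coeffs g₁ h1 hb1 A hA0 hA x hxfix
    set t : ℕ → Ω := fun i => c i * A ^ i with ht
    have hdist' : ∀ i ∈ Finset.range p, ∀ j ∈ Finset.range p, i < j → t i ≠ 0 → t j ≠ 0 →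
        𝒜.valuation (t i) ≠ 𝒜.valuation (t j) := by
      intro i _ j hj hij hti htj heq
      have hci : c i ≠ 0 := left_ne_zero_of_mul hti
      have hcj : c j ≠ 0 := left_ne_zero_of_mul htj
      have hwcj : 𝒜.valuation (c j) ≠ 0 := (Valuation.ne_zero_iff _).mpr hcj
      refine hkey (j - i) (by omega) (by have := Finset.mem_range.mp hj; omega) (c i / c j)
        (div_mem (hc i) (hc j)) (div_ne_zero hci hcj) ?_
      simp only [ht, map_mul, map_pow] at heq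
      rw [map_div₀, eq_div_iff hwcj]
      have hpow : 𝒜.valuation A ^ j = 𝒜.valuation A ^ (j - i) * 𝒜.valuation A ^ i := by
        rw [← pow_add]; congr 1; omega
      rw [hpow] at heq
      have hwAi : 𝒜.valuation A ^ i ≠ 0 := pow_ne_zero _ hwA
      apply mul_right_cancel₀ hwAi
      rw [heq, mul_comm (𝒜.valuation (c j)) (_ * _), mul_assoc, mul_assoc,
        mul_comm (𝒜.valuation (c j))]
    have hdist : ∀ i ∈ Finset.range p, ∀ j ∈ Finset.range p, i ≠ j → t i ≠ 0 → t j ≠ 0 →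
        𝒜.valuation (t i) ≠ 𝒜.valuation (t j) := by
      intro i hi j hj hij hti htj
      rcases lt_or_gt_of_ne hij with h | h
      · exact hdist' i hi j hj h hti htj
      · exact (hdist' j hj i hi h htj hti).symm
    have hxle : 𝒜.valuation (∑ i ∈ Finset.range p, t i) ≤ 1 := by
      rw [← hx]
      exact (𝒜.valuation_le_one_iff x).mpr (Fermat.Agent.Lib.Frobenius.isIntegral_mem 𝒜 hxint)
    have hle := unram_terms_le 𝒜.valuation (Finset.range p) t hdist hxle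
    have hlt : ∀ i ∈ Finset.range p, i ≠ 0 → 𝒜.valuation (t i) < 1 := by
      intro i hi hi0
      by_cases hti : t i = 0
      · rw [hti, map_zero]; exact zero_lt_one
      refine lt_of_le_of_ne (hle i hi) ?_
      intro heq
      have hci : c i ≠ 0 := left_ne_zero_of_mul hti
      have hwci : 𝒜.valuation (c i) ≠ 0 := (Valuation.ne_zero_iff _).mpr hci
      refine hkey i (Nat.pos_of_ne_zero hi0) (Finset.mem_range.mp hi) (c i)⁻¹ (inv_mem (hc i))
        (inv_ne_zero hci) ?_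
      simp only [ht, map_mul, map_pow] at heq
      rw [map_inv₀]
      exact eq_inv_of_mul_eq_one_right heq
    have hdiff : g₁ x - x = ∑ i ∈ Finset.range p, (D.ζ ^ i - 1) * t i := by
      rw [hx, map_sum, ← Finset.sum_sub_distrib]
      refine Finset.sum_congr rfl fun i _ => ?_
      have hgc : g₁ (c i) = c i := (D.mem_cycF_iff (c i)).mp (hc i) g₁ h1
      simp only [ht]
      rw [map_mul, map_pow, hgc, hg1A, mul_pow]
      ring
    rw [hdiff, ValuationSubring.mem_nonunits_iff]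
    refine Valuation.map_sum_lt _ one_ne_zero ?_
    intro i hi
    by_cases hi0 : i = 0
    · subst hi0
      simp
    · rw [map_mul]
      have h2 : 𝒜.valuation (D.ζ ^ i - 1) ≤ 1 :=
        (𝒜.valuation_le_one_iff _).mpr
          (Fermat.Agent.Lib.Frobenius.isIntegral_mem 𝒜 ((hζint.pow i).sub isIntegral_one))
      rw [mul_comm]
      exact mul_lt_one_of_lt_of_le (hlt i hi hi0) h2
  obtain ⟨h, hh, hmem⟩ := lift_inertia 𝒜 hℓ h𝒜 D.ker D.isClosed_ker g₁ hclaim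
  have hχ : D.χ (g₁ * h) = 1 := by rw [D.chi_mul, h1, hh.1, one_mul]
  have hbb : D.b (g₁ * h) = 1 := by rw [D.b_mul_of_chi _ _ hh.1, hb1, hh.2, add_zero]
  have hzero : D.b (g₁ * h) = 0 := by
    by_cases hℓp : ℓ = p
    · subst hℓp
      obtain ⟨s, _, hs⟩ := hmem
      refine D.hloc 𝒜 h𝒜 (g₁ * h) ?_ hχ
      rw [← hs]
      exact s.2
    · exact D.hunr ℓ hℓ hℓp 𝒜 h𝒜 (g₁ * h) hmem hχ
  rw [hbb] at hzero
  exact one_ne_zero hzero

end Fermat.Agent.S14
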