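import Fermat.Agent.S14.ArithCore
import Fermat.Agent.S14.BridgeCyc
import Fermat.Agent.S14.BridgeKummer
import Fermat.Agent.S14.BridgeUnram
import Fermat.Agent.S14.BridgeIdeal
import Fermat.Agent.S14.BridgeApprox

set_option autoImplicit false

open NumberField

namespace Fermat.Agent.S14

variable {p : ℕ} [Fact p.Prime] {Ω : Type} [Field Ω] [Algebra ℚ Ω] [IsAlgClosure ℚ Ω]

omit [IsAlgClosure ℚ Ω] in
lemma isIntegral_coe_iff (K : IntermediateField ℚ Ω) (x : K) :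
    IsIntegral ℤ (x : Ω) ↔ IsIntegral ℤ x :=
  isIntegral_algebraMap_iff (A := K) (B := Ω) (algebraMap K Ω).injective

theorem bridge_main (hp3 : 3 ≤ p) (D : CocycleDatum p Ω) (σ : Ω ≃ₐ[ℚ] Ω) (hσ : D.χ σ = 1) :
    D.b σ = 0 := by
  have hp : p.Prime := Fact.out
  haveI := cycF_numberField D.hζ
  haveI := cycF_isCyclotomicExtension D.hζ
  haveI : CharZero Ω := algebraRat.charZero Ω
  obtain ⟨A, hA0, hAint, hA⟩ := exists_kummer_generator D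
  have hαK : A ^ p ∈ cycF D.ζ := kummer_pow_mem D A hA
  have hαint : IsIntegral ℤ (A ^ p) := hAint.pow p
  let αK : cycF D.ζ := ⟨A ^ p, hαK⟩
  have hαKint : IsIntegral ℤ αK := (isIntegral_coe_iff _ αK).mp hαint
  let α : 𝓞 (cycF D.ζ) := ⟨αK, hαKint⟩
  have hαcoe : (((α : cycF D.ζ)) : Ω) = A ^ p := rfl
  have hα0 : α ≠ 0 := by
    intro h
    have : (((α : cycF D.ζ)) : Ω) = 0 := by rw [h]; simp
    rw [hαcoe] at this
    exact hA0 (pow_eq_zero_iff hp.ne_zero |>.mp this)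
  obtain ⟨I, hI⟩ := exists_ideal_pow (cycF D.ζ) α hα0 p hp.ne_zero
    (fun 𝒜 ℓ hℓ h𝒜 => exists_valuation_eq_pow D A hA0 hA 𝒜 ℓ hℓ h𝒜)
  have heig : ∀ c : (ZMod p)ˣ, ∃ k : cycF D.ζ,
      sig p (cycF D.ζ) c (α : cycF D.ζ) = (α : cycF D.ζ) ^ mexp p c * k ^ p := by
    intro c
    obtain ⟨τ, hτc, hτ⟩ := exists_lift_sig D c
    obtain ⟨k, hk, hk2⟩ := kummer_eigen D A hA0 hA τ
    refine ⟨⟨k, hk⟩, Subtype.ext ?_⟩
    rw [← hτ, hαcoe, hk2, hτc]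
    simp only [mexp, Units.val_pow_eq_pow_val]
    rfl
  have hloc : ∀ (η : (𝓞 (cycF D.ζ))ˣ) (a : 𝓞 (cycF D.ζ)), α = η * a ^ p →
      ∃ x : 𝓞 (cycF D.ζ), (η : 𝓞 (cycF D.ζ)) - x ^ p ∈ lam p (cycF D.ζ) ^ 3 := by
    intro η a hηa
    obtain ⟨𝒜, h𝒜⟩ := Fermat.Agent.Lib.Frobenius.exists_liesOverPrime (K := Ω) p hp
    have ha0 : (((a : cycF D.ζ)) : Ω) ≠ 0 := by
      intro h
      apply hA0
      have h2 : (((α : cycF D.ζ)) : Ω) =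
          (((η : 𝓞 (cycF D.ζ)) : cycF D.ζ) : Ω) * (((a : cycF D.ζ)) : Ω) ^ p := by
        rw [hηa]; simp
      rw [hαcoe, h, zero_pow hp.ne_zero, mul_zero] at h2
      exact (pow_eq_zero_iff hp.ne_zero).mp h2
    have hBp : (A / (((a : cycF D.ζ)) : Ω)) ^ p = (((η : 𝓞 (cycF D.ζ)) : cycF D.ζ) : Ω) := by
      have h2 : (((α : cycF D.ζ)) : Ω) =
          (((η : 𝓞 (cycF D.ζ)) : cycF D.ζ) : Ω) * (((a : cycF D.ζ)) : Ω) ^ p := by
        rw [hηa]; simp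
      rw [div_pow, ← hαcoe, h2]
      field_simp
    have hηint : IsIntegral ℤ ((((η : 𝓞 (cycF D.ζ)) : cycF D.ζ) : Ω)) :=
      (isIntegral_coe_iff _ _).mpr (η : 𝓞 (cycF D.ζ)).2
    have hBint : IsIntegral ℤ (A / (((a : cycF D.ζ)) : Ω)) :=
      IsIntegral.of_pow hp.pos (hBp ▸ hηint)
    have hBg : ∀ g : Ω ≃ₐ[ℚ] Ω, D.χ g = 1 →
        g (A / (((a : cycF D.ζ)) : Ω)) = D.ζ ^ (D.b g).val * (A / (((a : cycF D.ζ)) : Ω)) := by
      intro g hg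
      rw [map_div₀, hA g hg, (D.mem_cycF_iff _).mp (a : cycF D.ζ).2 g hg, mul_div_assoc]
    obtain ⟨x, hxK, hxint, y, hy, hxy⟩ := exists_approx D _ hBint hBg 𝒜 h𝒜 3
    let xO : 𝓞 (cycF D.ζ) := ⟨⟨x, hxK⟩, (isIntegral_coe_iff _ ⟨x, hxK⟩).mp hxint⟩
    refine ⟨xO, mem_lam_pow D 𝒜 h𝒜 3 _
      (y * ∑ i ∈ Finset.range p, (A / (((a : cycF D.ζ)) : Ω)) ^ i * x ^ (p - 1 - i)) ?_ ?_⟩
    · refine mul_mem hy (sum_mem fun i _ => mul_mem (pow_mem ?_ _) (pow_mem ?_ _))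
      · exact Fermat.Agent.Lib.Frobenius.isIntegral_mem 𝒜 hBint
      · exact Fermat.Agent.Lib.Frobenius.isIntegral_mem 𝒜 hxint
    · have h3 : ((((η : 𝓞 (cycF D.ζ)) - xO ^ p : 𝓞 (cycF D.ζ)) : cycF D.ζ) : Ω) =
          (A / (((a : cycF D.ζ)) : Ω)) ^ p - x ^ p := by
        rw [hBp]
        have h4 : (((xO : cycF D.ζ)) : Ω) = x := rfl
        rw [← h4]
        simp
      rw [h3, ← mul_assoc, ← hxy, mul_comm, (Commute.all _ _).geom_sum₂_mul]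
  obtain ⟨a, ha⟩ := arith_core p (cycF D.ζ) hp3 α hα0 I hI heig hloc
  have h1 : A ^ p = (((a : cycF D.ζ)) : Ω) ^ p := by
    rw [← hαcoe, ha]; simp
  have ha0 : (((a : cycF D.ζ)) : Ω) ≠ 0 := by
    intro h
    rw [h, zero_pow hp.ne_zero] at h1
    exact hA0 ((pow_eq_zero_iff hp.ne_zero).mp h1)
  haveI : NeZero p := ⟨hp.ne_zero⟩
  have h2 : (A / (((a : cycF D.ζ)) : Ω)) ^ p = 1 := by
    rw [div_pow, h1, div_self (pow_ne_zero _ ha0)]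
  obtain ⟨i, -, hi⟩ := D.hζ.eq_pow_of_pow_eq_one h2
  have hAK : A ∈ cycF D.ζ := by
    have : A = D.ζ ^ i * (((a : cycF D.ζ)) : Ω) := by
      rw [hi]; field_simp
    rw [this]
    exact mul_mem (pow_mem (IntermediateField.mem_adjoin_simple_self ℚ D.ζ) _) (a : cycF D.ζ).2
  have h3 := (D.mem_cycF_iff A).mp hAK σ hσ
  rw [hA σ hσ] at h3
  have h4 : D.ζ ^ (D.b σ).val = D.ζ ^ (0 : ZMod p).val := by
    rw [ZMod.val_zero, pow_zero]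
    exact mul_right_cancel₀ hA0 (by rw [h3, one_mul])
  exact (D.zeta_pow_val_eq_iff _ _).mp h4

end Fermat.Agent.S14
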