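import Fermat.Statements.S14
import Fermat.Agent.S14.BridgeDefs

set_option autoImplicit false
open ExtCitation

namespace Fermat.Agent.S14

namespace BridgeV

/-- abstract splitting -/
theorem splits_abstract {p : ℕ} [Fact p.Prime] {G V : Type} [Group G] [AddCommGroup V]
    [Module (ZMod p) V] [DistribMulAction G V] [SMulCommClass G (ZMod p) V]
    (C : Submodule (ZMod p) V) (χ : G →* (ZMod p)ˣ) (e v0 : V) (he : e ∈ C)
    (hv0 : v0 ∉ C) (hV : ∀ v : V, ∃ a : ZMod p, v - a • v0 ∈ C)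
    (hfix : ∀ σ : G, σ • e = e) (b : G → ZMod p)
    (hb : ∀ σ, σ • v0 = (χ σ : ZMod p) • v0 + b σ • e)
    (hcoc : ∀ σ τ, b (σ * τ) = (χ τ : ZMod p) * b σ + b τ)
    (hker : ∀ σ, χ σ = 1 → b σ = 0) (σ0 : G) (hσ0 : χ σ0 ≠ 1) :
    ∃ C' : Submodule (ZMod p) V, (∀ σ : G, ∀ x ∈ C', σ • x ∈ C') ∧ IsCompl C C' := by
  have hne : ((χ σ0 : ZMod p) - 1) ≠ 0 := by
    intro h
    exact hσ0 (Units.ext (by simpa using sub_eq_zero.mp h))
  set t : ZMod p := b σ0 / ((χ σ0 : ZMod p) - 1) with ht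
  have ht' : t * ((χ σ0 : ZMod p) - 1) = b σ0 := by
    rw [ht]; field_simp
  set b' : G → ZMod p := fun σ => b σ - t * ((χ σ : ZMod p) - 1) with hb'
  have hcoc' : ∀ σ τ, b' (σ * τ) = (χ τ : ZMod p) * b' σ + b' τ := by
    intro σ τ
    simp only [hb', hcoc, map_mul, Units.val_mul]
    ring
  have hker' : ∀ σ, χ σ = 1 → b' σ = 0 := by
    intro σ hσ
    simp [hb', hker σ hσ, hσ]
  have h0 : b' σ0 = 0 := by
    simp only [hb', ht']; ring
  have hzero : ∀ σ, b' σ = 0 := by
    intro σ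
    have h1 : b' (σ * σ0) = (χ σ0 : ZMod p) * b' σ := by rw [hcoc', h0, add_zero]
    have h2 : b' (σ0 * σ) = b' σ := by rw [hcoc', h0, mul_zero, zero_add]
    have hc : χ ((σ0 * σ)⁻¹ * (σ * σ0)) = 1 := by
      simp only [map_mul, map_inv]
      rw [mul_comm (χ σ0) (χ σ), inv_mul_cancel]
    have h3 : b' (σ * σ0) = b' (σ0 * σ) := by
      have : σ * σ0 = (σ0 * σ) * ((σ0 * σ)⁻¹ * (σ * σ0)) := by group
      rw [this, hcoc', hc, hker' _ hc]
      simp
    rw [h1, h2] at h3
    have h4 : ((χ σ0 : ZMod p) - 1) * b' σ = 0 := by linear_combination h3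
    exact (mul_eq_zero.mp h4).resolve_left hne
  set v1 : V := v0 + t • e with hv1
  have hact : ∀ σ, σ • v1 = (χ σ : ZMod p) • v1 := by
    intro σ
    have hz := hzero σ
    simp only [hb'] at hz
    have hbσ : b σ = t * ((χ σ : ZMod p) - 1) := sub_eq_zero.mp hz
    rw [hv1, smul_add, hb, smul_comm, hfix, hbσ, smul_add, smul_smul]
    module
  have hv1C : v1 ∉ C := by
    intro h
    apply hv0
    have : v0 = v1 - t • e := by rw [hv1]; abel
    rw [this]
    exact C.sub_mem h (C.smul_mem _ he)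
  refine ⟨Submodule.span (ZMod p) {v1}, ?_, ?_⟩
  · intro σ x hx
    obtain ⟨a, rfl⟩ := Submodule.mem_span_singleton.mp hx
    rw [smul_comm, hact, smul_smul]
    exact Submodule.smul_mem _ _ (Submodule.mem_span_singleton_self v1)
  · constructor
    · rw [Submodule.disjoint_def]
      intro x hxC hx
      obtain ⟨a, rfl⟩ := Submodule.mem_span_singleton.mp hx
      by_cases ha : a = 0
      · simp [ha]
      · exfalso
        apply hv1C
        have : v1 = a⁻¹ • (a • v1) := by rw [smul_smul, inv_mul_cancel₀ ha, one_smul]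
        rw [this]
        exact C.smul_mem _ hxC
    · rw [codisjoint_iff, Submodule.eq_top_iff']
      intro v
      obtain ⟨a, ha⟩ := hV v
      rw [Submodule.mem_sup]
      refine ⟨v - a • v0 - (a * t) • e, C.sub_mem ha (C.smul_mem _ he), a • v1,
        Submodule.smul_mem _ _ (Submodule.mem_span_singleton_self v1), ?_⟩
      rw [hv1, smul_add, smul_smul]
      abel

theorem exists_basis_data {p : ℕ} [Fact p.Prime] {V : Type} [AddCommGroup V] [Module (ZMod p) V]
    (C : Submodule (ZMod p) V) (hC : Nat.card C = p) (hV : Nat.card V = p ^ 2) :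
    ∃ e v0 : V, e ∈ C ∧ e ≠ 0 ∧ (∀ x ∈ C, ∃ t : ZMod p, x = t • e) ∧ v0 ∉ C ∧
      ∀ v : V, ∃ a : ZMod p, v - a • v0 ∈ C := by
  have hp : p.Prime := Fact.out
  have hfinV : Finite V := Nat.finite_of_card_ne_zero (by rw [hV]; exact pow_ne_zero _ hp.ne_zero)
  have hnt : Nontrivial C := by
    rw [← Finite.one_lt_card_iff_nontrivial, hC]
    exact hp.one_lt
  obtain ⟨⟨e, heC⟩, he0⟩ := exists_ne (0 : C)
  have he0' : e ≠ 0 := fun h => he0 (Subtype.ext h)
  have hspan : ∀ x ∈ C, ∃ t : ZMod p, x = t • e := by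
    have hinj : Function.Injective (fun t : ZMod p => (⟨t • e, C.smul_mem t heC⟩ : C)) := by
      intro t t' h
      have h1 : t • e = t' • e := congrArg Subtype.val h
      exact smul_left_injective (ZMod p) he0' h1
    have hbij := hinj.bijective_of_nat_card_le (by rw [hC, Nat.card_zmod])
    intro x hx
    obtain ⟨t, ht⟩ := hbij.2 ⟨x, hx⟩
    exact ⟨t, (congrArg Subtype.val ht).symm⟩
  obtain ⟨v0, hv0⟩ : ∃ v0 : V, v0 ∉ C := by
    by_contra hcon
    push Not at hcon
    have h1 : Nat.card C = Nat.card V := Nat.card_congr (Equiv.subtypeUnivEquiv hcon)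
    rw [hC, hV] at h1
    have h2 : p ^ 1 = p ^ 2 := by rw [pow_one]; exact h1
    have := Nat.pow_right_injective hp.two_le h2
    omega
  refine ⟨e, v0, heC, he0', hspan, hv0, ?_⟩
  have hinj : Function.Injective (fun x : ZMod p × C => x.1 • v0 + (x.2 : V)) := by
    rintro ⟨a, c⟩ ⟨a', c'⟩ h
    simp only at h
    have h1 : (a - a') • v0 = (c' : V) - c := by
      rw [sub_smul]
      have := h
      rw [← sub_eq_zero] at this ⊢
      rw [← this]; abel
    have ha : a - a' = 0 := by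
      by_contra hne
      apply hv0
      have : v0 = (a - a')⁻¹ • ((a - a') • v0) := by
        rw [smul_smul, inv_mul_cancel₀ hne, one_smul]
      rw [this, h1]
      exact C.smul_mem _ (C.sub_mem c'.2 c.2)
    have haa : a = a' := sub_eq_zero.mp ha
    subst haa
    have hc : (c : V) = c' := add_left_cancel h
    exact Prod.ext rfl (Subtype.ext hc)
  have hbij := hinj.bijective_of_nat_card_le (by
    rw [Nat.card_prod, hC, Nat.card_zmod, hV, sq])
  intro v
  obtain ⟨⟨a, c⟩, hac⟩ := hbij.2 v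
  refine ⟨a, ?_⟩
  simp only at hac
  rw [← hac, add_sub_cancel_left]
  exact c.2

end BridgeV

/-- (BR-Ea) linear algebra: an admissible extension gives a cocycle datum; if the cocycle vanishes
on `ker χ` the extension splits. -/
theorem splits_of_bridge {p : ℕ} [Fact p.Prime] (h3 : 3 ≤ p)
    (V : Type) [AddCommGroup V] [Module (ZMod p) V]
    [DistribMulAction (AlgebraicClosure ℚ ≃ₐ[ℚ] AlgebraicClosure ℚ) V]
    [SMulCommClass (AlgebraicClosure ℚ ≃ₐ[ℚ] AlgebraicClosure ℚ) (ZMod p) V]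
    (C : Submodule (ZMod p) V) (hadm : IsAdmissibleExtensionCts p V C)
    (hbridge : ∀ D : CocycleDatum p (AlgebraicClosure ℚ), ∀ σ, D.χ σ = 1 → D.b σ = 0) :
    SplitsGlobally C := by
  classical
  have hp : p.Prime := Fact.out
  have : NeZero p := ⟨hp.ne_zero⟩
  obtain ⟨e, v0, heC, he0, hspan, hv0, hV⟩ :=
    BridgeV.exists_basis_data C hadm.card_sub hadm.card_total
  let χ : (AlgebraicClosure ℚ ≃ₐ[ℚ] AlgebraicClosure ℚ) →* (ZMod p)ˣ :=
    (modularCyclotomicCharacter (AlgebraicClosure ℚ) (card_rootsOfUnity_eq_self p)).comp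
      { toFun := fun σ => (σ : AlgebraicClosure ℚ ≃+* AlgebraicClosure ℚ)
        map_one' := rfl
        map_mul' := fun _ _ => rfl }
  have hcyc : ∀ σ, (cycloExp p σ : ZMod p) = (χ σ : ZMod p) := fun σ => ZMod.natCast_zmod_val _
  obtain ⟨ζ, hζ⟩ : ∃ ζ : AlgebraicClosure ℚ, IsPrimitiveRoot ζ p :=
    HasEnoughRootsOfUnity.exists_primitiveRoot _ p
  have hχζ : ∀ σ : AlgebraicClosure ℚ ≃ₐ[ℚ] AlgebraicClosure ℚ,
      σ ζ = ζ ^ (χ σ : ZMod p).val := by
    intro σ
    have := modularCyclotomicCharacter.spec (AlgebraicClosure ℚ) (card_rootsOfUnity_eq_self p)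
      (σ : AlgebraicClosure ℚ ≃+* AlgebraicClosure ℚ) (hζ.toRootsOfUnity).2
    have h2 : σ ζ = ζ ^ ((modularCyclotomicCharacter (AlgebraicClosure ℚ)
        (card_rootsOfUnity_eq_self p) (σ : AlgebraicClosure ℚ ≃+* AlgebraicClosure ℚ) :
          (ZMod p)ˣ) : ZMod p).val := by
      simpa using this
    exact h2
  have hbex : ∀ σ : AlgebraicClosure ℚ ≃ₐ[ℚ] AlgebraicClosure ℚ,
      ∃ t : ZMod p, σ • v0 - (χ σ : ZMod p) • v0 = t • e := fun σ =>
    hspan _ (by rw [← hcyc]; exact hadm.cyclo_quot σ v0)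
  choose b hb using hbex
  have hb' : ∀ σ, σ • v0 = (χ σ : ZMod p) • v0 + b σ • e := fun σ => by rw [← hb σ]; abel
  have hfix : ∀ σ : AlgebraicClosure ℚ ≃ₐ[ℚ] AlgebraicClosure ℚ, σ • e = e :=
    fun σ => hadm.fixed_sub σ e heC
  have hindep : ∀ x y : ZMod p, x • v0 + y • e = 0 → x = 0 ∧ y = 0 := by
    intro x y h
    have hx : x = 0 := by
      by_contra hne
      apply hv0
      have h1 : x • v0 = -(y • e) := eq_neg_of_add_eq_zero_left h
      have : v0 = x⁻¹ • (x • v0) := by rw [smul_smul, inv_mul_cancel₀ hne, one_smul]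
      rw [this, h1]
      exact C.smul_mem _ (C.neg_mem (C.smul_mem _ heC))
    refine ⟨hx, ?_⟩
    rw [hx, zero_smul, zero_add] at h
    exact (smul_eq_zero.mp h).resolve_right he0
  have hcoc : ∀ σ τ, b (σ * τ) = (χ τ : ZMod p) * b σ + b τ := by
    intro σ τ
    have h1 : (σ * τ) • v0 = (χ (σ * τ) : ZMod p) • v0 + ((χ τ : ZMod p) * b σ + b τ) • e := by
      rw [mul_smul, hb' τ, smul_add, smul_comm, smul_comm σ (b τ) e, hfix, hb' σ, map_mul,
        Units.val_mul]
      module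
    rw [hb' (σ * τ)] at h1
    have h2 : (0 : ZMod p) • v0 + (b (σ * τ) - ((χ τ : ZMod p) * b σ + b τ)) • e = 0 := by
      rw [zero_smul, zero_add, sub_smul, sub_eq_zero]
      exact add_left_cancel h1
    exact sub_eq_zero.mp (hindep _ _ h2).2
  have hfixed0 : ∀ σ : AlgebraicClosure ℚ ≃ₐ[ℚ] AlgebraicClosure ℚ, σ • v0 = v0 → b σ = 0 := by
    intro σ h
    have h1 := hb' σ
    rw [h] at h1
    have h2 : ((χ σ : ZMod p) - 1) • v0 + b σ • e = 0 := by
      rw [sub_smul, one_smul]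
      nth_rewrite 2 [h1]
      abel
    exact (hindep _ _ h2).2
  let D : CocycleDatum p (AlgebraicClosure ℚ) :=
    { ζ := ζ
      hζ := hζ
      χ := χ
      hχ := hχζ
      b := b
      hcoc := hcoc
      hopen := by
        have hmem : {σ : AlgebraicClosure ℚ ≃ₐ[ℚ] AlgebraicClosure ℚ | ∀ v : V, σ • v = v} ∈
            nhds (1 : AlgebraicClosure ℚ ≃ₐ[ℚ] AlgebraicClosure ℚ) :=
          hadm.open_kernel.mem_nhds (fun v => one_smul _ v)
        obtain ⟨E, hE, hsub⟩ := (krullTopology_mem_nhds_one_iff _ _ _).mp hmem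
        exact ⟨E, hE, fun σ hσ => hfixed0 σ (hsub hσ v0)⟩
      hunr := fun ℓ hℓ hne A hA σ hσ _ =>
        hfixed0 σ (hadm.unramified_outside ℓ hℓ hne A hA σ hσ v0)
      hloc := by
        intro A hA σ hσ hχσ
        obtain ⟨C', hstab, hcompl⟩ := hadm.locally_split A hA
        have htop : v0 ∈ C ⊔ C' := by rw [hcompl.sup_eq_top]; trivial
        obtain ⟨c, hc, c', hc', hsum⟩ := Submodule.mem_sup.mp htop
        have h1 : σ • c' = c' + b σ • e := by
          have hc'eq : c' = v0 - c := by rw [← hsum]; abel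
          have hv := hb' σ
          rw [show χ σ = 1 from hχσ, Units.val_one, one_smul] at hv
          rw [hc'eq, smul_sub, hv, hadm.fixed_sub σ c hc]
          abel
        have h2 : b σ • e ∈ C' := by
          have : b σ • e = σ • c' - c' := by rw [h1]; abel
          rw [this]
          exact C'.sub_mem (hstab σ hσ c' hc') hc'
        have h3 : b σ • e = 0 :=
          (Submodule.disjoint_def.mp hcompl.disjoint) _ (C.smul_mem _ heC) h2
        exact (smul_eq_zero.mp h3).resolve_right he0 }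
  have hker : ∀ σ, χ σ = 1 → b σ = 0 := hbridge D
  obtain ⟨σ0, hσ0⟩ : ∃ σ0, χ σ0 ≠ 1 := by
    by_contra hcon
    push Not at hcon
    have hcl : IsAlgClosure ℚ (AlgebraicClosure ℚ) := by
      have e : (DivisionRing.toRatAlgebra : Algebra ℚ (AlgebraicClosure ℚ)) =
        AlgebraicClosure.instAlgebra ℚ := Subsingleton.elim _ _
      rw! [e]
      infer_instance
    have : IsAlgClosed (AlgebraicClosure ℚ) := IsAlgClosure.isAlgClosed ℚ
    have : IsGalois ℚ (AlgebraicClosure ℚ) := inferInstance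
    have hfixζ : ∀ σ : AlgebraicClosure ℚ ≃ₐ[ℚ] AlgebraicClosure ℚ, σ ζ = ζ := by
      intro σ
      rw [hχζ σ, hcon σ, Units.val_one, ZMod.val_one, pow_one]
    obtain ⟨r, hr⟩ := (InfiniteGalois.mem_range_algebraMap_iff_fixed ζ).mpr hfixζ
    have hr1 : r ^ p = 1 := by
      have : algebraMap ℚ (AlgebraicClosure ℚ) (r ^ p) = algebraMap ℚ (AlgebraicClosure ℚ) 1 := by
        rw [map_pow, hr, hζ.pow_eq_one, map_one]
      exact (algebraMap ℚ (AlgebraicClosure ℚ)).injective this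
    have hodd : Odd p := hp.odd_of_ne_two (by omega)
    have hr2 : r = 1 := by
      have : r ^ p = 1 ^ p := by rw [hr1, one_pow]
      exact hodd.pow_inj.mp this
    rw [hr2, map_one] at hr
    exact hζ.ne_one hp.one_lt hr.symm
  exact BridgeV.splits_abstract C χ e v0 heC hv0 hV hfix b hb' hcoc hker σ0 hσ0

end Fermat.Agent.S14
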