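import Fermat.Agent.S14.CZ.Shift
import Fermat.Agent.S14.CZ.Dedekind

set_option autoImplicit false

open NumberField NumberField.InfinitePlace NumberField.Units
open scoped nonZeroDivisors

namespace Fermat.Agent.S14.CZ

variable (K : Type*) [Field K] [NumberField K]

theorem summable_classZeta (C : ClassGroup (𝓞 K)) {s : ℝ} (hs : 1 < s) :
    Summable fun I : {I : (Ideal (𝓞 K))⁰ // ClassGroup.mk0 I = C} =>
      (Ideal.absNorm (I.1 : Ideal (𝓞 K)) : ℝ) ^ (-s) :=
  (summable_idealZeta K hs).subtype _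

theorem classZeta_nonneg (C : ClassGroup (𝓞 K)) (s : ℝ) : 0 ≤ classZeta K C s :=
  tsum_nonneg fun _ => by positivity

theorem classZeta_le_idealZeta (C : ClassGroup (𝓞 K)) {s : ℝ} (hs : 1 < s) :
    classZeta K C s ≤ idealZeta K s :=
  Summable.tsum_le_tsum_of_inj Subtype.val Subtype.val_injective (fun _ _ => by positivity)
    (fun _ => le_rfl) (summable_classZeta K C hs) (summable_idealZeta K hs)

theorem idealZeta_eq_sum_classZeta {s : ℝ} (hs : 1 < s) :
    idealZeta K s = ∑ C : ClassGroup (𝓞 K), classZeta K C s := by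
  have h := summable_idealZeta K hs
  have h' := (Equiv.sigmaFiberEquiv (ClassGroup.mk0 (R := 𝓞 K))).summable_iff.mpr h
  rw [idealZeta, ← (Equiv.sigmaFiberEquiv (ClassGroup.mk0 (R := 𝓞 K))).tsum_eq]
  have h2 := h'.tsum_sigma
  simp only [Function.comp] at h2
  rw [h2, tsum_fintype]
  rfl

omit [NumberField K] in
theorem tsum_one_eq (f : 𝓞 K → ℝ) :
    ∑' b : (((1 : (Ideal (𝓞 K))⁰) : Ideal (𝓞 K))), f b = ∑' a : 𝓞 K, f a := by
  apply Function.Injective.tsum_eq Subtype.val_injective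
  intro a _
  exact ⟨⟨a, by simp⟩, rfl⟩

theorem classZeta_one_sub_bounded (C : ClassGroup (𝓞 K)) :
    ∃ B : ℝ, ∀ s : ℝ, 1 < s → s ≤ 2 → |classZeta K 1 s - classZeta K C s| ≤ B := by
  obtain ⟨J, hJ⟩ := ClassGroup.mk0_surjective C⁻¹
  have hJ0 : (J : Ideal (𝓞 K)) ≠ ⊥ := nonZeroDivisors.coe_ne_zero J
  obtain ⟨B, hB⟩ := shift_bound K (J : Ideal (𝓞 K)) hJ0
  obtain ⟨A, hA0, hA⟩ := exists_idealZeta_le K
  set N : ℝ := (Ideal.absNorm (J : Ideal (𝓞 K)) : ℝ) with hN
  have hN1 : 1 ≤ N := by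
    have : 0 < Ideal.absNorm (J : Ideal (𝓞 K)) :=
      Nat.pos_of_ne_zero (by rw [Ne, Ideal.absNorm_eq_zero_iff]; exact hJ0)
    rw [hN]
    exact_mod_cast this
  have hμ : (1 : ℝ) ≤ (torsionOrder K : ℝ) := by exact_mod_cast torsionOrder_pos K
  refine ⟨B + Real.log N * A, fun s hs hs2 => ?_⟩
  have h1 := (unfold_classZeta K J C hJ hs hs2).2
  have h2 := (unfold_classZeta K 1 1 (by simp) hs hs2).2
  rw [tsum_one_eq K (gK K s)] at h2
  have h3 := hB s hs hs2
  rw [h1, h2] at h3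
  have h4 : (Ideal.absNorm ((1 : (Ideal (𝓞 K))⁰) : Ideal (𝓞 K)) : ℝ) ^ (-s) = 1 := by simp
  rw [h4, mul_one, ← hN] at h3
  set θ : ℝ := N ^ (1 - s) with hθ
  have hθ' : N * N ^ (-s) = θ := by
    rw [hθ, show (1 - s) = 1 + (-s) by ring, Real.rpow_add (by linarith), Real.rpow_one]
  have hθ1 : θ ≤ 1 := Real.rpow_le_one_of_one_le_of_nonpos hN1 (by linarith)
  have hθ2 : 1 - θ ≤ (s - 1) * Real.log N := by
    have := Real.add_one_le_exp (Real.log N * (1 - s))
    rw [hθ, Real.rpow_def_of_pos (by linarith)]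
    linarith
  set z1 := classZeta K 1 s
  set zC := classZeta K C s with hzC
  have hzC0 : 0 ≤ zC := classZeta_nonneg K C s
  have hzC1 : zC ≤ idealZeta K s := classZeta_le_idealZeta K C hs
  have h5 : (torsionOrder K : ℝ) * z1 - N * ((torsionOrder K : ℝ) * N ^ (-s) * zC) =
      (torsionOrder K : ℝ) * (z1 - θ * zC) := by
    rw [← hθ']; ring
  rw [h5, abs_mul, abs_of_nonneg (by linarith : (0 : ℝ) ≤ (torsionOrder K : ℝ))] at h3
  have h6 : |z1 - θ * zC| ≤ B := by
    calc |z1 - θ * zC| = 1 * |z1 - θ * zC| := (one_mul _).symm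
      _ ≤ (torsionOrder K : ℝ) * |z1 - θ * zC| := by gcongr
      _ ≤ B := h3
  have hlog : 0 ≤ Real.log N := Real.log_nonneg hN1
  have h7 : (1 - θ) * zC ≤ Real.log N * A := by
    calc (1 - θ) * zC ≤ ((s - 1) * Real.log N) * idealZeta K s := by
          apply mul_le_mul hθ2 hzC1 hzC0
          exact mul_nonneg (by linarith) hlog
      _ = Real.log N * ((s - 1) * idealZeta K s) := by ring
      _ ≤ Real.log N * A := by gcongr; exact hA s hs hs2
  have h8 : 0 ≤ (1 - θ) * zC := mul_nonneg (by linarith) hzC0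
  calc |z1 - zC| = |(z1 - θ * zC) - (1 - θ) * zC| := by congr 1; ring
    _ ≤ |z1 - θ * zC| + |(1 - θ) * zC| := abs_sub _ _
    _ ≤ B + Real.log N * A := by rw [abs_of_nonneg h8]; linarith

/-- (M1b) HARD BOUND: the partial zeta functions of two ideal classes differ by `O(1)` on `(1,2]`. -/
theorem classZeta_sub_bounded (C C' : ClassGroup (𝓞 K)) :
    ∃ B : ℝ, ∀ s : ℝ, 1 < s → s ≤ 2 → |classZeta K C s - classZeta K C' s| ≤ B := by
  obtain ⟨B, hB⟩ := classZeta_one_sub_bounded K C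
  obtain ⟨B', hB'⟩ := classZeta_one_sub_bounded K C'
  refine ⟨B + B', fun s hs hs2 => ?_⟩
  have h1 := hB s hs hs2
  have h2 := hB' s hs hs2
  calc |classZeta K C s - classZeta K C' s|
      = |(classZeta K 1 s - classZeta K C' s) - (classZeta K 1 s - classZeta K C s)| := by
        congr 1; ring
    _ ≤ |classZeta K 1 s - classZeta K C' s| + |classZeta K 1 s - classZeta K C s| := abs_sub _ _
    _ ≤ B + B' := by linarith

end Fermat.Agent.S14.CZ
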