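import Fermat.Agent.S14.AnalyticCore
import Fermat.Agent.S14.ClassZeta

set_option autoImplicit false

open NumberField
open scoped nonZeroDivisors

namespace Fermat.Agent.S14

/-- (M1) ANALYTIC PIECE.  `K` any number field containing a primitive `p`-th root of unity, `p` odd,
`u` a unit which is not a `p`-th power.  If a subgroup `H` of the class group contains the classes of
all degree one primes `𝔮 ∤ p` modulo which `u` is not a `p`-th power, then `H = ⊤`. -/
theorem good_primes_generate (p : ℕ) [Fact p.Prime] (hp : 3 ≤ p)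
    (K : Type) [Field K] [NumberField K] (ζ : K) (hζ : IsPrimitiveRoot ζ p)
    (u : (𝓞 K)ˣ) (hu : ¬ ∃ y : K, y ^ p = ((u : 𝓞 K) : K))
    (H : Subgroup (ClassGroup (𝓞 K)))
    (hH : ∀ (𝔮 : (Ideal (𝓞 K))⁰), (𝔮 : Ideal (𝓞 K)).IsPrime →
      (Ideal.absNorm (𝔮 : Ideal (𝓞 K))).Prime → Ideal.absNorm (𝔮 : Ideal (𝓞 K)) ≠ p →
      (¬ ∃ y : 𝓞 K, y ^ p - (u : 𝓞 K) ∈ (𝔮 : Ideal (𝓞 K))) → ClassGroup.mk0 𝔮 ∈ H) :
    H = ⊤ :=
  good_primes_generate_of_bound p hp K ζ hζ u hu (fun C C' => CZ.classZeta_sub_bounded K C C') H hH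

end Fermat.Agent.S14
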