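import Fermat.Agent.S14.IdealMonoid

set_option autoImplicit false
set_option linter.deprecated false

/-!
# The primes of degree `≥ 2` contribute a bounded Euler product
-/

namespace Fermat.Agent.S14

open NumberField Ideal nonZeroDivisors

variable (K : Type*) [Field K] [NumberField K]

lemma exp_neg_two_mul_le {x : ℝ} (h0 : 0 ≤ x) (h1 : x ≤ 1 / 2) : Real.exp (-(2 * x)) ≤ 1 - x := by
  have h2 : 1 + 2 * x ≤ Real.exp (2 * x) := by
    have := Real.add_one_le_exp (2 * x); linarith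
  have h3 : 0 < 1 + 2 * x := by linarith
  rw [Real.exp_neg]
  calc (Real.exp (2 * x))⁻¹ ≤ (1 + 2 * x)⁻¹ := inv_anti₀ h3 h2
    _ ≤ 1 - x := by
      rw [inv_le_iff_one_le_mul₀ h3]
      nlinarith

/-- the rational prime below a prime ideal -/
lemma exists_prime_below {q : (Ideal (𝓞 K))⁰} (hq : (q : Ideal (𝓞 K)).IsPrime) :
    ∃ f : ℕ, 0 < f ∧ ((absNorm (q : Ideal (𝓞 K))).minFac : 𝓞 K) ∈ (q : Ideal (𝓞 K)) ∧
      (absNorm (q : Ideal (𝓞 K))).minFac.Prime ∧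
      absNorm (q : Ideal (𝓞 K)) = (absNorm (q : Ideal (𝓞 K))).minFac ^ f := by
  have : (q : Ideal (𝓞 K)).IsMaximal := hq.isMaximal (nonZeroDivisors.coe_ne_zero q)
  obtain ⟨ℓ, f, hf, hmem, hℓ, hN⟩ := exists_prime_and_absNorm_eq_pow (q : Ideal (𝓞 K))
  have : (absNorm (q : Ideal (𝓞 K))).minFac = ℓ := by rw [hN, hℓ.pow_minFac hf.ne']
  rw [this]
  exact ⟨f, hf, hmem, hℓ, hN⟩

lemma card_fiber_le (F : Finset (Ideal (𝓞 K))⁰) (hF : ∀ q ∈ F, (q : Ideal (𝓞 K)).IsPrime)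
    (ℓ : ℕ) (hℓ : ℓ.Prime) :
    (F.filter fun q : (Ideal (𝓞 K))⁰ => (absNorm (q : Ideal (𝓞 K))).minFac = ℓ).card ≤
      Module.finrank ℚ K := by
  have hne : (span {(ℓ : ℤ)} : Ideal ℤ) ≠ ⊥ := by
    simpa using hℓ.ne_zero
  have hmax : (span {(ℓ : ℤ)} : Ideal ℤ).IsMaximal :=
    ((span_singleton_prime (by exact_mod_cast hℓ.ne_zero)).mpr
      (Nat.prime_iff_prime_int.mp hℓ)).isMaximal hne
  refine le_trans ?_ (card_primesOverFinset_le_finrank (𝓞 K) ℚ K hne)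
  refine Finset.card_le_card_of_injOn (fun q : (Ideal (𝓞 K))⁰ => (q : Ideal (𝓞 K))) ?_
    (fun a _ b _ h => Subtype.ext h)
  intro q hq
  rw [Finset.coe_filter] at hq
  obtain ⟨hqF, hqℓ⟩ := hq
  have hqp := hF q hqF
  obtain ⟨f, -, hmem, -, -⟩ := exists_prime_below K hqp
  rw [hqℓ] at hmem
  rw [Finset.mem_coe, IsDedekindDomain.mem_primesOverFinset_iff hne]
  refine ⟨hqp, ⟨?_⟩⟩
  refine hmax.eq_of_le ?_ ?_
  · exact (Ideal.IsPrime.under ℤ (q : Ideal (𝓞 K))).ne_top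
  · rw [span_singleton_le_iff_mem, Ideal.mem_comap]
    simpa using hmem

lemma inv_absNorm_le (p : ℕ) (hp : 0 < p) {q : (Ideal (𝓞 K))⁰} (hq : (q : Ideal (𝓞 K)).IsPrime)
    (hD : ¬ (absNorm (q : Ideal (𝓞 K))).Prime ∨ absNorm (q : Ideal (𝓞 K)) = p) :
    ((absNorm (q : Ideal (𝓞 K)) : ℝ))⁻¹ ≤
      (p : ℝ) ^ 2 * (1 / ((absNorm (q : Ideal (𝓞 K))).minFac : ℝ) ^ 2) := by
  obtain ⟨f, hf, -, hℓ, hN⟩ := exists_prime_below K hq
  set ℓ := (absNorm (q : Ideal (𝓞 K))).minFac with hℓdef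
  have hℓ0 : (0 : ℝ) < ℓ := by exact_mod_cast hℓ.pos
  have hp1 : (1 : ℝ) ≤ p := by exact_mod_cast hp
  rcases hD with h | h
  · have hf2 : 2 ≤ f := by
      by_contra hlt
      have : f = 1 := by omega
      rw [this, pow_one] at hN
      exact h (hN ▸ hℓ)
    have h1 : (ℓ : ℝ) ^ 2 ≤ (absNorm (q : Ideal (𝓞 K)) : ℝ) := by
      rw [hN]
      push_cast
      exact pow_le_pow_right₀ (by exact_mod_cast hℓ.one_le) hf2
    calc ((absNorm (q : Ideal (𝓞 K)) : ℝ))⁻¹ ≤ ((ℓ : ℝ) ^ 2)⁻¹ := inv_anti₀ (by positivity) h1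
      _ = 1 * (1 / (ℓ : ℝ) ^ 2) := by rw [one_mul, one_div]
      _ ≤ (p : ℝ) ^ 2 * (1 / (ℓ : ℝ) ^ 2) := by
        gcongr
        exact one_le_pow₀ hp1
  · have h1 : ℓ ≤ p := by
      rw [← h]
      exact Nat.minFac_le (nzd_absNorm_pos q)
    have h2 : (ℓ : ℝ) ^ 2 ≤ (p : ℝ) ^ 2 := by
      have : (ℓ : ℝ) ≤ p := by exact_mod_cast h1
      gcongr
    rw [h]
    calc ((p : ℝ))⁻¹ ≤ 1 := inv_le_one_of_one_le₀ hp1
      _ ≤ (p : ℝ) ^ 2 * (1 / (ℓ : ℝ) ^ 2) := by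
        rw [mul_one_div, le_div_iff₀ (by positivity), one_mul]
        exact h2

theorem exists_bound_prod_nonDegOne (p : ℕ) (hp : 0 < p) :
    ∃ c : ℝ, 0 < c ∧ ∀ (F : Finset (Ideal (𝓞 K))⁰),
      (∀ q ∈ F, (q : Ideal (𝓞 K)).IsPrime ∧
        (¬ (absNorm (q : Ideal (𝓞 K))).Prime ∨ absNorm (q : Ideal (𝓞 K)) = p)) →
      ∀ s : ℝ, 1 ≤ s → c ≤ ∏ q ∈ F, (1 - normPow K s q) := by
  classical
  have hsum : Summable fun k : ℕ => 1 / (k : ℝ) ^ 2 :=
    Real.summable_one_div_nat_pow.mpr (by norm_num)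
  set T := ∑' k : ℕ, 1 / (k : ℝ) ^ 2 with hT
  set n := Module.finrank ℚ K with hn
  refine ⟨Real.exp (-(2 * ((p : ℝ) ^ 2 * (n * T)))), Real.exp_pos _, fun F hF s hs => ?_⟩
  have h1 : ∀ q ∈ F, Real.exp (-(2 * normPow K s q)) ≤ 1 - normPow K s q := fun q hq =>
    exp_neg_two_mul_le (normPow_pos s q).le (normPow_prime_le_half hs (hF q hq).1)
  refine le_trans ?_ (Finset.prod_le_prod (fun q _ => (Real.exp_pos _).le) h1)
  rw [← Real.exp_sum, Real.exp_le_exp, Finset.sum_neg_distrib, neg_le_neg_iff, ← Finset.mul_sum]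
  refine mul_le_mul_of_nonneg_left ?_ (by norm_num)
  calc ∑ q ∈ F, normPow K s q
      ≤ ∑ q ∈ F, (p : ℝ) ^ 2 * (1 / ((absNorm (q : Ideal (𝓞 K))).minFac : ℝ) ^ 2) :=
        Finset.sum_le_sum fun q hq =>
          (normPow_le_inv hs q).trans (inv_absNorm_le K p hp (hF q hq).1 (hF q hq).2)
    _ = (p : ℝ) ^ 2 * ∑ q ∈ F, (1 / ((absNorm (q : Ideal (𝓞 K))).minFac : ℝ) ^ 2) := by
        rw [Finset.mul_sum]
    _ ≤ (p : ℝ) ^ 2 * (n * T) := by
        refine mul_le_mul_of_nonneg_left ?_ (by positivity)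
        rw [Finset.sum_comp (fun k : ℕ => 1 / (k : ℝ) ^ 2)
          (fun q : (Ideal (𝓞 K))⁰ => (absNorm (q : Ideal (𝓞 K))).minFac)]
        calc _ ≤ ∑ b ∈ F.image (fun q : (Ideal (𝓞 K))⁰ => (absNorm (q : Ideal (𝓞 K))).minFac),
              (n : ℝ) * (1 / (b : ℝ) ^ 2) := by
              refine Finset.sum_le_sum fun b hb => ?_
              rw [nsmul_eq_mul]
              refine mul_le_mul_of_nonneg_right ?_ (by positivity)
              obtain ⟨q, hq, rfl⟩ := Finset.mem_image.mp hb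
              obtain ⟨f, -, -, hℓ, -⟩ := exists_prime_below K (hF q hq).1
              exact_mod_cast card_fiber_le K F (fun q hq => (hF q hq).1) _ hℓ
          _ = (n : ℝ) * ∑ b ∈ F.image
                (fun q : (Ideal (𝓞 K))⁰ => (absNorm (q : Ideal (𝓞 K))).minFac),
                (1 / (b : ℝ) ^ 2) := by rw [Finset.mul_sum]
          _ ≤ n * T := by
              refine mul_le_mul_of_nonneg_left ?_ (by positivity)
              exact hsum.sum_le_tsum _ (fun _ _ => by positivity)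

end Fermat.Agent.S14
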