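import Fermat.Agent.S14.ResidueProd
import Fermat.Agent.S14.DegreeTwo

set_option autoImplicit false

/-!
# (M1) modulo the hard bound for the partial zeta functions
-/

namespace Fermat.Agent.S14

open NumberField Ideal nonZeroDivisors Polynomial Filter Topology

section bound

variable {K : Type*} [Field K] [NumberField K]

/-- decomposition of `L(s,χ)` along the ideal classes -/
theorem tsum_twistPow_eq (χ : ClassGroup (𝓞 K) →* ℂˣ) {s : ℝ} (hs : 1 < s) :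
    ∑' I, twistPow χ s I = ∑ C : ClassGroup (𝓞 K), (χ C : ℂ) *
      ((∑' I : {I : (Ideal (𝓞 K))⁰ // ClassGroup.mk0 I = C},
        (absNorm (I.1 : Ideal (𝓞 K)) : ℝ) ^ (-s) : ℝ) : ℂ) := by
  let e := Equiv.sigmaFiberEquiv (fun I : (Ideal (𝓞 K))⁰ => ClassGroup.mk0 I)
  have hsum : Summable fun x => twistPow χ s (e x) :=
    (e.summable_iff (f := twistPow χ s)).mpr (summable_twistPow χ hs)
  rw [← e.tsum_eq (twistPow χ s), hsum.tsum_sigma, tsum_fintype]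
  refine Finset.sum_congr rfl fun C _ => ?_
  rw [Complex.ofReal_tsum, ← tsum_mul_left]
  refine tsum_congr fun y => ?_
  have : ClassGroup.mk0 (e ⟨C, y⟩) = C := y.2
  rw [twistPow_apply, this]
  rfl

theorem norm_tsum_twistPow_le
    (hB : ∀ C C' : ClassGroup (𝓞 K), ∃ B : ℝ, ∀ s : ℝ, 1 < s → s ≤ 2 →
      |(∑' I : {I : (Ideal (𝓞 K))⁰ // ClassGroup.mk0 I = C},
          (absNorm (I.1 : Ideal (𝓞 K)) : ℝ) ^ (-s)) -
        (∑' I : {I : (Ideal (𝓞 K))⁰ // ClassGroup.mk0 I = C'},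
          (absNorm (I.1 : Ideal (𝓞 K)) : ℝ) ^ (-s))| ≤ B)
    (χ : ClassGroup (𝓞 K) →* ℂˣ) (hχ : χ ≠ 1) :
    ∃ B : ℝ, ∀ s : ℝ, 1 < s → s ≤ 2 → ‖∑' I, twistPow χ s I‖ ≤ B := by
  choose B hB using fun C => hB C 1
  refine ⟨∑ C, B C, fun s hs hs2 => ?_⟩
  have h0 : ∑ C : ClassGroup (𝓞 K), (χ C : ℂ) = 0 := by
    have := sum_hom_units_eq_zero ((Units.coeHom ℂ).comp χ) (fun h => hχ (by
      ext C
      have := DFunLike.congr_fun h C
      simpa using this))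
    simpa using this
  set h : ClassGroup (𝓞 K) → ℝ := fun C => ∑' I : {I : (Ideal (𝓞 K))⁰ // ClassGroup.mk0 I = C},
        (absNorm (I.1 : Ideal (𝓞 K)) : ℝ) ^ (-s) with hh
  have e : ∑ C : ClassGroup (𝓞 K), (χ C : ℂ) * (h C : ℂ) =
      ∑ C : ClassGroup (𝓞 K), (χ C : ℂ) * ((h C - h 1 : ℝ) : ℂ) := by
    have : ∑ C : ClassGroup (𝓞 K), (χ C : ℂ) * ((h C - h 1 : ℝ) : ℂ) =
        ∑ C : ClassGroup (𝓞 K), (χ C : ℂ) * (h C : ℂ) -
          (∑ C : ClassGroup (𝓞 K), (χ C : ℂ)) * (h 1 : ℂ) := by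
      rw [Finset.sum_mul, ← Finset.sum_sub_distrib]
      refine Finset.sum_congr rfl fun C _ => ?_
      push_cast
      ring
    rw [this, h0, zero_mul, sub_zero]
  rw [tsum_twistPow_eq χ hs, e]
  refine (norm_sum_le _ _).trans (Finset.sum_le_sum fun C _ => ?_)
  rw [norm_mul, norm_classChar, one_mul, Complex.norm_real, Real.norm_eq_abs]
  exact hB C s hs hs2

end bound

/-- a nontrivial character of a finite commutative group, trivial on a proper subgroup -/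
theorem exists_char_of_ne_top {G : Type*} [CommGroup G] [Finite G] (H : Subgroup G) (hH : H ≠ ⊤) :
    ∃ χ : G →* ℂˣ, χ ≠ 1 ∧ ∀ h ∈ H, χ h = 1 := by
  obtain ⟨a, ha⟩ : ∃ a, a ∉ H := by
    by_contra hcon
    exact hH (eq_top_iff.mpr fun x _ => by_contra fun hx => hcon ⟨x, hx⟩)
  have ha' : (QuotientGroup.mk a : G ⧸ H) ≠ 1 := by
    rwa [Ne, QuotientGroup.eq_one_iff]
  obtain ⟨φ, hφ⟩ := CommGroup.exists_apply_ne_one_of_hasEnoughRootsOfUnity (G ⧸ H) ℂ ha'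
  refine ⟨φ.comp (QuotientGroup.mk' H), fun h => hφ ?_, fun h hh => ?_⟩
  · have := DFunLike.congr_fun h a
    simpa using this
  · have : (QuotientGroup.mk h : G ⧸ H) = 1 := (QuotientGroup.eq_one_iff h).mpr hh
    simp [this]

/-- the final limit argument -/
theorem false_of_zeta_le (K L : Type*) [Field K] [NumberField K] [Field L] [NumberField L]
    (r : ℝ) (hr0 : 0 < r) (hr1 : r < 1) (C : ℝ)
    (h : ∀ s : ℝ, 1 < s → s ≤ 2 → idealZeta K s ≤ C * idealZeta L s ^ r) : False := by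
  have hK := tendsto_sub_one_mul_idealZeta K
  have hL := tendsto_sub_one_mul_idealZeta L
  have h1 : Tendsto (fun s : ℝ => (s - 1) ^ (1 - r)) (𝓝[>] 1) (𝓝 0) := by
    have hc : ContinuousAt (fun s : ℝ => (s - 1) ^ (1 - r)) 1 := by
      refine ContinuousAt.rpow_const (by fun_prop) (Or.inr (by linarith))
    have := hc.tendsto
    simp only [sub_self] at this
    rw [Real.zero_rpow (by linarith)] at this
    exact tendsto_nhdsWithin_of_tendsto_nhds this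
  have h2 : Tendsto (fun s : ℝ => C * ((s - 1) * idealZeta L s) ^ r * (s - 1) ^ (1 - r))
      (𝓝[>] 1) (𝓝 (C * (dedekindZeta_residue L) ^ r * 0)) :=
    ((hL.rpow_const (Or.inr hr0.le)).const_mul C).mul h1
  rw [mul_zero] at h2
  have h3 : ∀ᶠ s in 𝓝[>] (1 : ℝ), (s - 1) * idealZeta K s ≤
      C * ((s - 1) * idealZeta L s) ^ r * (s - 1) ^ (1 - r) := by
    have hmem : Set.Ioc (1 : ℝ) 2 ∈ 𝓝[>] (1 : ℝ) := Ioc_mem_nhdsGT (by norm_num)
    filter_upwards [hmem] with s hs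
    have hs1 : 0 < s - 1 := by linarith [hs.1]
    have hZ : 0 ≤ idealZeta L s := by linarith [one_le_idealZeta L hs.1]
    have e : C * ((s - 1) * idealZeta L s) ^ r * (s - 1) ^ (1 - r) =
        (s - 1) * (C * idealZeta L s ^ r) := by
      rw [Real.mul_rpow hs1.le hZ]
      have : (s - 1) ^ r * (s - 1) ^ (1 - r) = s - 1 := by
        rw [← Real.rpow_add hs1]; simp
      calc C * ((s - 1) ^ r * idealZeta L s ^ r) * (s - 1) ^ (1 - r)
          = ((s - 1) ^ r * (s - 1) ^ (1 - r)) * (C * idealZeta L s ^ r) := by ring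
        _ = _ := by rw [this]
    rw [e]
    exact mul_le_mul_of_nonneg_left (h s hs.1 hs.2) hs1.le
  have := le_of_tendsto_of_tendsto hK h2 h3
  exact absurd this (not_le.mpr (dedekindZeta_residue_pos K))

/-- (M1) modulo the hard bound. -/
theorem good_primes_generate_of_bound (p : ℕ) [Fact p.Prime] (hp : 3 ≤ p)
    (K : Type) [Field K] [NumberField K] (ζ : K) (hζ : IsPrimitiveRoot ζ p)
    (u : (𝓞 K)ˣ) (hu : ¬ ∃ y : K, y ^ p = ((u : 𝓞 K) : K))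
    (hB : ∀ C C' : ClassGroup (𝓞 K), ∃ B : ℝ, ∀ s : ℝ, 1 < s → s ≤ 2 →
      |(∑' I : {I : (Ideal (𝓞 K))⁰ // ClassGroup.mk0 I = C},
          (absNorm (I.1 : Ideal (𝓞 K)) : ℝ) ^ (-s)) -
        (∑' I : {I : (Ideal (𝓞 K))⁰ // ClassGroup.mk0 I = C'},
          (absNorm (I.1 : Ideal (𝓞 K)) : ℝ) ^ (-s))| ≤ B)
    (H : Subgroup (ClassGroup (𝓞 K)))
    (hH : ∀ (𝔮 : (Ideal (𝓞 K))⁰), (𝔮 : Ideal (𝓞 K)).IsPrime →
      (Ideal.absNorm (𝔮 : Ideal (𝓞 K))).Prime → Ideal.absNorm (𝔮 : Ideal (𝓞 K)) ≠ p →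
      (¬ ∃ y : 𝓞 K, y ^ p - (u : 𝓞 K) ∈ (𝔮 : Ideal (𝓞 K))) → ClassGroup.mk0 𝔮 ∈ H) :
    H = ⊤ := by
  classical
  by_contra hne
  have hpp : p.Prime := Fact.out
  obtain ⟨χ, hχ1, hχH⟩ := exists_char_of_ne_top H hne
  obtain ⟨B, hB⟩ := norm_tsum_twistPow_le hB χ hχ1
  -- the Kummer extension
  let L := (X ^ p - C ((u : 𝓞 K) : K)).SplittingField
  have : NumberField L := NumberField.of_module_finite K L
  obtain ⟨c, hc0, hc⟩ := exists_bound_prod_nonDegOne K p hpp.pos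
  let Bad : (Ideal (𝓞 K))⁰ → Prop := fun q => (q : Ideal (𝓞 K)).IsPrime ∧
    ¬ ((absNorm (q : Ideal (𝓞 K))).Prime ∧ absNorm (q : Ideal (𝓞 K)) ≠ p ∧
      ¬ ∃ y : 𝓞 K, y ^ p - (u : 𝓞 K) ∈ (q : Ideal (𝓞 K)))
  have hgood : ∀ q : (Ideal (𝓞 K))⁰, (q : Ideal (𝓞 K)).IsPrime → ¬ Bad q →
      χ (ClassGroup.mk0 q) = 1 := by
    intro q hq hb
    have : (absNorm (q : Ideal (𝓞 K))).Prime ∧ absNorm (q : Ideal (𝓞 K)) ≠ p ∧
      ¬ ∃ y : 𝓞 K, y ^ p - (u : 𝓞 K) ∈ (q : Ideal (𝓞 K)) := by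
      by_contra hcon
      exact hb ⟨hq, hcon⟩
    exact hχH _ (hH q hq this.1 this.2.1 this.2.2)
  have hp0 : (0 : ℝ) < p := by exact_mod_cast hpp.pos
  refine false_of_zeta_le K L (2 / p) (by positivity) ?_ (2 * B / c ^ 2) fun s hs hs2 => ?_
  · rw [div_lt_one hp0]
    exact_mod_cast (by omega : 2 < p)
  obtain ⟨F, hFbad, hF⟩ := norm_LChi_ge χ Bad (fun q h => h.1) hgood hs
  set D : (Ideal (𝓞 K))⁰ → Prop := fun q =>
    ¬ (absNorm (q : Ideal (𝓞 K))).Prime ∨ absNorm (q : Ideal (𝓞 K)) = p with hD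
  set PD := ∏ q ∈ F.filter D, (1 - normPow K s q) with hPD
  set PS := ∏ q ∈ F.filter (fun q => ¬ D q), (1 - normPow K s q) with hPS
  have hprod : ∏ q ∈ F, (1 - normPow K s q) = PD * PS :=
    (Finset.prod_filter_mul_prod_filter_not F D _).symm
  have hPDc : c ≤ PD := hc _ (fun q hq => by
    obtain ⟨h1, h2⟩ := Finset.mem_filter.mp hq
    exact ⟨(hFbad q h1).1, h2⟩) s hs.le
  have hPS0 : 0 ≤ PS := Finset.prod_nonneg fun q hq => by
    have := normPow_prime_le_half hs.le (hFbad q (Finset.mem_filter.mp hq).1).1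
    linarith
  have hPS1 : 1 ≤ PS ^ p * idealZeta L s := by
    refine one_le_prod_residue_pow_mul p K L ζ hζ u hu _ (fun q hq => ?_) hs
    obtain ⟨h1, h2⟩ := Finset.mem_filter.mp hq
    obtain ⟨hqp, hqb⟩ := hFbad q h1
    have h3 : (absNorm (q : Ideal (𝓞 K))).Prime ∧ absNorm (q : Ideal (𝓞 K)) ≠ p := by
      simp only [hD, not_or, not_not] at h2
      exact h2
    refine ⟨hqp, fun hmem => ?_, ?_⟩
    · have hdvd : absNorm (q : Ideal (𝓞 K)) ∣ p ^ Module.finrank ℤ (𝓞 K) := by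
        rw [← absNorm_span_natCast]
        exact absNorm_dvd_absNorm_of_le ((span_singleton_le_iff_mem _).mpr hmem)
      exact h3.2 ((Nat.prime_dvd_prime_iff_eq h3.1 hpp).mp (h3.1.dvd_of_dvd_pow hdvd))
    · by_contra hcon
      exact hqb ⟨h3.1, h3.2, hcon⟩
  set w := idealZeta L s with hw
  have hw1 : 1 ≤ w := one_le_idealZeta L hs
  have hw0 : 0 < w := by linarith
  -- `PS ≥ w^(-1/p)`
  have hPSw : w ^ (-(1 / (p : ℝ))) ≤ PS := by
    have h1 : w⁻¹ ≤ PS ^ p := by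
      rw [inv_le_iff_one_le_mul₀ hw0]
      linarith [mul_comm (PS ^ p) w]
    have h2 : (w⁻¹) ^ ((p : ℝ)⁻¹) ≤ (PS ^ p) ^ ((p : ℝ)⁻¹) :=
      Real.rpow_le_rpow (by positivity) h1 (by positivity)
    rw [Real.pow_rpow_inv_natCast hPS0 hpp.ne_zero, Real.inv_rpow hw0.le,
      ← Real.rpow_neg hw0.le] at h2
    simpa [one_div] using h2
  have hPS2 : w ^ (-(2 / (p : ℝ))) ≤ PS ^ 2 := by
    have h1 : (w ^ (-(1 / (p : ℝ)))) ^ 2 ≤ PS ^ 2 :=
      pow_le_pow_left₀ (by positivity) hPSw 2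
    have h2 : (w ^ (-(1 / (p : ℝ)))) ^ 2 = w ^ (-(2 / (p : ℝ))) := by
      rw [← Real.rpow_natCast, ← Real.rpow_mul hw0.le]
      congr 1
      push_cast
      ring
    rwa [h2] at h1
  have hZ0 : 0 ≤ idealZeta K s := by linarith [one_le_idealZeta K hs]
  have hmain : 1 / 2 * idealZeta K s * (c ^ 2 * w ^ (-(2 / (p : ℝ)))) ≤ B := by
    refine le_trans ?_ (hF.trans (hB s hs hs2))
    rw [hprod, mul_pow]
    refine mul_le_mul_of_nonneg_left ?_ (by positivity)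
    exact mul_le_mul (pow_le_pow_left₀ hc0.le hPDc 2) hPS2 (by positivity) (by positivity)
  have hwr : 0 < w ^ (2 / (p : ℝ)) := Real.rpow_pos_of_pos hw0 _
  have hwinv : w ^ (-(2 / (p : ℝ))) = (w ^ (2 / (p : ℝ)))⁻¹ := Real.rpow_neg hw0.le _
  rw [hwinv] at hmain
  have hc2 : 0 < c ^ 2 := by positivity
  calc idealZeta K s
      = (1 / 2 * idealZeta K s * (c ^ 2 * (w ^ (2 / (p : ℝ)))⁻¹)) *
          (2 / c ^ 2 * w ^ (2 / (p : ℝ))) := by
        field_simp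
    _ ≤ B * (2 / c ^ 2 * w ^ (2 / (p : ℝ))) :=
        mul_le_mul_of_nonneg_right hmain (by positivity)
    _ = 2 * B / c ^ 2 * w ^ (2 / (p : ℝ)) := by ring

end Fermat.Agent.S14
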