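import Fermat.Agent.S14.Defs
import Fermat.Agent.S14.UnitRank.Abstract
import Fermat.Agent.S14.UnitRank.LogAction

set_option autoImplicit false
set_option linter.unusedSectionVars false

open NumberField IsCyclotomicExtension

namespace Fermat.Agent.S14

variable (p : ℕ) [Fact p.Prime] (K : Type) [Field K] [NumberField K]
  [IsCyclotomicExtension {p} ℚ K]

open Module NumberField.Units NumberField.InfinitePlace TensorProduct

theorem sig_apply_zeta (c : (ZMod p)ˣ) :
    sig p K c (zeta p ℚ K) = zeta p ℚ K ^ (c : ZMod p).val := by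
  have := Rat.galEquivZMod_apply_of_pow_eq p K (sig p K c) (zeta_spec p ℚ K).pow_eq_one
  rw [this, sig, MulEquiv.apply_symm_apply]

theorem ringHom_ext_zeta {φ ψ : K →+* ℂ} (h : φ (zeta p ℚ K) = ψ (zeta p ℚ K)) : φ = ψ := by
  have h1 : φ.toRatAlgHom = ψ.toRatAlgHom := by
    apply ((zeta_spec p ℚ K).powerBasis ℚ).algHom_ext
    simpa using h
  ext x
  exact DFunLike.congr_fun h1 x

theorem conj_map_zeta (φ : K →+* ℂ) (n : ℕ) :
    (starRingEnd ℂ) (φ (zeta p ℚ K ^ n)) = φ ((zeta p ℚ K ^ n)⁻¹) := by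
  have h1 : (φ (zeta p ℚ K ^ n)) ^ p = 1 := by
    rw [← map_pow, ← pow_mul, mul_comm, pow_mul, (zeta_spec p ℚ K).pow_eq_one, one_pow, map_one]
  have h2 : ‖φ (zeta p ℚ K ^ n)‖ = 1 :=
    Complex.norm_eq_one_of_pow_eq_one h1 (Fact.out : p.Prime).ne_zero
  rw [map_inv₀, Complex.inv_def, Complex.normSq_eq_norm_sq, h2]
  simp

theorem sig_smul_place_eq_iff (c : (ZMod p)ˣ) (w : InfinitePlace K) :
    sig p K c • w = w ↔ c = 1 ∨ c = -1 := by
  have hp : p.Prime := Fact.out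
  have hζ := zeta_spec p ℚ K
  obtain ⟨φ, rfl⟩ : ∃ φ, InfinitePlace.mk φ = w := ⟨w.embedding, mk_embedding w⟩
  have hsymm : ∀ x, (sig p K c).symm x = sig p K c⁻¹ x := by
    intro x
    have : (sig p K c).symm = sig p K c⁻¹ := by
      rw [sig, sig, map_inv]; rfl
    rw [this]
  rw [smul_mk, mk_eq_iff]
  constructor
  · rintro (h | h)
    · left
      have h1 := DFunLike.congr_fun h (zeta p ℚ K)
      simp only [RingHom.comp_apply, RingHom.coe_coe, hsymm, sig_apply_zeta] at h1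
      have h2 := φ.injective h1
      have h3 : zeta p ℚ K ^ ((c⁻¹ : (ZMod p)ˣ) : ZMod p).val = zeta p ℚ K ^ 1 := by rw [h2, pow_one]
      have h4 := hζ.pow_inj (ZMod.val_lt _) hp.one_lt h3
      have h5 : ((c⁻¹ : (ZMod p)ˣ) : ZMod p) = 1 := by
        rw [← ZMod.natCast_zmod_val ((c⁻¹ : (ZMod p)ˣ) : ZMod p), h4]; simp
      have h6 : c⁻¹ = 1 := Units.ext h5
      exact inv_eq_one.mp h6
    · right
      have h1 := DFunLike.congr_fun h (zeta p ℚ K)
      simp only [ComplexEmbedding.conjugate_coe_eq, RingHom.comp_apply, RingHom.coe_coe, hsymm,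
        sig_apply_zeta] at h1
      rw [conj_map_zeta] at h1
      have h2 := φ.injective h1
      have h3 : zeta p ℚ K ^ (((c⁻¹ : (ZMod p)ˣ) : ZMod p).val + 1) = 1 := by
        rw [pow_succ]
        nth_rewrite 2 [← h2]
        exact mul_inv_cancel₀ (pow_ne_zero _ (hζ.ne_zero hp.ne_zero))
      have h4 := (hζ.pow_eq_one_iff_dvd _).mp h3
      have h5 : ((c⁻¹ : (ZMod p)ˣ) : ZMod p) + 1 = 0 := by
        have := (ZMod.natCast_eq_zero_iff _ _).mpr h4
        rw [Nat.cast_add, ZMod.natCast_zmod_val, Nat.cast_one] at this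
        exact this
      have h6 : c⁻¹ = -1 := Units.ext (by
        rw [Units.val_neg, Units.val_one]; exact eq_neg_of_add_eq_zero_left h5)
      rw [← inv_inv c, h6, inv_neg, inv_one]
  · rintro (rfl | rfl)
    · left
      apply ringHom_ext_zeta p K
      simp only [RingHom.comp_apply, RingHom.coe_coe, hsymm, sig_apply_zeta]
      simp [ZMod.val_one]
    · right
      apply ringHom_ext_zeta p K
      simp only [ComplexEmbedding.conjugate_coe_eq, RingHom.comp_apply, RingHom.coe_coe, hsymm,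
        sig_apply_zeta]
      rw [conj_map_zeta]
      congr 1
      rw [inv_neg, inv_one, Units.val_neg, Units.val_one]
      have h1 : zeta p ℚ K ^ (-1 : ZMod p).val * zeta p ℚ K = 1 := by
        rw [← pow_succ]
        apply (hζ.pow_eq_one_iff_dvd _).mpr
        rw [← ZMod.natCast_eq_zero_iff, Nat.cast_add, ZMod.natCast_zmod_val, Nat.cast_one]
        ring
      exact inv_eq_of_mul_eq_one_right h1

theorem two_mul_rank_add_one (hp3 : 3 ≤ p) : 2 * (rank K + 1) = p - 1 := by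
  have hp : p.Prime := Fact.out
  have h1 : Fintype.card (InfinitePlace K) = (p - 1) / 2 := by
    rw [card_eq_nrRealPlaces_add_nrComplexPlaces, Rat.nrRealPlaces_eq_zero (n := p) K (by omega),
      Rat.nrComplexPlaces_eq_totient_div_two p K, Nat.totient_prime hp, zero_add]
  have h2 : Even (p - 1) := by
    have := hp.even_sub_one (by omega)
    exact this
  obtain ⟨m, hm⟩ := h2
  rw [rank, h1]
  omega

theorem trace_latAct_sig (c : (ZMod p)ˣ) :
    LinearMap.trace ℤ (unitLattice K) (latAct K (sig p K c)) =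
      (if c = 1 ∨ c = -1 then ((rank K : ℤ) + 1) else 0) - 1 := by
  have h := trace_latAct K (sig p K c)
  by_cases hc : c = 1 ∨ c = -1
  · rw [trace_logAct_of_trivial K _ fun w => (sig_smul_place_eq_iff p K c w).mpr hc] at h
    rw [if_pos hc]
    have : (LinearMap.trace ℤ (unitLattice K) (latAct K (sig p K c)) : ℤ) = (rank K : ℤ) := by
      exact_mod_cast h
    rw [this]; ring
  · rw [trace_logAct_of_free K _ fun w hw => hc ((sig_smul_place_eq_iff p K c w).mp hw)] at h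
    rw [if_neg hc]
    have : (LinearMap.trace ℤ (unitLattice K) (latAct K (sig p K c)) : ℤ) = -1 := by
      exact_mod_cast h
    rw [this]; ring

/-- the class of a unit in `E/(μ E^p)`. -/
noncomputable def cls (u : (𝓞 K)ˣ) : ZMod p ⊗[ℤ] unitLattice K := 1 ⊗ₜ latCls K u

/-- the action on `E/(μ E^p)`. -/
noncomputable def rhoV (c : (ZMod p)ˣ) :
    (ZMod p ⊗[ℤ] unitLattice K) →ₗ[ZMod p] (ZMod p ⊗[ℤ] unitLattice K) :=
  (latAct K (sig p K c)).baseChange (ZMod p)

theorem rhoV_mul (c d : (ZMod p)ˣ) : rhoV p K (c * d) = rhoV p K c ∘ₗ rhoV p K d := by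
  rw [rhoV, rhoV, rhoV, ← LinearMap.baseChange_comp, ← latAct_mul, sig, sig, sig, map_mul]

theorem rhoV_cls (c : (ZMod p)ˣ) (u : (𝓞 K)ˣ) :
    rhoV p K c (cls p K u) = cls p K (sigU p K c u) := by
  rw [rhoV, cls, LinearMap.baseChange_tmul, latAct_latCls]
  rfl

theorem cls_mul (u v : (𝓞 K)ˣ) : cls p K (u * v) = cls p K u + cls p K v := by
  rw [cls, latCls_mul, TensorProduct.tmul_add]; rfl

theorem cls_pow (u : (𝓞 K)ˣ) (n : ℕ) : cls p K (u ^ n) = (n : ZMod p) • cls p K u := by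
  rw [cls, latCls_pow, TensorProduct.tmul_smul, Nat.cast_smul_eq_nsmul]; rfl

theorem cls_pow_p (u : (𝓞 K)ˣ) : cls p K (u ^ p) = 0 := by
  rw [cls_pow]; simp

theorem cls_torsion {t : (𝓞 K)ˣ} (ht : t ∈ torsion K) : cls p K t = 0 := by
  rw [cls, (latCls_eq_zero_iff K t).mpr ht, TensorProduct.tmul_zero]

theorem exists_of_tmul_eq_zero (x : unitLattice K) (h : (1 : ZMod p) ⊗ₜ[ℤ] x = 0) :
    ∃ y : unitLattice K, x = p • y := by
  let b := basisUnitLattice K
  have h1 : ∀ i, (p : ℤ) ∣ b.repr x i := by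
    intro i
    have h2 := congrArg (fun z => (b.baseChange (ZMod p)).repr z i) h
    simp only [Basis.baseChange_repr_tmul, map_zero, Finsupp.coe_zero, Pi.zero_apply] at h2
    rw [zsmul_one] at h2
    exact (ZMod.intCast_zmod_eq_zero_iff_dvd _ _).mp h2
  choose q hq using h1
  refine ⟨∑ i, q i • b i, ?_⟩
  rw [← b.sum_repr x, Finset.smul_sum]
  refine Finset.sum_congr rfl fun i _ => ?_
  rw [hq i, mul_smul]
  simp

theorem exists_of_cls_eq {u v : (𝓞 K)ˣ} (h : cls p K u = cls p K v) :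
    ∃ ε t : (𝓞 K)ˣ, t ∈ torsion K ∧ u = v * ε ^ p * t := by
  have h1 : (1 : ZMod p) ⊗ₜ[ℤ] (latCls K u - latCls K v) = 0 := by
    rw [TensorProduct.tmul_sub]
    exact sub_eq_zero.mpr h
  obtain ⟨y, hy⟩ := exists_of_tmul_eq_zero p K _ h1
  obtain ⟨ε, rfl⟩ := latCls_surjective K y
  refine ⟨ε, (v * ε ^ p)⁻¹ * u, ?_, by group⟩
  rw [← latCls_eq_zero_iff]
  have h2 : latCls K u = latCls K (v * ε ^ p) + latCls K ((v * ε ^ p)⁻¹ * u) := by
    rw [← latCls_mul]; congr 1; group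
  have h3 : latCls K (v * ε ^ p) = latCls K u := by
    rw [latCls_mul, latCls_pow, ← hy]; abel
  rw [h3] at h2
  exact (add_eq_left.mp h2.symm)

theorem trace_sum (hp5 : 5 ≤ p) :
    -∑ c : (ZMod p)ˣ, ((c⁻¹ ^ 2 : (ZMod p)ˣ) : ZMod p) *
      LinearMap.trace (ZMod p) (ZMod p ⊗[ℤ] unitLattice K) (rhoV p K c) = 1 := by
  classical
  have hp : p.Prime := Fact.out
  have : Module.Free ℤ (unitLattice K) := Module.Free.of_basis (basisUnitLattice K)
  have : Module.Finite ℤ (unitLattice K) := Module.Finite.of_basis (basisUnitLattice K)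
  have h1 : ∀ c : (ZMod p)ˣ, ((c⁻¹ ^ 2 : (ZMod p)ˣ) : ZMod p) *
      LinearMap.trace (ZMod p) (ZMod p ⊗[ℤ] unitLattice K) (rhoV p K c) =
      (if c = 1 ∨ c = -1 then ((rank K : ZMod p) + 1) else 0) - ((c⁻¹ ^ 2 : (ZMod p)ˣ) : ZMod p) := by
    intro c
    rw [rhoV, LinearMap.trace_baseChange, trace_latAct_sig]
    by_cases hc : c = 1 ∨ c = -1
    · rw [if_pos hc, if_pos hc]
      have : ((c⁻¹ ^ 2 : (ZMod p)ˣ) : ZMod p) = 1 := by
        rcases hc with rfl | rfl <;> simp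
      rw [this]
      simp
    · rw [if_neg hc, if_neg hc]
      simp
  rw [Finset.sum_congr rfl fun c _ => h1 c, Finset.sum_sub_distrib, sum_inv_sq_eq_zero p hp5,
    sub_zero, ← Finset.sum_filter]
  have hne : (1 : (ZMod p)ˣ) ≠ -1 := by
    intro h
    have h2 : (1 : ZMod p) = -1 := by
      have := congrArg (Units.val) h
      simpa using this
    have h3 : ((2 : ℕ) : ZMod p) = 0 := by
      push_cast
      linear_combination h2
    rw [ZMod.natCast_eq_zero_iff] at h3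
    have := Nat.le_of_dvd (by norm_num) h3
    omega
  have hfilter : (Finset.univ.filter fun c : (ZMod p)ˣ => c = 1 ∨ c = -1) = {1, -1} := by
    ext c; simp
  rw [hfilter, Finset.sum_pair hne]
  have h2 := two_mul_rank_add_one p K (by omega)
  have h3 : ((2 * (rank K + 1) : ℕ) : ZMod p) = ((p - 1 : ℕ) : ZMod p) := by rw [h2]
  rw [Nat.cast_sub hp.one_le] at h3
  push_cast at h3
  simp only [CharP.cast_eq_zero, zero_sub] at h3
  linear_combination -h3

/-- (M4) EQUIVARIANT DIRICHLET: the `ω²`-eigenspace of `E/(μ E^p)` has dimension `≤ 1`. -/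
theorem unit_rank (hp5 : 5 ≤ p) (η₁ η₂ : (𝓞 K)ˣ)
    (h₁ : ∀ c : (ZMod p)ˣ, ∃ ε t : (𝓞 K)ˣ, t ∈ Units.torsion K ∧
      sigU p K c η₁ = η₁ ^ mexp p c * ε ^ p * t)
    (h₂ : ∀ c : (ZMod p)ˣ, ∃ ε t : (𝓞 K)ˣ, t ∈ Units.torsion K ∧
      sigU p K c η₂ = η₂ ^ mexp p c * ε ^ p * t)
    (hne : ¬ ∃ ε t : (𝓞 K)ˣ, t ∈ Units.torsion K ∧ η₁ = ε ^ p * t) :
    ∃ (k : ℕ) (ε t : (𝓞 K)ˣ), t ∈ Units.torsion K ∧ η₂ = η₁ ^ k * ε ^ p * t := by
  have hp : p.Prime := Fact.out
  have key : ∀ η : (𝓞 K)ˣ, (∀ c : (ZMod p)ˣ, ∃ ε t : (𝓞 K)ˣ, t ∈ Units.torsion K ∧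
      sigU p K c η = η ^ mexp p c * ε ^ p * t) →
      ∀ c : (ZMod p)ˣ, rhoV p K c (cls p K η) = ((c ^ 2 : (ZMod p)ˣ) : ZMod p) • cls p K η := by
    intro η h c
    obtain ⟨ε, t, ht, h⟩ := h c
    rw [rhoV_cls, h, cls_mul, cls_mul, cls_pow, cls_pow_p, cls_torsion p K ht, add_zero, add_zero,
      mexp, ZMod.natCast_zmod_val]
  have : Module.Free ℤ (unitLattice K) := Module.Free.of_basis (basisUnitLattice K)
  have : Module.Finite ℤ (unitLattice K) := Module.Finite.of_basis (basisUnitLattice K)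
  have hdim : finrank (ZMod p) (ZMod p ⊗[ℤ] unitLattice K) < p := by
    rw [Module.finrank_baseChange, unitLattice_rank]
    have := two_mul_rank_add_one p K (by omega)
    omega
  have hv1 : cls p K η₁ ≠ 0 := by
    intro h
    have h' : cls p K η₁ = cls p K 1 := by
      rw [h, cls_torsion p K (one_mem _)]
    obtain ⟨ε, t, ht, h2⟩ := exists_of_cls_eq p K h'
    exact hne ⟨ε, t, ht, by rw [h2, one_mul]⟩
  obtain ⟨k, hk⟩ := eigen_line p hdim (rhoV p K) (rhoV_mul p K) (trace_sum p K hp5)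
    (cls p K η₁) (cls p K η₂) (key η₁ h₁) (key η₂ h₂) hv1
  have h3 : cls p K η₂ = cls p K (η₁ ^ k.val) := by
    rw [cls_pow, ZMod.natCast_zmod_val, hk]
  obtain ⟨ε, t, ht, h4⟩ := exists_of_cls_eq p K h3
  exact ⟨k.val, ε, t, ht, h4⟩

end Fermat.Agent.S14
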