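import Fermat.Agent.S14.ClassPart
import Fermat.Agent.S14.UnitRank

set_option autoImplicit false

open NumberField IsCyclotomicExtension

namespace Fermat.Agent.S14

variable (p : ℕ) [Fact p.Prime] (K : Type) [Field K] [NumberField K]
  [IsCyclotomicExtension {p} ℚ K]

/-- an element of `K` whose `p`-th power is (the image of) a unit is (the image of) a unit. -/
lemma ArithCore.exists_unit_of_pow_eq {n : ℕ} (hn : 0 < n) (e : K) (w : (𝓞 K)ˣ)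
    (h : e ^ n = ((w : 𝓞 K) : K)) : ∃ ε : (𝓞 K)ˣ, ((ε : 𝓞 K) : K) = e := by
  have h1 : IsIntegral ℤ e := by
    apply IsIntegral.of_pow hn
    rw [h]
    exact RingOfIntegers.isIntegral_coe _
  have h2 : IsIntegral ℤ e⁻¹ := by
    apply IsIntegral.of_pow hn
    rw [inv_pow, h]
    have : (((w : 𝓞 K) : K))⁻¹ = (((w⁻¹ : (𝓞 K)ˣ) : 𝓞 K) : K) := by
      apply inv_eq_of_mul_eq_one_right
      rw [← map_mul]
      simp
    rw [this]
    exact RingOfIntegers.isIntegral_coe _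
  have he : e ≠ 0 := by
    intro h0
    rw [h0, zero_pow hn.ne'] at h
    have : (w : 𝓞 K) = 0 := by
      apply RingOfIntegers.coe_injective
      simpa using h.symm
    exact w.ne_zero this
  refine ⟨⟨⟨e, h1⟩, ⟨e⁻¹, h2⟩, ?_, ?_⟩, rfl⟩
  · apply RingOfIntegers.coe_injective
    change e * e⁻¹ = 1
    exact mul_inv_cancel₀ he
  · apply RingOfIntegers.coe_injective
    change e⁻¹ * e = 1
    exact inv_mul_cancel₀ he

lemma ArithCore.coe_sigU (c : (ZMod p)ˣ) (η : (𝓞 K)ˣ) :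
    (((sigU p K c η : (𝓞 K)ˣ) : 𝓞 K) : K) = sig p K c ((η : 𝓞 K) : K) := rfl

lemma ArithCore.coe_sigO (c : (ZMod p)ˣ) (x : 𝓞 K) :
    ((sigO p K c x : 𝓞 K) : K) = sig p K c (x : K) := rfl

/-- descent of the eigen-relation from `α = η a₀^p` to the unit `η`. -/
lemma ArithCore.unit_eigen (α : 𝓞 K) (hα : α ≠ 0)
    (heig : ∀ c : (ZMod p)ˣ, ∃ k : K, sig p K c (α : K) = (α : K) ^ mexp p c * k ^ p)
    (η : (𝓞 K)ˣ) (a₀ : 𝓞 K) (h : α = η * a₀ ^ p) (c : (ZMod p)ˣ) :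
    ∃ ε : (𝓞 K)ˣ, sigU p K c η = η ^ mexp p c * ε ^ p := by
  have hp : p.Prime := Fact.out
  obtain ⟨k, hk⟩ := heig c
  have ha0 : a₀ ≠ 0 := by
    rintro rfl
    apply hα
    rw [h, zero_pow hp.ne_zero, mul_zero]
  have ha0K : (a₀ : K) ≠ 0 := by
    simpa using ha0
  have hσa : sig p K c (a₀ : K) ≠ 0 := by
    simpa using ha0K
  have hηK : ((η : 𝓞 K) : K) ≠ 0 := by
    simpa using η.ne_zero
  set m := mexp p c with hm
  let w : (𝓞 K)ˣ := sigU p K c η * (η ^ m)⁻¹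
  have hw : ((w : 𝓞 K) : K) = sig p K c ((η : 𝓞 K) : K) / ((η : 𝓞 K) : K) ^ m := by
    have h1 : ((w : 𝓞 K) : K) * ((η : 𝓞 K) : K) ^ m = sig p K c ((η : 𝓞 K) : K) := by
      rw [← ArithCore.coe_sigU, ← map_pow, ← map_mul, ← Units.val_pow_eq_pow_val, ← Units.val_mul]
      simp [w]
    rw [← h1]
    field_simp
  have hαK : (α : K) = ((η : 𝓞 K) : K) * (a₀ : K) ^ p := by
    rw [h]; simp
  rw [hαK, map_mul, map_pow] at hk
  obtain ⟨ε, hε⟩ := ArithCore.exists_unit_of_pow_eq K hp.pos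
    ((a₀ : K) ^ m * k / sig p K c (a₀ : K)) w (by
      rw [hw, div_pow, mul_pow, div_eq_div_iff (pow_ne_zero _ hσa) (pow_ne_zero _ hηK)]
      rw [mul_comm (sig p K c ((η : 𝓞 K) : K)), mul_comm] at *
      rw [mul_comm (sig p K c (a₀ : K) ^ p)] 
      rw [hk]
      ring)
  refine ⟨ε, ?_⟩
  have h2 : w = ε ^ p := by
    apply Units.ext
    apply RingOfIntegers.coe_injective
    rw [Units.val_pow_eq_pow_val, map_pow]
    change ((w : 𝓞 K) : K) = ((ε : 𝓞 K) : K) ^ p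
    rw [hε, hw, div_pow, mul_pow,
      div_eq_div_iff (pow_ne_zero _ hηK) (pow_ne_zero _ hσa), hk]
    ring
  rw [← h2]
  simp [w]

theorem ArithCore.five (hp5 : 5 ≤ p) (α : 𝓞 K) (hα : α ≠ 0) (I : Ideal (𝓞 K))
    (hI : Ideal.span {α} = I ^ p)
    (heig : ∀ c : (ZMod p)ˣ, ∃ k : K, sig p K c (α : K) = (α : K) ^ mexp p c * k ^ p)
    (hloc : ∀ (η : (𝓞 K)ˣ) (a : 𝓞 K), α = η * a ^ p → ∃ x : 𝓞 K, (η : 𝓞 K) - x ^ p ∈ lam p K ^ 3) :
    ∃ a : 𝓞 K, α = a ^ p := by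
  have hp : p.Prime := Fact.out
  obtain ⟨a₀, ha₀⟩ := (class_part p K hp5 α hα I hI heig).principal
  rw [ha₀, Ideal.submodule_span_eq, Ideal.span_singleton_pow,
    Ideal.span_singleton_eq_span_singleton] at hI
  obtain ⟨η, hη⟩ := hI.symm
  have hαη : α = η * a₀ ^ p := by rw [← hη, mul_comm]
  obtain ⟨x, hx⟩ := hloc η a₀ hαη
  have hne : ¬ ∃ ε t : (𝓞 K)ˣ, t ∈ Units.torsion K ∧ Du p K = ε ^ p * t := by
    rintro ⟨ε, t, ht, h⟩
    have h1 := local_Du p K hp5 1 ε⁻¹ t⁻¹ (inv_mem ht) 1 (by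
      have : Du p K ^ 1 * ε⁻¹ ^ p * t⁻¹ = 1 := by
        rw [pow_one, h, inv_pow]
        rw [mul_comm (ε ^ p) t, mul_assoc t, mul_inv_cancel, mul_one, mul_inv_cancel]
      rw [this]
      simp)
    exact hp.one_lt.ne' (Nat.dvd_one.mp h1.1)
  obtain ⟨k, ε, t, ht, hkη⟩ := unit_rank p K hp5 (Du p K) η
    (fun c => by
      obtain ⟨ε, hε⟩ := Du_eigen p K hp5 c
      exact ⟨ε, 1, one_mem _, by rw [hε, mul_one]⟩)
    (fun c => by
      obtain ⟨ε, hε⟩ := ArithCore.unit_eigen p K α hα heig η a₀ hαη c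
      exact ⟨ε, 1, one_mem _, by rw [hε, mul_one]⟩)
    hne
  rw [hkη] at hx
  obtain ⟨⟨j, hj⟩, t', ht'⟩ := local_Du p K hp5 k ε t ht x hx
  refine ⟨((Du p K ^ j * ε * t' : (𝓞 K)ˣ) : 𝓞 K) * a₀, ?_⟩
  rw [hαη, hkη, mul_pow, ← Units.val_pow_eq_pow_val, mul_pow, mul_pow, ← pow_mul, hj, ht',
    mul_comm j p]

theorem ArithCore.three (hp3 : p = 3) (α : 𝓞 K) (hα : α ≠ 0) (I : Ideal (𝓞 K))
    (hI : Ideal.span {α} = I ^ p)
    (hloc : ∀ (η : (𝓞 K)ˣ) (a : 𝓞 K), α = η * a ^ p → ∃ x : 𝓞 K, (η : 𝓞 K) - x ^ p ∈ lam p K ^ 3) :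
    ∃ a : 𝓞 K, α = a ^ p := by
  subst hp3
  haveI := IsCyclotomicExtension.Rat.three_pid K
  obtain ⟨a₀, ha₀⟩ := (IsPrincipalIdealRing.principal I).principal
  rw [ha₀, Ideal.submodule_span_eq, Ideal.span_singleton_pow,
    Ideal.span_singleton_eq_span_singleton] at hI
  obtain ⟨η, hη⟩ := hI.symm
  have hαη : α = η * a₀ ^ 3 := by rw [← hη, mul_comm]
  obtain ⟨x, hx⟩ := hloc η a₀ hαη
  have hζ := zeta_spec 3 ℚ K
  rw [lam, Ideal.span_singleton_pow, Ideal.mem_span_singleton] at hx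
  change (hζ.toInteger - 1) ^ 3 ∣ _ at hx
  -- `x ^ 3` is congruent to an integer modulo `λ ^ 3`
  have hx3 : ∃ n : ℤ, (hζ.toInteger - 1) ^ 3 ∣ x ^ 3 - (n : 𝓞 K) := by
    rcases IsCyclotomicExtension.Rat.Three.lambda_dvd_or_dvd_sub_one_or_dvd_add_one hζ x with
      h | h | h
    · exact ⟨0, by simpa using pow_dvd_pow_of_dvd h 3⟩
    · refine ⟨1, ?_⟩
      have := IsCyclotomicExtension.Rat.Three.lambda_pow_four_dvd_cube_sub_one_of_dvd_sub_one hζ h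
      simpa using (pow_dvd_pow _ (by norm_num : 3 ≤ 4)).trans this
    · refine ⟨-1, ?_⟩
      have := IsCyclotomicExtension.Rat.Three.lambda_pow_four_dvd_cube_add_one_of_dvd_add_one hζ h
      simpa using (pow_dvd_pow _ (by norm_num : 3 ≤ 4)).trans this
  obtain ⟨n, hn⟩ := hx3
  have h1 : (hζ.toInteger - 1) ^ 2 ∣ ((η : 𝓞 K) - (n : 𝓞 K)) := by
    have h2 : (hζ.toInteger - 1) ^ 3 ∣ ((η : 𝓞 K) - (n : 𝓞 K)) := by
      have := dvd_add hx hn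
      simpa using this
    exact (pow_dvd_pow _ (by norm_num : 2 ≤ 3)).trans h2
  rcases IsCyclotomicExtension.Rat.Three.eq_one_or_neg_one_of_unit_of_congruent hζ η ⟨n, h1⟩ with
    h | h
  · exact ⟨a₀, by rw [hαη, h]; simp⟩
  · exact ⟨-a₀, by rw [hαη, h]; simp; ring⟩

/-- (M6) ARITHMETIC CORE. -/
theorem arith_core (hp3 : 3 ≤ p) (α : 𝓞 K) (hα : α ≠ 0) (I : Ideal (𝓞 K))
    (hI : Ideal.span {α} = I ^ p)
    (heig : ∀ c : (ZMod p)ˣ, ∃ k : K, sig p K c (α : K) = (α : K) ^ mexp p c * k ^ p)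
    (hloc : ∀ (η : (𝓞 K)ˣ) (a : 𝓞 K), α = η * a ^ p → ∃ x : 𝓞 K, (η : 𝓞 K) - x ^ p ∈ lam p K ^ 3) :
    ∃ a : 𝓞 K, α = a ^ p := by
  rcases Nat.lt_or_ge p 5 with h | h
  · have hp : p.Prime := Fact.out
    have h3 : p = 3 := by
      interval_cases p
      · rfl
      · exact absurd hp (by decide)
    exact ArithCore.three p K h3 α hα I hI hloc
  · exact ArithCore.five p K h α hα I hI heig hloc

end Fermat.Agent.S14
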