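import Fermat.Agent.S14.BridgeBasic

set_option autoImplicit false

namespace Fermat.Agent.S14

variable {p : ℕ} [Fact p.Prime] {Ω : Type} [Field Ω] [Algebra ℚ Ω]

namespace CocycleDatum

variable (D : CocycleDatum p Ω)

/-- `H = {g | χ g = 1 ∧ b g = 0}` -/
def ker : Subgroup (Ω ≃ₐ[ℚ] Ω) where
  carrier := {g | D.χ g = 1 ∧ D.b g = 0}
  one_mem' := ⟨D.chi_one, D.b_one⟩
  mul_mem' := by
    rintro g h ⟨hg, hg'⟩ ⟨hh, hh'⟩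
    exact ⟨by rw [D.chi_mul, hg, hh, one_mul], by rw [D.b_mul_of_chi _ _ hh, hg', hh', add_zero]⟩
  inv_mem' := by
    rintro g ⟨hg, hg'⟩
    exact ⟨by rw [D.chi_inv, hg, inv_one], by rw [D.b_inv_of_chi _ hg, hg', neg_zero]⟩

lemma mem_ker (g : Ω ≃ₐ[ℚ] Ω) : g ∈ D.ker ↔ D.χ g = 1 ∧ D.b g = 0 := Iff.rfl

lemma isOpen_ker : IsOpen (D.ker : Set (Ω ≃ₐ[ℚ] Ω)) := by
  obtain ⟨E, hfin, hE⟩ := D.hopen
  have hp : p.Prime := Fact.out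
  have hint : IsIntegral ℚ D.ζ := by
    refine ⟨Polynomial.X ^ p - 1, Polynomial.monic_X_pow_sub_C 1 hp.ne_zero, ?_⟩
    simp [D.hζ.pow_eq_one]
  haveI : FiniteDimensional ℚ (cycF D.ζ) := IntermediateField.adjoin.finiteDimensional hint
  haveI : FiniteDimensional ℚ (E ⊔ cycF D.ζ : IntermediateField ℚ Ω) :=
    IntermediateField.finiteDimensional_sup E (cycF D.ζ)
  refine Subgroup.isOpen_mono (H₁ := (E ⊔ cycF D.ζ : IntermediateField ℚ Ω).fixingSubgroup) ?_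
    (IntermediateField.fixingSubgroup_isOpen _)
  intro g hg
  rw [IntermediateField.mem_fixingSubgroup_iff] at hg
  refine ⟨(D.chi_eq_one_iff g).mpr (hg _ ?_), hE g ?_⟩
  · exact (le_sup_right : cycF D.ζ ≤ E ⊔ cycF D.ζ) (IntermediateField.mem_adjoin_simple_self ℚ D.ζ)
  · rw [IntermediateField.mem_fixingSubgroup_iff]
    exact fun x hx => hg x ((le_sup_left : E ≤ E ⊔ cycF D.ζ) hx)

lemma isClosed_ker : IsClosed (D.ker : Set (Ω ≃ₐ[ℚ] Ω)) :=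
  D.ker.isClosed_of_isOpen D.isOpen_ker

lemma exists_b_eq_one (g₀ : Ω ≃ₐ[ℚ] Ω) (h1 : D.χ g₀ = 1) (h2 : D.b g₀ ≠ 0) :
    ∃ g₁ : Ω ≃ₐ[ℚ] Ω, D.χ g₁ = 1 ∧ D.b g₁ = 1 := by
  refine ⟨g₀ ^ ((D.b g₀)⁻¹).val, by rw [D.chi_pow, h1, one_pow], ?_⟩
  rw [D.b_pow_of_chi _ h1, ZMod.natCast_zmod_val, inv_mul_cancel₀ h2]

lemma conj_mem_ker (τ h : Ω ≃ₐ[ℚ] Ω) (hh : h ∈ D.ker) : τ⁻¹ * h * τ ∈ D.ker := by
  refine ⟨?_, ?_⟩
  · rw [D.chi_mul, D.chi_mul, hh.1, D.chi_inv, mul_one, inv_mul_cancel]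
  · rw [D.b_conj _ _ hh.1, hh.2, mul_zero]

lemma exists_eq_pow_mul (g₁ : Ω ≃ₐ[ℚ] Ω) (h1 : D.χ g₁ = 1) (hb : D.b g₁ = 1)
    (g : Ω ≃ₐ[ℚ] Ω) (hg : D.χ g = 1) : ∃ h ∈ D.ker, g = g₁ ^ (D.b g).val * h := by
  refine ⟨(g₁ ^ (D.b g).val)⁻¹ * g, ⟨?_, ?_⟩, by group⟩
  · rw [D.chi_mul, D.chi_inv, D.chi_pow, h1, hg]; simp
  · have h2 : D.χ (g₁ ^ (D.b g).val) = 1 := by rw [D.chi_pow, h1, one_pow]
    rw [D.b_mul_of_chi _ _ hg, D.b_inv_of_chi _ h2, D.b_pow_of_chi _ h1, hb,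
      ZMod.natCast_zmod_val]
    ring

/-- elements fixed by `ker` are permuted by `G_F` -/
lemma fixed_of_fixed (x : Ω) (hx : ∀ h ∈ D.ker, h x = x) (g : Ω ≃ₐ[ℚ] Ω) :
    ∀ h ∈ D.ker, h (g x) = g x := by
  intro h hh
  have h2 := hx _ (D.conj_mem_ker g h hh)
  have h3 : g ((g⁻¹ * h * g) x) = h (g x) := by
    simp only [AlgEquiv.mul_apply]
    exact AlgEquiv.apply_symm_apply g _
  rw [← h3, h2]

/-- Lagrange resolvent `R_i(x) = ∑_{j<p} ζ^{-ij} g₁^j x`. -/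
noncomputable def res (g₁ : Ω ≃ₐ[ℚ] Ω) (x : Ω) (i : ℕ) : Ω :=
  ∑ j ∈ Finset.range p, (D.ζ⁻¹) ^ (i * j) * (g₁ ^ j) x

lemma pow_p_mem_ker (g₁ : Ω ≃ₐ[ℚ] Ω) (h1 : D.χ g₁ = 1) : g₁ ^ p ∈ D.ker :=
  ⟨by rw [D.chi_pow, h1, one_pow], by rw [D.b_pow_of_chi _ h1]; simp⟩

lemma zeta_ne_zero : D.ζ ≠ 0 := D.hζ.ne_zero (Fact.out : p.Prime).ne_zero

lemma res_apply_gen (g₁ : Ω ≃ₐ[ℚ] Ω) (h1 : D.χ g₁ = 1) (x : Ω)
    (hx : ∀ h ∈ D.ker, h x = x) (i : ℕ) :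
    g₁ (D.res g₁ x i) = D.ζ ^ i * D.res g₁ x i := by
  have hζ1 : g₁ D.ζ = D.ζ := (D.chi_eq_one_iff g₁).mp h1
  have hz := D.zeta_ne_zero
  have e1 : g₁ (D.res g₁ x i) =
      D.ζ ^ i * ∑ j ∈ Finset.range p, (D.ζ⁻¹) ^ (i * (j + 1)) * (g₁ ^ (j + 1)) x := by
    rw [res, map_sum, Finset.mul_sum]
    refine Finset.sum_congr rfl fun j _ => ?_
    rw [map_mul, map_pow, map_inv₀, hζ1, pow_succ' g₁ j, AlgEquiv.mul_apply, mul_add, mul_one,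
      pow_add, ← mul_assoc, ← mul_assoc]
    congr 1
    rw [mul_comm (D.ζ ^ i), mul_assoc, inv_pow D.ζ i, mul_inv_cancel₀ (pow_ne_zero _ hz), mul_one]
  rw [e1, res]
  congr 1
  have e2 := Finset.sum_range_succ (fun j => (D.ζ⁻¹) ^ (i * j) * (g₁ ^ j) x) p
  have e3 := Finset.sum_range_succ' (fun j => (D.ζ⁻¹) ^ (i * j) * (g₁ ^ j) x) p
  have e4 : (D.ζ⁻¹) ^ (i * p) * (g₁ ^ p) x = (D.ζ⁻¹) ^ (i * 0) * (g₁ ^ 0) x := by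
    rw [hx _ (D.pow_p_mem_ker g₁ h1), mul_comm i p, pow_mul, inv_pow, D.hζ.pow_eq_one]
    simp
  rw [e3, e4] at e2
  exact add_right_cancel e2

lemma res_apply_ker (g₁ : Ω ≃ₐ[ℚ] Ω) (x : Ω)
    (hx : ∀ h ∈ D.ker, h x = x) (i : ℕ) (h : Ω ≃ₐ[ℚ] Ω) (hh : h ∈ D.ker) :
    h (D.res g₁ x i) = D.res g₁ x i := by
  have hζ1 : h D.ζ = D.ζ := (D.chi_eq_one_iff h).mp hh.1
  rw [res, map_sum]
  refine Finset.sum_congr rfl fun j _ => ?_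
  rw [map_mul, map_pow, map_inv₀, hζ1, D.fixed_of_fixed x hx (g₁ ^ j) h hh]

lemma res_apply (g₁ : Ω ≃ₐ[ℚ] Ω) (h1 : D.χ g₁ = 1) (hb : D.b g₁ = 1) (x : Ω)
    (hx : ∀ h ∈ D.ker, h x = x) (i : ℕ) (g : Ω ≃ₐ[ℚ] Ω) (hg : D.χ g = 1) :
    g (D.res g₁ x i) = D.ζ ^ (i * (D.b g).val) * D.res g₁ x i := by
  obtain ⟨h, hh, hgh⟩ := D.exists_eq_pow_mul g₁ h1 hb g hg
  have hζ1 : g₁ D.ζ = D.ζ := (D.chi_eq_one_iff g₁).mp h1
  have key : ∀ n : ℕ, (g₁ ^ n) (D.res g₁ x i) = D.ζ ^ (i * n) * D.res g₁ x i := by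
    intro n
    induction n with
    | zero => simp
    | succ n ih =>
      rw [pow_succ' g₁ n, AlgEquiv.mul_apply, ih, map_mul, map_pow, hζ1,
        D.res_apply_gen g₁ h1 x hx i, ← mul_assoc, ← pow_add]
      congr 2
  conv_lhs => rw [hgh]
  rw [AlgEquiv.mul_apply, D.res_apply_ker g₁ x hx i h hh, key]

lemma sum_res (g₁ : Ω ≃ₐ[ℚ] Ω) (x : Ω) :
    ∑ i ∈ Finset.range p, D.res g₁ x i = p * x := by
  have hp : p.Prime := Fact.out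
  simp only [res]
  rw [Finset.sum_comm]
  have h0 : ∀ j ∈ Finset.range p, ∑ i ∈ Finset.range p, (D.ζ⁻¹) ^ (i * j) * (g₁ ^ j) x =
      if j = 0 then (p : Ω) * x else 0 := by
    intro j hj
    rw [← Finset.sum_mul]
    split_ifs with hj0
    · subst hj0; simp
    · have hprim : IsPrimitiveRoot ((D.ζ⁻¹) ^ j) p := by
        refine D.hζ.inv.pow_of_coprime j ?_
        refine Nat.Coprime.symm ((Nat.Prime.coprime_iff_not_dvd hp).mpr ?_)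
        intro hd
        exact absurd (Nat.le_of_dvd (Nat.pos_of_ne_zero hj0) hd) (not_le.mpr (Finset.mem_range.mp hj))
      have := hprim.geom_sum_eq_zero hp.one_lt
      have e : ∑ i ∈ Finset.range p, (D.ζ⁻¹) ^ (i * j) = ∑ i ∈ Finset.range p, ((D.ζ⁻¹) ^ j) ^ i :=
        Finset.sum_congr rfl fun i _ => by rw [← pow_mul, mul_comm]
      rw [e, this, zero_mul]
  rw [Finset.sum_congr rfl h0, Finset.sum_ite_eq' (Finset.range p) 0]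
  simp [hp.pos]

/-- the trace `∑_{j<p} g₁^j x` lies in `ℚ(ζ)` -/
lemma res_zero_mem [IsAlgClosure ℚ Ω] (g₁ : Ω ≃ₐ[ℚ] Ω) (h1 : D.χ g₁ = 1) (hb : D.b g₁ = 1) (x : Ω)
    (hx : ∀ h ∈ D.ker, h x = x) : ∑ j ∈ Finset.range p, (g₁ ^ j) x ∈ cycF D.ζ := by
  have e : ∑ j ∈ Finset.range p, (g₁ ^ j) x = D.res g₁ x 0 := by
    simp [res]
  rw [e, D.mem_cycF_iff]
  intro g hg
  rw [D.res_apply g₁ h1 hb x hx 0 g hg]
  simp

/-- if `g A = ζ^{b g} A` on `G_F`, every `ker`-fixed `x` is `∑_{i<p} c_i A^i` with `c_i ∈ ℚ(ζ)`. -/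
lemma exists_coeffs [IsAlgClosure ℚ Ω] (g₁ : Ω ≃ₐ[ℚ] Ω) (h1 : D.χ g₁ = 1) (hb : D.b g₁ = 1)
    (A : Ω) (hA0 : A ≠ 0) (hA : ∀ g : Ω ≃ₐ[ℚ] Ω, D.χ g = 1 → g A = D.ζ ^ (D.b g).val * A)
    (x : Ω) (hx : ∀ h ∈ D.ker, h x = x) :
    ∃ c : ℕ → Ω, (∀ i, c i ∈ cycF D.ζ) ∧ x = ∑ i ∈ Finset.range p, c i * A ^ i := by
  have hp : p.Prime := Fact.out
  haveI : CharZero Ω := algebraRat.charZero Ω
  have hp0 : (p : Ω) ≠ 0 := Nat.cast_ne_zero.mpr hp.ne_zero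
  refine ⟨fun i => D.res g₁ x i / (p * A ^ i), fun i => ?_, ?_⟩
  · rw [D.mem_cycF_iff]
    intro g hg
    rw [map_div₀, D.res_apply g₁ h1 hb x hx i g hg, map_mul, map_natCast, map_pow, hA g hg,
      mul_pow, ← pow_mul, mul_comm (D.b g).val i]
    have hz : D.ζ ^ (i * (D.b g).val) ≠ 0 := pow_ne_zero _ D.zeta_ne_zero
    have hAi : A ^ i ≠ 0 := pow_ne_zero _ hA0
    field_simp
  · have e : ∀ i ∈ Finset.range p, D.res g₁ x i / (p * A ^ i) * A ^ i = D.res g₁ x i / p := by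
      intro i _
      have hAi : A ^ i ≠ 0 := pow_ne_zero _ hA0
      field_simp
    rw [Finset.sum_congr rfl e, ← Finset.sum_div, D.sum_res]
    field_simp

end CocycleDatum

end Fermat.Agent.S14
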