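import Fermat.Agent.S14.Defs
import Fermat.Agent.S14.LocalDu.Loc
import Fermat.Agent.S14.LocalDu.Eigen

set_option autoImplicit false

open NumberField IsCyclotomicExtension

namespace Fermat.Agent.S14

variable (p : ℕ) [Fact p.Prime] (K : Type) [Field K] [NumberField K]
  [IsCyclotomicExtension {p} ℚ K]

/-- (M5a) `σ_b Du = Du ^ (b²) · ε ^ p`. -/
theorem Du_eigen (hp5 : 5 ≤ p) (b : (ZMod p)ˣ) :
    ∃ ε : (𝓞 K)ˣ, sigU p K b (Du p K) = Du p K ^ mexp p b * ε ^ p :=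
  Du_eigen_aux p K hp5 b

/-- (M5b) LOCAL COMPUTATION (`p ∤ B₂`): reduce mod `(ζ-1)^3`, `𝓞 K / (ζ-1)^3 = 𝔽_p[t]/t^3`,
`Du ↦ m (1 - t²/24)`, `ζ ↦ 1 + t`, `p`-th powers are constants. -/
theorem local_Du (hp5 : 5 ≤ p) (k : ℕ) (ε t : (𝓞 K)ˣ) (ht : t ∈ Units.torsion K) (x : 𝓞 K)
    (h : ((Du p K ^ k * ε ^ p * t : (𝓞 K)ˣ) : 𝓞 K) - x ^ p ∈ lam p K ^ 3) :
    p ∣ k ∧ ∃ t' : (𝓞 K)ˣ, t = t' ^ p :=
  local_Du_aux p K hp5 k ε t ht x h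

end Fermat.Agent.S14
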