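import Fermat.Agent.S14.Defs
import Fermat.Agent.S14.LocalDu
import Fermat.Agent.S14.Thaine.Main
import Fermat.Agent.S14.Thaine.Split
import Fermat.Agent.S14.Thaine.FieldLemma

set_option autoImplicit false
set_option linter.unusedSectionVars false

open NumberField IsCyclotomicExtension
open scoped Pointwise

namespace Fermat.Agent.S14

variable (p : ℕ) [Fact p.Prime] (K : Type) [Field K] [NumberField K]
  [IsCyclotomicExtension {p} ℚ K]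

namespace Thaine

lemma sigO_apply (c : (ZMod p)ˣ) (x : 𝓞 K) : sigO p K c x = sig p K c • x := rfl

lemma sig_inv (c : (ZMod p)ˣ) : sig p K c⁻¹ = (sig p K c)⁻¹ := by
  unfold sig
  rw [map_inv]

lemma map_sigO_eq_smul (c : (ZMod p)ˣ) (I : Ideal (𝓞 K)) :
    I.map (sigO p K c : 𝓞 K →+* 𝓞 K) = sig p K c • I := by
  rw [Ideal.pointwise_smul_def]
  rfl

lemma mem_map_sigO_iff (c : (ZMod p)ˣ) (I : Ideal (𝓞 K)) (x : 𝓞 K) :
    x ∈ I.map (sigO p K c : 𝓞 K →+* 𝓞 K) ↔ sigO p K c⁻¹ x ∈ I := by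
  change x ∈ Ideal.map (sigO p K c) I ↔ _
  rw [Ideal.mem_map_of_equiv (sigO p K c)]
  constructor
  · rintro ⟨y, hy, rfl⟩
    rw [sigO_apply, sigO_apply, sig_inv, inv_smul_smul]
    exact hy
  · intro h
    refine ⟨_, h, ?_⟩
    rw [sigO_apply, sigO_apply, sig_inv, smul_inv_smul]

lemma exists_sig_eq (σ : Gal(K/ℚ)) : ∃ c : (ZMod p)ˣ, sig p K c = σ :=
  ⟨Rat.galEquivZMod p K σ, (Rat.galEquivZMod p K).symm_apply_apply σ⟩

lemma sig_injective : Function.Injective (sig p K) := by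
  unfold sig
  exact (Rat.galEquivZMod p K).symm.injective

end Thaine

open Thaine

/-- (M2) THAINE RELATION.  If `𝔩` is a degree one prime of `ℚ(ζ_p)`, not above `p`, modulo which the
cyclotomic unit `Du` is not a `p`-th power, then `T 𝔩 = ∏ σ_c(𝔩)^{n_c}` is a `p`-th power in the class
group. -/
theorem thaine (hp5 : 5 ≤ p) (𝔩 : Ideal (𝓞 K)) (h𝔩 : 𝔩.IsPrime)
    (hN : (Ideal.absNorm 𝔩).Prime) (hNp : Ideal.absNorm 𝔩 ≠ p)
    (hgood : ¬ ∃ y : 𝓞 K, y ^ p - (Du p K : 𝓞 K) ∈ 𝔩) :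
    ∃ (J : Ideal (𝓞 K)) (a b : 𝓞 K), J ≠ ⊥ ∧ a ≠ 0 ∧ b ≠ 0 ∧
      Ideal.span {a} * TIdeal p K 𝔩 = Ideal.span {b} * J ^ p := by
  classical
  have hp : p.Prime := Fact.out
  obtain ⟨l, hl⟩ : ∃ l, Ideal.absNorm 𝔩 = l := ⟨_, rfl⟩
  rw [hl] at hN hNp
  have : Fact l.Prime := ⟨hN⟩
  have hpl : p ∣ l - 1 := dvd_sub_one p K l hNp 𝔩 hl
  obtain ⟨κ, s, hκ, hun, hram⟩ := exists_kappa p K l hNp hpl
  have h𝔩0 : 𝔩 ≠ ⊥ := ne_bot_of_absNorm K l 𝔩 hl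
  have hl𝔩 : (l : 𝓞 K) ∈ 𝔩 := l_mem_of_absNorm K l 𝔩 hl
  have : 𝔩.IsMaximal := h𝔩.isMaximal h𝔩0
  let := Ideal.Quotient.field 𝔩
  obtain ⟨φ, hφ⟩ : ∃ φ : 𝓞 K →+* 𝓞 K ⧸ 𝔩, φ = Ideal.Quotient.mk 𝔩 := ⟨_, rfl⟩
  have hφ0 : ∀ x, φ x = 0 ↔ x ∈ 𝔩 := by
    intro x; rw [hφ]; exact Ideal.Quotient.eq_zero_iff_mem
  have hD : ¬ ∃ y : 𝓞 K ⧸ 𝔩, y ^ p = φ (Du p K : 𝓞 K) := by
    rintro ⟨y, hy⟩
    obtain ⟨y, rfl⟩ := Ideal.Quotient.mk_surjective y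
    apply hgood
    refine ⟨y, ?_⟩
    rw [← hφ0, map_sub, map_pow, ← hy, hφ, sub_self]
  -- the conjugates of `𝔩`
  have hqp : ∀ c : (ZMod p)ˣ, (𝔩.map (sigO p K c : 𝓞 K →+* 𝓞 K)).IsPrime :=
    fun c => Ideal.map_isPrime_of_equiv (sigO p K c)
  have hq0 : ∀ c : (ZMod p)ˣ, 𝔩.map (sigO p K c : 𝓞 K →+* 𝓞 K) ≠ ⊥ := by
    intro c h
    change Ideal.map (sigO p K c) 𝔩 = ⊥ at h
    rw [Ideal.map_eq_bot_iff_of_injective (sigO p K c).injective] at h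
    exact h𝔩0 h
  have hql : ∀ c : (ZMod p)ˣ, (l : 𝓞 K) ∈ 𝔩.map (sigO p K c : 𝓞 K →+* 𝓞 K) := by
    intro c
    rw [mem_map_sigO_iff, map_natCast]
    exact hl𝔩
  have hinj : ∀ c c' : (ZMod p)ˣ, 𝔩.map (sigO p K c : 𝓞 K →+* 𝓞 K) =
      𝔩.map (sigO p K c' : 𝓞 K →+* 𝓞 K) → c = c' := by
    intro c c' h
    rw [map_sigO_eq_smul, map_sigO_eq_smul] at h
    have h1 : (sig p K c')⁻¹ * sig p K c ∈ MulAction.stabilizer Gal(K/ℚ) 𝔩 := by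
      rw [MulAction.mem_stabilizer_iff, mul_smul, h, inv_smul_smul]
    rw [stabilizer_eq_bot p K l hNp 𝔩 hl, Subgroup.mem_bot, inv_mul_eq_one] at h1
    exact (sig_injective p K h1).symm
  -- the exponent at `𝔩`
  obtain ⟨r₀, hr₀⟩ : ∃ r₀, cnt 𝔩 (Ideal.span {κ}) = r₀ := ⟨_, rfl⟩
  have hbase : φ (Du p K : 𝓞 K) * φ (s : 𝓞 K) ^ r₀ = 1 := by
    have := hram 𝔩 h𝔩 h𝔩0 hl𝔩
    rw [← hφ0, hr₀, map_sub, map_mul, map_pow, map_one, sub_eq_zero] at this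
    exact this
  have hr₀p : ¬ p ∣ r₀ := not_dvd_of_mul_pow_eq_one p _ _ r₀ hbase hD
  have hD0 : φ (Du p K : 𝓞 K) ≠ 0 := by
    intro h0
    rw [h0, zero_mul] at hbase
    exact zero_ne_one hbase
  have hconj : ∀ c : (ZMod p)ˣ,
      cnt (𝔩.map (sigO p K c : 𝓞 K →+* 𝓞 K)) (Ideal.span {κ}) ≡ r₀ * nexp p c [MOD p] := by
    intro c
    have h1 := hram _ (hqp c) (hq0 c) (hql c)
    rw [mem_map_sigO_iff, map_sub, map_mul, map_pow, map_natCast, map_one] at h1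
    obtain ⟨ε, hε⟩ := Du_eigen p K hp5 c⁻¹
    have h2 : sigO p K c⁻¹ (Du p K : 𝓞 K) = (Du p K : 𝓞 K) ^ nexp p c * (ε : 𝓞 K) ^ p := by
      have hmn : mexp p c⁻¹ = nexp p c := rfl
      have := congrArg Units.val hε
      rw [hmn] at this
      simpa [sigU] using this
    rw [h2, ← hφ0, map_sub, map_mul, map_mul, map_pow, map_pow, map_pow, map_one,
      sub_eq_zero] at h1
    have h3 : φ (Du p K : 𝓞 K) ^ nexp p c * φ (s : 𝓞 K) ^ (r₀ * nexp p c) = 1 := by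
      rw [pow_mul, ← mul_pow, hbase, one_pow]
    refine modEq_of_pow_mul_pow_eq p hp _ _ r₀ hbase hD _ _ (φ (ε : 𝓞 K)) ?_
    apply mul_left_cancel₀ (pow_ne_zero (nexp p c) hD0)
    rw [h3, ← h1]
    ring
  -- `T 𝔩`
  have hT0 : TIdeal p K 𝔩 ≠ ⊥ := by
    unfold TIdeal
    rw [← Ideal.zero_eq_bot, Finset.prod_ne_zero_iff]
    intro c _
    exact pow_ne_zero _ (hq0 c)
  have hcntT : ∀ q : Ideal (𝓞 K), cnt q (TIdeal p K 𝔩) =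
      ∑ c : (ZMod p)ˣ, nexp p c * (if q = 𝔩.map (sigO p K c : 𝓞 K →+* 𝓞 K) then 1 else 0) := by
    intro q
    unfold TIdeal
    rw [cnt_prod q _ _ (fun c _ => pow_ne_zero _ (hq0 c))]
    refine Finset.sum_congr rfl fun c _ => ?_
    have := hqp c
    rw [cnt_pow, cnt_prime q _ (hq0 c)]
  have hκ0 : Ideal.span {κ} ≠ ⊥ := by simpa using hκ
  have hmain : ∀ q : Ideal (𝓞 K), q.IsPrime → q ≠ ⊥ →
      cnt q (Ideal.span {κ}) ≡ cnt q (TIdeal p K 𝔩 ^ r₀) [MOD p] := by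
    intro q hq hq0'
    rw [cnt_pow, hcntT]
    by_cases hlq : (l : 𝓞 K) ∈ q
    · obtain ⟨σ, hσ⟩ := exists_smul_eq p K l 𝔩 q h𝔩0 hq0' hl𝔩 hlq
      obtain ⟨c₀, rfl⟩ := exists_sig_eq p K σ
      rw [← map_sigO_eq_smul] at hσ
      subst hσ
      have : ∑ c : (ZMod p)ˣ, nexp p c * (if 𝔩.map (sigO p K c₀ : 𝓞 K →+* 𝓞 K) =
          𝔩.map (sigO p K c : 𝓞 K →+* 𝓞 K) then 1 else 0) = nexp p c₀ := by
        rw [Finset.sum_eq_single c₀]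
        · simp
        · intro c _ hc
          rw [if_neg (fun h => hc (hinj _ _ h).symm), mul_zero]
        · intro h; exact absurd (Finset.mem_univ _) h
      rw [this]
      exact hconj c₀
    · have : ∑ c : (ZMod p)ˣ, nexp p c * (if q =
          𝔩.map (sigO p K c : 𝓞 K →+* 𝓞 K) then 1 else 0) = 0 := by
        refine Finset.sum_eq_zero fun c _ => ?_
        rw [if_neg, mul_zero]
        rintro rfl
        exact hlq (hql c)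
      rw [this, mul_zero]
      exact (Nat.modEq_zero_iff_dvd).mpr (hun q hq hq0' hlq)
  obtain ⟨J₁, J₂, hJ₁, hJ₂, hJ⟩ := exists_mul_pow_eq_mul_pow p _ _ hκ0 (pow_ne_zero r₀ hT0) hmain
  -- Bezout
  have hcop : Nat.Coprime r₀ p := ((Nat.Prime.coprime_iff_not_dvd hp).mpr hr₀p).symm
  obtain ⟨u, -, hu⟩ := Nat.exists_mul_mod_eq_one_of_coprime hcop hp.one_lt
  obtain ⟨v, hv⟩ : ∃ v, r₀ * u = 1 + p * v := ⟨r₀ * u / p, by
    have := Nat.div_add_mod (r₀ * u) p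
    omega⟩
  have hW : TIdeal p K 𝔩 ^ v * J₂ ^ u ≠ ⊥ := mul_ne_zero (pow_ne_zero _ hT0) (pow_ne_zero _ hJ₂)
  obtain ⟨W', d, hW', hd, hWd⟩ := exists_mul_eq_span _ hW
  refine ⟨J₁ ^ u * W', d ^ p, κ ^ u, mul_ne_zero (pow_ne_zero _ hJ₁) hW', pow_ne_zero _ hd,
    pow_ne_zero _ hκ, ?_⟩
  have e1 : Ideal.span {κ ^ u} * (J₁ ^ u * W') ^ p =
      (Ideal.span {κ} * J₁ ^ p) ^ u * W' ^ p := by
    rw [← Ideal.span_singleton_pow, mul_pow, mul_pow, ← pow_mul, ← pow_mul, mul_comm u p,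
      mul_assoc]
  have e2 : (TIdeal p K 𝔩 ^ r₀ * J₂ ^ p) ^ u * W' ^ p =
      TIdeal p K 𝔩 * ((TIdeal p K 𝔩 ^ v * J₂ ^ u) * W') ^ p := by
    rw [mul_pow, ← pow_mul, hv, pow_add, pow_one, mul_pow, mul_pow, ← pow_mul, ← pow_mul,
      ← pow_mul, mul_comm v p, mul_comm u p]
    ring
  rw [e1, hJ, e2, hWd, Ideal.span_singleton_pow, mul_comm]

end Fermat.Agent.S14
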