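import Fermat.Agent.S14.Analytic
import Fermat.Agent.S14.Thaine
import Fermat.Agent.S14.LocalDu
import Fermat.Prelude.Def_ClassGroup_GaloisAction

set_option autoImplicit false

open NumberField IsCyclotomicExtension
open scoped nonZeroDivisors

namespace Fermat.Agent.S14

variable (p : ℕ) [Fact p.Prime] (K : Type) [Field K] [NumberField K]
  [IsCyclotomicExtension {p} ℚ K]

/-- `σ_c` on the class group. -/
noncomputable def cpS (c : (ZMod p)ˣ) : ClassGroup (𝓞 K) →* ClassGroup (𝓞 K) :=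
  (ClassGroup.mulEquiv (sigO p K c)).toMonoidHom

lemma cpS_mk0 (c : (ZMod p)ˣ) (J : (Ideal (𝓞 K))⁰) :
    cpS p K c (ClassGroup.mk0 J) = ClassGroup.mk0 (Ideal.mapNonZero (sigO p K c) J) :=
  ClassGroup.mulEquiv_mk0 (sigO p K c) J

/-- `T = ∑ n_c σ_c` on the class group. -/
noncomputable def cpT : ClassGroup (𝓞 K) →* ClassGroup (𝓞 K) :=
  ∏ c : (ZMod p)ˣ, (powMonoidHom (nexp p c)).comp (cpS p K c)

lemma cpT_apply (C : ClassGroup (𝓞 K)) :
    cpT p K C = ∏ c : (ZMod p)ˣ, (cpS p K c C) ^ nexp p c := by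
  simp [cpT]

/-- `T` on nonzero ideals. -/
noncomputable def cpTIdeal0 (J : (Ideal (𝓞 K))⁰) : (Ideal (𝓞 K))⁰ :=
  ∏ c : (ZMod p)ˣ, (Ideal.mapNonZero (sigO p K c) J) ^ nexp p c

lemma coe_cpTIdeal0 (J : (Ideal (𝓞 K))⁰) :
    (cpTIdeal0 p K J : Ideal (𝓞 K)) = TIdeal p K J := by
  simp [cpTIdeal0, TIdeal]

lemma cpT_mk0 (J : (Ideal (𝓞 K))⁰) :
    cpT p K (ClassGroup.mk0 J) = ClassGroup.mk0 (cpTIdeal0 p K J) := by
  rw [cpT_apply, cpTIdeal0, map_prod]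
  refine Finset.prod_congr rfl fun c _ => ?_
  rw [map_pow, cpS_mk0]

lemma cp_Du_not_pow (hp5 : 5 ≤ p) : ¬ ∃ y : K, y ^ p = ((Du p K : 𝓞 K) : K) := by
  rintro ⟨y, hy⟩
  have hint : IsIntegral ℤ y := by
    have h1 : IsIntegral ℤ (y ^ p) := by rw [hy]; exact RingOfIntegers.isIntegral_coe _
    exact IsIntegral.of_pow (Fact.out : p.Prime).pos h1
  obtain ⟨x, hx⟩ : ∃ x : 𝓞 K, x ^ p = (Du p K : 𝓞 K) := by
    obtain ⟨x, rfl⟩ : ∃ x : 𝓞 K, (x : K) = y := ⟨⟨y, hint⟩, rfl⟩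
    refine ⟨x, ?_⟩
    apply RingOfIntegers.coe_injective
    rw [map_pow]
    exact hy
  have h := local_Du p K hp5 1 1 1 (one_mem _) x (by
    simp only [pow_one, one_pow, mul_one]
    rw [hx, sub_self]
    exact zero_mem _)
  have h1 : p ∣ 1 := h.1
  have h2 := (Fact.out : p.Prime).one_lt
  have h3 := Nat.le_of_dvd one_pos h1
  omega

omit [IsCyclotomicExtension {p} ℚ K] [Fact p.Prime] in
lemma cp_ideal_pow_inj {A B : Ideal (𝓞 K)} {n : ℕ} (hn : n ≠ 0) (h : A ^ n = B ^ n) : A = B := by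
  have h1 : A ∣ B := (UniqueFactorizationMonoid.pow_dvd_pow_iff_dvd hn).mp (h ▸ dvd_rfl)
  have h2 : B ∣ A := (UniqueFactorizationMonoid.pow_dvd_pow_iff_dvd hn).mp (h ▸ dvd_rfl)
  exact dvd_antisymm h1 h2

lemma cp_coe_sigO (c : (ZMod p)ˣ) (a : 𝓞 K) : ((sigO p K c a : 𝓞 K) : K) = sig p K c (a : K) :=
  rfl

/-- `σ_c [I] = [I]^{m_c}`. -/
lemma cp_cpS_class (α : 𝓞 K) (hα : α ≠ 0) (I : (Ideal (𝓞 K))⁰)
    (hI : Ideal.span {α} = (I : Ideal (𝓞 K)) ^ p) (c : (ZMod p)ˣ) (k : K)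
    (hk : sig p K c (α : K) = (α : K) ^ mexp p c * k ^ p) :
    cpS p K c (ClassGroup.mk0 I) = ClassGroup.mk0 I ^ mexp p c := by
  have hp0 : p ≠ 0 := (Fact.out : p.Prime).ne_zero
  obtain ⟨x, y, hy, rfl⟩ := IsFractionRing.div_surjective (A := 𝓞 K) k
  have hy0 : y ≠ 0 := mem_nonZeroDivisors_iff_ne_zero.mp hy
  have hyK : (algebraMap (𝓞 K) K y) ≠ 0 := by
    simpa using hy0
  -- the relation in `𝓞 K`
  have hrel : y ^ p * sigO p K c α = x ^ p * α ^ mexp p c := by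
    apply RingOfIntegers.coe_injective
    rw [map_mul, map_mul, map_pow, map_pow, map_pow]
    have h1 : (algebraMap (𝓞 K) K) (sigO p K c α) = sig p K c (α : K) := rfl
    rw [h1, hk, div_pow]
    field_simp
  have hσα : sigO p K c α ≠ 0 := by
    simpa using hα
  have hx0 : x ≠ 0 := by
    rintro rfl
    rw [zero_pow hp0, zero_mul] at hrel
    exact (mul_ne_zero (pow_ne_zero _ hy0) hσα) hrel
  rw [cpS_mk0, ← map_pow, ClassGroup.mk0_eq_mk0_iff]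
  refine ⟨y, x, hy0, hx0, ?_⟩
  apply cp_ideal_pow_inj K hp0
  rw [Ideal.coe_mapNonZero, SubmonoidClass.coe_pow, mul_pow, mul_pow, Ideal.span_singleton_pow,
    Ideal.span_singleton_pow, ← Ideal.map_pow, ← hI, Ideal.map_span, Set.image_singleton,
    ← pow_mul, mul_comm (mexp p c) p, pow_mul, ← hI, Ideal.span_singleton_pow,
    Ideal.span_singleton_mul_span_singleton, Ideal.span_singleton_mul_span_singleton]
  congr 2

lemma cp_mexp_mul_nexp (c : (ZMod p)ˣ) : mexp p c * nexp p c % p = 1 := by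
  have hpp : p.Prime := Fact.out
  have h1 : ((mexp p c * nexp p c : ℕ) : ZMod p) = ((1 : ℕ) : ZMod p) := by
    rw [Nat.cast_mul, nexp_cast, mexp_cast, Nat.cast_one]
    have hc : (c : ZMod p) ≠ 0 := c.ne_zero
    field_simp
  have h2 := (ZMod.natCast_eq_natCast_iff' _ _ p).mp h1
  rwa [Nat.mod_eq_of_lt hpp.one_lt] at h2

/-- (M3) CLASS PART: `A[p](ω²) = 0`. -/
theorem class_part (hp5 : 5 ≤ p) (α : 𝓞 K) (hα : α ≠ 0) (I : Ideal (𝓞 K))
    (hI : Ideal.span {α} = I ^ p)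
    (heig : ∀ c : (ZMod p)ˣ, ∃ k : K, sig p K c (α : K) = (α : K) ^ mexp p c * k ^ p) :
    I.IsPrincipal := by
  have hpp : p.Prime := Fact.out
  have hp0 : p ≠ 0 := hpp.ne_zero
  have hI0 : I ≠ 0 := by
    rintro rfl
    rw [zero_pow hp0, Ideal.zero_eq_bot, Ideal.span_singleton_eq_bot] at hI
    exact hα hI
  have hImem : I ∈ (Ideal (𝓞 K))⁰ := mem_nonZeroDivisors_iff_ne_zero.mpr hI0
  obtain ⟨I0, hI0'⟩ : ∃ I0 : (Ideal (𝓞 K))⁰, (I0 : Ideal (𝓞 K)) = I := ⟨⟨I, hImem⟩, rfl⟩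
  obtain ⟨C, hC⟩ : ∃ C, C = ClassGroup.mk0 I0 := ⟨_, rfl⟩
  have hCp : C ^ p = 1 := by
    rw [hC, ← map_pow]
    refine (ClassGroup.mk0_eq_one_iff (I0 ^ p).2).mpr ⟨⟨α, ?_⟩⟩
    rw [SubmonoidClass.coe_pow, hI0']
    exact hI.symm
  have hS : ∀ c, cpS p K c C = C ^ mexp p c := fun c => by
    obtain ⟨k, hk⟩ := heig c
    rw [hC]
    exact cp_cpS_class p K α hα I0 (by rw [hI0']; exact hI) c k hk
  have hTC : cpT p K C = C⁻¹ := by
    rw [cpT_apply]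
    have h1 : ∀ c ∈ (Finset.univ : Finset (ZMod p)ˣ), (cpS p K c C) ^ nexp p c = C := by
      intro c _
      rw [hS, ← pow_mul, pow_eq_pow_mod _ hCp, cp_mexp_mul_nexp, pow_one]
    rw [Finset.prod_congr rfl h1, Finset.prod_const, Finset.card_univ, ZMod.card_units,
      eq_inv_iff_mul_eq_one, ← pow_succ, Nat.sub_add_cancel hpp.one_le, hCp]
  have hH : ∀ D : ClassGroup (𝓞 K), ∃ E : ClassGroup (𝓞 K), E ^ p = cpT p K D := by
    have hζ : IsPrimitiveRoot ((zetaO p K : 𝓞 K) : K) p :=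
      (zetaO_isPrimitiveRoot p K).map_of_injective RingOfIntegers.coe_injective
    have htop := good_primes_generate p (by omega) K (zetaO p K : K) hζ (Du p K)
      (cp_Du_not_pow p K hp5)
      ((powMonoidHom p : ClassGroup (𝓞 K) →* ClassGroup (𝓞 K)).range.comap (cpT p K)) ?_
    · intro D
      have hD : D ∈ (⊤ : Subgroup (ClassGroup (𝓞 K))) := trivial
      rw [← htop] at hD
      exact hD
    · intro 𝔮 hprime hN hNp hgood
      obtain ⟨J, a, b, hJ, ha, hb, hrel⟩ := thaine p K hp5 𝔮 hprime hN hNp hgood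
      rw [Subgroup.mem_comap, MonoidHom.mem_range]
      refine ⟨ClassGroup.mk0 ⟨J, mem_nonZeroDivisors_iff_ne_zero.mpr hJ⟩, ?_⟩
      rw [powMonoidHom_apply, ← map_pow, cpT_mk0, eq_comm, ClassGroup.mk0_eq_mk0_iff]
      exact ⟨a, b, ha, hb, by rw [coe_cpTIdeal0]; simpa using hrel⟩
  have hk : ∀ k : ℕ, ∃ D : ClassGroup (𝓞 K), D ^ (p ^ k) = C := by
    intro k
    induction k with
    | zero => exact ⟨C, by simp⟩
    | succ k ih =>
      obtain ⟨D, hD⟩ := ih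
      obtain ⟨E, hE⟩ := hH D
      refine ⟨E⁻¹, ?_⟩
      have h1 : cpT p K C = E ^ (p ^ (k + 1)) := by
        rw [← hD, map_pow, ← hE, ← pow_mul, pow_succ, mul_comm]
      rw [inv_pow, ← h1, hTC, inv_inv]
  obtain ⟨a, m, hm, hcard⟩ := Nat.exists_eq_pow_mul_and_not_dvd
    (n := Fintype.card (ClassGroup (𝓞 K))) Fintype.card_ne_zero p hpp.ne_one
  obtain ⟨D, hD⟩ := hk a
  have hCm : C ^ m = 1 := by rw [← hD, ← pow_mul, ← hcard, pow_card_eq_one]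
  have hC1 : C = 1 := by
    have h1 : orderOf C ∣ p := orderOf_dvd_of_pow_eq_one hCp
    have h2 : orderOf C ∣ m := orderOf_dvd_of_pow_eq_one hCm
    have h3 : Nat.gcd p m = 1 := (Nat.Prime.coprime_iff_not_dvd hpp).mpr hm
    have h4 : orderOf C ∣ 1 := by rw [← h3]; exact Nat.dvd_gcd h1 h2
    exact orderOf_eq_one_iff.mp (Nat.dvd_one.mp h4)
  rw [hC] at hC1
  rw [← hI0']
  exact (ClassGroup.mk0_eq_one_iff I0.2).mp hC1

end Fermat.Agent.S14
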