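import Mathlib

set_option autoImplicit false

open NumberField IsCyclotomicExtension

namespace Fermat.Agent.S14

variable (p : ℕ) [Fact p.Prime] (K : Type) [Field K] [NumberField K]
  [IsCyclotomicExtension {p} ℚ K]

/-- the chosen primitive `p`-th root of unity, in `𝓞 K` -/
noncomputable def zetaO : 𝓞 K := (zeta_spec p ℚ K).toInteger

lemma zetaO_isPrimitiveRoot : IsPrimitiveRoot (zetaO p K) p :=
  (zeta_spec p ℚ K).toInteger_isPrimitiveRoot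

/-- `σ_c : ζ ↦ ζ ^ c` -/
noncomputable def sig (c : (ZMod p)ˣ) : Gal(K/ℚ) := (Rat.galEquivZMod p K).symm c

/-- `σ_c` on `𝓞 K` -/
noncomputable def sigO (c : (ZMod p)ˣ) : 𝓞 K ≃+* 𝓞 K :=
  MulSemiringAction.toRingEquiv Gal(K/ℚ) (𝓞 K) (sig p K c)

/-- `σ_c` on units -/
noncomputable def sigU (c : (ZMod p)ˣ) : (𝓞 K)ˣ →* (𝓞 K)ˣ :=
  Units.map (sigO p K c : 𝓞 K →* 𝓞 K)

/-- `n_c`, the representative in `[0,p)` of `c⁻²` -/
def nexp (c : (ZMod p)ˣ) : ℕ := ((c⁻¹ ^ 2 : (ZMod p)ˣ) : ZMod p).val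

/-- `m_c`, the representative in `[0,p)` of `c²` -/
def mexp (c : (ZMod p)ˣ) : ℕ := ((c ^ 2 : (ZMod p)ˣ) : ZMod p).val

/-- `T = ∑ n_c σ_c` on ideals -/
noncomputable def TIdeal (I : Ideal (𝓞 K)) : Ideal (𝓞 K) :=
  ∏ c : (ZMod p)ˣ, (I.map (sigO p K c : 𝓞 K →+* 𝓞 K)) ^ nexp p c

/-- the prime above `p` -/
noncomputable def lam : Ideal (𝓞 K) := Ideal.span {zetaO p K - 1}

lemma geomSum_isUnit (c : (ZMod p)ˣ) :
    IsUnit (∑ i ∈ Finset.range (c : ZMod p).val, zetaO p K ^ i) := by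
  refine (zetaO_isPrimitiveRoot p K).geom_sum_isUnit (Fact.out : p.Prime).two_le ?_
  exact (ZMod.val_coe_unit_coprime c)

/-- `u_c = (ζ^c - 1)/(ζ - 1)` -/
noncomputable def cycU (c : (ZMod p)ˣ) : (𝓞 K)ˣ := (geomSum_isUnit p K c).unit

/-- the cyclotomic unit `D = ∏ u_c ^ n_c` in the `ω²`-eigenspace -/
noncomputable def Du : (𝓞 K)ˣ := ∏ c : (ZMod p)ˣ, cycU p K c ^ nexp p c

end Fermat.Agent.S14
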