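import Mathlib

set_option autoImplicit false

/-!
# Finite Euler identity for completely multiplicative summable functions on a cancellative monoid
-/

namespace Fermat.Agent.S14

open scoped Classical in
/-- the sum of `f` over the elements divisible by no element of `F` -/
noncomputable def coprimeSum {M : Type*} [CommMonoid M] {𝕜 : Type*} [NormedField 𝕜]
    (f : M → 𝕜) (F : Finset M) : 𝕜 :=
  ∑' I : M, if (∀ q ∈ F, ¬ q ∣ I) then f I else 0

section

variable {M : Type*} [CommMonoid M] [IsCancelMul M] {𝕜 : Type*} [NormedField 𝕜] [CompleteSpace 𝕜]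

omit [IsCancelMul M] in
open scoped Classical in
lemma summable_coprime (f : M → 𝕜) (hf : Summable f) (F : Finset M) :
    Summable fun I : M => if (∀ q ∈ F, ¬ q ∣ I) then f I else 0 := by
  have := hf.indicator {I : M | ∀ q ∈ F, ¬ q ∣ I}
  refine this.congr fun I => ?_
  simp [Set.indicator_apply]

omit [IsCancelMul M] [CompleteSpace 𝕜] in
lemma coprimeSum_empty (f : M → 𝕜) : coprimeSum f ∅ = ∑' I, f I := by
  simp [coprimeSum]

/-- one Euler factor -/
lemma coprimeSum_insert [DecidableEq M] (f : M →* 𝕜) (hf : Summable f) (F : Finset M) (q : M)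
    (hq : ∀ q' ∈ F, ∀ I, q' ∣ q * I ↔ q' ∣ I) :
    coprimeSum f (insert q F) = (1 - f q) * coprimeSum f F := by
  classical
  have h1 : ∀ I : M, (if (∀ q' ∈ insert q F, ¬ q' ∣ I) then f I else 0) =
      (if (∀ q' ∈ F, ¬ q' ∣ I) then f I else 0) -
        (if ((∀ q' ∈ F, ¬ q' ∣ I) ∧ q ∣ I) then f I else 0) := by
    intro I
    by_cases hA : ∀ q' ∈ F, ¬ q' ∣ I <;> by_cases hqI : q ∣ I <;>
      simp [hA, hqI]
  have hs2 : Summable fun I : M => if ((∀ q' ∈ F, ¬ q' ∣ I) ∧ q ∣ I) then f I else 0 := by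
    have := hf.indicator {I : M | (∀ q' ∈ F, ¬ q' ∣ I) ∧ q ∣ I}
    refine this.congr fun I => ?_
    simp [Set.indicator_apply]
  have h2 : ∑' I : M, (if ((∀ q' ∈ F, ¬ q' ∣ I) ∧ q ∣ I) then f I else 0) =
      f q * coprimeSum f F := by
    have hinj : Function.Injective fun J : M => q * J := fun a b h => mul_left_cancel h
    rw [← hinj.tsum_eq (f := fun I : M => if ((∀ q' ∈ F, ¬ q' ∣ I) ∧ q ∣ I) then f I else 0)]
    · rw [coprimeSum, ← tsum_mul_left]
      refine tsum_congr fun J => ?_
      have : (∀ q' ∈ F, ¬ q' ∣ q * J) ↔ (∀ q' ∈ F, ¬ q' ∣ J) :=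
        forall₂_congr fun q' hq' => not_congr (hq q' hq' J)
      simp [this]
    · intro I hI
      simp only [Function.mem_support, ne_eq, ite_eq_right_iff, not_forall] at hI
      obtain ⟨⟨-, J, rfl⟩, -⟩ := hI
      exact ⟨J, rfl⟩
  rw [coprimeSum, tsum_congr h1, (summable_coprime f hf F).tsum_sub hs2, h2, coprimeSum]
  ring

/-- **Finite Euler identity.** -/
theorem prod_mul_tsum_eq_coprimeSum (f : M →* 𝕜) (hf : Summable f) (F : Finset M)
    (hF : ∀ q ∈ F, ∀ q' ∈ F, q ≠ q' → ∀ I, q' ∣ q * I ↔ q' ∣ I) :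
    (∏ q ∈ F, (1 - f q)) * ∑' I, f I = coprimeSum f F := by
  classical
  induction F using Finset.induction_on with
  | empty => simp [coprimeSum_empty]
  | insert q F hqF ih =>
    rw [Finset.prod_insert hqF, mul_assoc, ih, coprimeSum_insert f hf F q]
    · intro q' hq' I
      exact hF q (Finset.mem_insert_self _ _) q' (Finset.mem_insert_of_mem hq')
        (fun h => hqF (h ▸ hq')) I
    · intro a ha b hb hab I
      exact hF a (Finset.mem_insert_of_mem ha) b (Finset.mem_insert_of_mem hb) hab I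

end

end Fermat.Agent.S14
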