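import Mathlib

set_option autoImplicit false

/-!
# The monoid of nonzero ideals of a ring of integers: divisibility, primes, norms
-/

namespace Fermat.Agent.S14

open NumberField Ideal nonZeroDivisors

section Dedekind

variable {R : Type*} [CommRing R] [IsDedekindDomain R]

instance instIsCancelMulNZDIdeal : IsCancelMul (Ideal R)⁰ :=
  haveI : IsLeftCancelMul (Ideal R)⁰ := ⟨fun a b c h => by
    apply Subtype.ext
    have h' : (a : Ideal R) * b = a * c := congrArg Subtype.val h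
    exact mul_left_cancel₀ (nonZeroDivisors.coe_ne_zero a) h'⟩
  CommMagma.IsLeftCancelMul.toIsCancelMul _

lemma nzd_dvd_iff (a b : (Ideal R)⁰) : a ∣ b ↔ (a : Ideal R) ∣ (b : Ideal R) := by
  constructor
  · rintro ⟨c, rfl⟩
    exact ⟨c, rfl⟩
  · rintro ⟨c, hc⟩
    have hc0 : c ≠ 0 := by
      rintro rfl
      exact nonZeroDivisors.coe_ne_zero b (by rw [hc, mul_zero])
    exact ⟨⟨c, mem_nonZeroDivisors_iff_ne_zero.mpr hc0⟩, Subtype.ext hc⟩

lemma nzd_prime_dvd_mul {q : (Ideal R)⁰} (hq : (q : Ideal R).IsPrime) (a b : (Ideal R)⁰) :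
    q ∣ a * b ↔ q ∣ a ∨ q ∣ b := by
  simp only [nzd_dvd_iff, Submonoid.coe_mul]
  exact (Ideal.prime_of_isPrime (nonZeroDivisors.coe_ne_zero q) hq).dvd_mul

lemma nzd_prime_dvd_prime {q q' : (Ideal R)⁰} (hq : (q : Ideal R).IsPrime)
    (hq' : (q' : Ideal R).IsPrime) (h : q' ∣ q) : q' = q := by
  rw [nzd_dvd_iff, Ideal.dvd_iff_le] at h
  have : (q : Ideal R).IsMaximal := hq.isMaximal (nonZeroDivisors.coe_ne_zero q)
  exact Subtype.ext (this.eq_of_le hq'.ne_top h).symm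

lemma nzd_dvd_prime_mul_iff {q q' : (Ideal R)⁰} (hq : (q : Ideal R).IsPrime)
    (hq' : (q' : Ideal R).IsPrime) (hne : q ≠ q') (I : (Ideal R)⁰) :
    q' ∣ q * I ↔ q' ∣ I := by
  rw [nzd_prime_dvd_mul hq']
  constructor
  · rintro (h | h)
    · exact absurd (nzd_prime_dvd_prime hq hq' h).symm hne
    · exact h
  · exact Or.inr

lemma nzd_prime_not_dvd_one {q : (Ideal R)⁰} (hq : (q : Ideal R).IsPrime) : ¬ q ∣ 1 := by
  rw [nzd_dvd_iff, Ideal.dvd_iff_le]
  intro h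
  apply hq.ne_top
  rw [eq_top_iff]
  simpa using h

/-- Induction principle: a submonoid-like predicate holding at all prime divisors holds. -/
lemma nzd_induction_prime {P : (Ideal R)⁰ → Prop} (h1 : P 1)
    (hmul : ∀ a b, P a → P b → P (a * b)) (I : (Ideal R)⁰)
    (hI : ∀ q : (Ideal R)⁰, (q : Ideal R).IsPrime → q ∣ I → P q) : P I := by
  obtain ⟨I, hI0⟩ := I
  induction I using UniqueFactorizationMonoid.induction_on_prime with
  | h₁ => exact absurd rfl (mem_nonZeroDivisors_iff_ne_zero.mp hI0)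
  | h₂ J hJ =>
    have : J = 1 := by simpa using hJ
    subst this
    exact h1
  | h₃ J q hJ hq ih =>
    have hq0 : q ∈ (Ideal R)⁰ := mem_nonZeroDivisors_iff_ne_zero.mpr hq.ne_zero
    have hJ0 : J ∈ (Ideal R)⁰ := mem_nonZeroDivisors_iff_ne_zero.mpr hJ
    have e : (⟨q * J, hI0⟩ : (Ideal R)⁰) = ⟨q, hq0⟩ * ⟨J, hJ0⟩ := rfl
    rw [e]
    refine hmul _ _ (hI ⟨q, hq0⟩ (Ideal.isPrime_of_prime hq) ?_) (ih hJ0 fun q' hq' hd => ?_)
    · rw [e]; exact dvd_mul_right _ _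
    · refine hI q' hq' ?_
      rw [e]; exact dvd_mul_of_dvd_right hd _

end Dedekind

section NumberField

variable {K : Type*} [Field K] [NumberField K]

lemma nzd_absNorm_pos (I : (Ideal (𝓞 K))⁰) : 0 < absNorm (I : Ideal (𝓞 K)) :=
  absNorm_pos_of_nonZeroDivisors I

lemma nzd_absNorm_le_of_dvd {a b : (Ideal (𝓞 K))⁰} (h : a ∣ b) :
    absNorm (a : Ideal (𝓞 K)) ≤ absNorm (b : Ideal (𝓞 K)) := by
  rw [nzd_dvd_iff] at h
  exact Nat.le_of_dvd (nzd_absNorm_pos b) (map_dvd absNorm h)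

lemma nzd_two_le_absNorm {q : (Ideal (𝓞 K))⁰} (hq : (q : Ideal (𝓞 K)).IsPrime) :
    2 ≤ absNorm (q : Ideal (𝓞 K)) := by
  have h0 := nzd_absNorm_pos q
  have h1 : absNorm (q : Ideal (𝓞 K)) ≠ 1 := by
    rw [Ne, absNorm_eq_one_iff]
    exact hq.ne_top
  omega

/-- `I ↦ N(I)^(-s)` as a monoid homomorphism -/
noncomputable def normPow (K : Type*) [Field K] [NumberField K] (s : ℝ) :
    (Ideal (𝓞 K))⁰ →* ℝ where
  toFun I := (absNorm (I : Ideal (𝓞 K)) : ℝ) ^ (-s)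
  map_one' := by simp
  map_mul' a b := by
    simp only [Submonoid.coe_mul, map_mul, Nat.cast_mul]
    exact Real.mul_rpow (Nat.cast_nonneg _) (Nat.cast_nonneg _)

lemma normPow_apply (s : ℝ) (I : (Ideal (𝓞 K))⁰) :
    normPow K s I = (absNorm (I : Ideal (𝓞 K)) : ℝ) ^ (-s) := rfl

lemma normPow_pos (s : ℝ) (I : (Ideal (𝓞 K))⁰) : 0 < normPow K s I :=
  Real.rpow_pos_of_pos (Nat.cast_pos.mpr (nzd_absNorm_pos I)) _

lemma normPow_le_inv {s : ℝ} (hs : 1 ≤ s) (I : (Ideal (𝓞 K))⁰) :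
    normPow K s I ≤ (absNorm (I : Ideal (𝓞 K)) : ℝ)⁻¹ := by
  rw [normPow_apply, ← Real.rpow_neg_one]
  exact Real.rpow_le_rpow_of_exponent_le (by exact_mod_cast nzd_absNorm_pos I) (by linarith)

lemma normPow_prime_le_half {s : ℝ} (hs : 1 ≤ s) {q : (Ideal (𝓞 K))⁰}
    (hq : (q : Ideal (𝓞 K)).IsPrime) : normPow K s q ≤ 1 / 2 := by
  refine (normPow_le_inv hs q).trans ?_
  rw [one_div]
  have : (2 : ℝ) ≤ absNorm (q : Ideal (𝓞 K)) := by exact_mod_cast nzd_two_le_absNorm hq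
  exact inv_anti₀ (by norm_num) this

end NumberField

end Fermat.Agent.S14
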