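import Mathlib

set_option autoImplicit false

/-!
# Splitting of residue primes in a Kummer extension `K(u^(1/p))`
-/

namespace Fermat.Agent.S14

open NumberField Polynomial Ideal
open scoped Pointwise

variable (p : ℕ) [Fact p.Prime] (K : Type*) [Field K] [NumberField K]
  (L : Type*) [Field L] [NumberField L] [Algebra K L]

/-- if `ζ ≡ 1` modulo an ideal, then `p` belongs to the ideal -/
lemma natCast_mem_of_sub_one_mem {R : Type*} [CommRing R] [IsDomain R] {ζ : R}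
    (hζ : IsPrimitiveRoot ζ p) (I : Ideal R) (h : ζ - 1 ∈ I) : (p : R) ∈ I := by
  have hp : p.Prime := Fact.out
  have h0 : ∑ i ∈ Finset.range p, ζ ^ i = 0 := hζ.geom_sum_eq_zero hp.one_lt
  have h1 : (p : R) = - ∑ i ∈ Finset.range p, (ζ ^ i - 1) := by
    rw [Finset.sum_sub_distrib, h0]
    simp
  rw [h1]
  refine neg_mem (Ideal.sum_mem _ fun i _ => ?_)
  obtain ⟨c, hc⟩ := sub_dvd_pow_sub_pow ζ 1 i
  rw [one_pow] at hc
  rw [hc]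
  exact Ideal.mul_mem_right _ _ h

theorem residue_prime_splits (ζ : K) (hζ : IsPrimitiveRoot ζ p) (u : (𝓞 K)ˣ)
    (hu : ¬ ∃ y : K, y ^ p = ((u : 𝓞 K) : K))
    [IsSplittingField K L (X ^ p - C ((u : 𝓞 K) : K))]
    (𝔮 : Ideal (𝓞 K)) [𝔮.IsPrime] (h𝔮 : 𝔮 ≠ ⊥) (hp𝔮 : (p : 𝓞 K) ∉ 𝔮)
    (y : 𝓞 K) (hy : y ^ p - (u : 𝓞 K) ∈ 𝔮) :
    (𝔮.primesOver (𝓞 L)).ncard = p ∧ ∀ 𝔔 ∈ 𝔮.primesOver (𝓞 L), absNorm 𝔔 = absNorm 𝔮 := by
  have hp : p.Prime := Fact.out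
  have H : Irreducible (X ^ p - C ((u : 𝓞 K) : K)) :=
    X_pow_sub_C_irreducible_of_prime hp (fun b hb => hu ⟨b, hb⟩)
  have hζ' : (primitiveRoots p K).Nonempty := ⟨ζ, (mem_primitiveRoots hp.pos).mpr hζ⟩
  have : IsGalois K L := isGalois_of_isSplittingField_X_pow_sub_C hζ' H L
  have hcard : Nat.card Gal(L/K) = p := by
    rw [IsGalois.card_aut_eq_finrank, finrank_of_isSplittingField_X_pow_sub_C hζ' H L]
  have : 𝔮.IsMaximal := IsPrime.isMaximal inferInstance h𝔮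
  -- the root
  obtain ⟨α, hα⟩ : ∃ α : L, α ^ p = algebraMap K L ((u : 𝓞 K) : K) :=
    ⟨_, rootOfSplitsXPowSubC_pow _ L⟩
  obtain ⟨σ, hσ⟩ : ∃ σ : Gal(L/K), σ α = ζ • α :=
    ⟨_, by simpa using autEquivZmod_symm_apply_natCast H L hα hζ 1⟩
  have hαint : IsIntegral ℤ α := by
    refine IsIntegral.of_pow hp.pos ?_
    rw [hα]
    exact ((u : 𝓞 K).isIntegral_coe).algebraMap
  set θ : 𝓞 L := ⟨α, hαint⟩ with hθ
  have hθp : θ ^ p = algebraMap (𝓞 K) (𝓞 L) (u : 𝓞 K) := by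
    apply RingOfIntegers.ext
    change α ^ p = _
    rw [hα]
    rfl
  have hθu : IsUnit θ := by
    rw [← isUnit_pow_iff hp.ne_zero, hθp]
    exact u.isUnit.map _
  set ζO : 𝓞 K := hζ.toInteger with hζO
  have hζOp : IsPrimitiveRoot ζO p := hζ.toInteger_isPrimitiveRoot
  set ζL : 𝓞 L := algebraMap (𝓞 K) (𝓞 L) ζO with hζL
  have hζLp : IsPrimitiveRoot ζL p :=
    hζOp.map_of_injective (FaithfulSMul.algebraMap_injective (𝓞 K) (𝓞 L))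
  have hσθ : σ • θ = ζL * θ := by
    apply RingOfIntegers.ext
    change σ α = _
    rw [hσ, Algebra.smul_def]
    rfl
  -- the decomposition groups are trivial
  have key : ∀ 𝔔 ∈ 𝔮.primesOver (𝓞 L), MulAction.stabilizer Gal(L/K) 𝔔 = ⊥ := by
    rintro 𝔔 ⟨h𝔔p, h𝔔o⟩
    have : Fact (Nat.card Gal(L/K)).Prime := ⟨hcard ▸ hp⟩
    refine (Subgroup.eq_bot_or_eq_top_of_prime_card _).resolve_right fun htop => ?_
    have hσ𝔔 : σ • 𝔔 = 𝔔 := by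
      have : σ ∈ MulAction.stabilizer Gal(L/K) 𝔔 := htop ▸ Subgroup.mem_top σ
      exact this
    have h1 : θ ^ p - (algebraMap (𝓞 K) (𝓞 L) y) ^ p ∈ 𝔔 := by
      have h2 : algebraMap (𝓞 K) (𝓞 L) (y ^ p - (u : 𝓞 K)) ∈ 𝔔 :=
        (Ideal.mem_of_liesOver 𝔔 𝔮 _).mp hy
      rw [hθp, ← map_pow, ← map_sub, ← neg_sub, map_neg]
      exact neg_mem h2
    rw [hζLp.pow_sub_pow_eq_prod_sub_mul _ _ hp.pos, Ideal.IsPrime.prod_mem_iff] at h1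
    obtain ⟨μ, hμ, h3⟩ := h1
    rw [mem_nthRootsFinset hp.pos] at hμ
    obtain ⟨i, -, rfl⟩ := hζLp.eq_pow_of_pow_eq_one hμ
    have h4 : σ • (θ - ζL ^ i * algebraMap (𝓞 K) (𝓞 L) y) ∈ 𝔔 := by
      rw [← hσ𝔔]
      exact Ideal.smul_mem_pointwise_smul _ _ _ h3
    have h5 : σ • (θ - ζL ^ i * algebraMap (𝓞 K) (𝓞 L) y) =
        ζL * θ - ζL ^ i * algebraMap (𝓞 K) (𝓞 L) y := by
      rw [smul_sub, hσθ, hζL, ← map_pow, ← map_mul, smul_algebraMap]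
    rw [h5] at h4
    have h6 : (ζL - 1) * θ ∈ 𝔔 := by
      have := sub_mem h4 h3
      have e : ζL * θ - ζL ^ i * algebraMap (𝓞 K) (𝓞 L) y -
          (θ - ζL ^ i * algebraMap (𝓞 K) (𝓞 L) y) = (ζL - 1) * θ := by ring
      rwa [e] at this
    have h7 : ζL - 1 ∈ 𝔔 := by
      rcases h𝔔p.mem_or_mem h6 with h | h
      · exact h
      · exact absurd (Ideal.eq_top_of_isUnit_mem _ h hθu) h𝔔p.ne_top
    have h8 : ζO - 1 ∈ 𝔮 := by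
      rw [Ideal.mem_of_liesOver 𝔔 𝔮, map_sub, map_one]
      exact h7
    exact hp𝔮 (natCast_mem_of_sub_one_mem p hζOp 𝔮 h8)
  have key2 : ∀ 𝔔 ∈ 𝔮.primesOver (𝓞 L),
      Nat.card (inertia Gal(L/K) 𝔔) = 1 ∧ 𝔔.inertiaDeg (𝓞 K) = 1 := by
    rintro 𝔔 h𝔔
    have h1 := key 𝔔 h𝔔
    obtain ⟨h𝔔p, h𝔔o⟩ := h𝔔
    have h2 := card_stabilizer_eq_card_inertia_mul_finrank (G := Gal(L/K)) 𝔮 𝔔
    rw [h1, Subgroup.card_bot] at h2
    exact Nat.eq_one_of_mul_eq_one_right h2.symm |> fun h => ⟨h, Nat.eq_one_of_mul_eq_one_left h2.symm⟩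
  refine ⟨?_, ?_⟩
  · obtain ⟨⟨𝔔, h𝔔⟩⟩ := (inferInstance : Nonempty (primesOver 𝔮 (𝓞 L)))
    obtain ⟨h1, h2⟩ := key2 𝔔 h𝔔
    obtain ⟨h𝔔p, h𝔔o⟩ := h𝔔
    have h3 := ncard_primesOver_mul_card_inertia_mul_finrank (G := Gal(L/K)) 𝔮 𝔔
    rwa [h1, h2, mul_one, mul_one, hcard] at h3
  · rintro 𝔔 h𝔔
    obtain ⟨-, h2⟩ := key2 𝔔 h𝔔
    obtain ⟨h𝔔p, h𝔔o⟩ := h𝔔
    have h3 := absNorm_pow_inertiaDeg 𝔮 𝔔
    rw [h2, pow_one] at h3
    exact h3.symm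

end Fermat.Agent.S14
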