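import Mathlib

set_option autoImplicit false

/-!
# The Dedekind zeta function as a sum over nonzero ideals
-/

namespace Fermat.Agent.S14

open NumberField Filter Topology nonZeroDivisors Ideal

variable (K : Type*) [Field K] [NumberField K]

/-- the number of ideals of norm `n` -/
noncomputable def idealCount (n : ℕ) : ℝ := Nat.card {I : Ideal (𝓞 K) // absNorm I = n}

lemma idealCount_nonneg (n : ℕ) : 0 ≤ idealCount K n := Nat.cast_nonneg _

theorem tendsto_sum_idealCount :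
    Tendsto (fun n : ℕ ↦ (∑ k ∈ Finset.Icc 1 n, idealCount K k) / (n : ℝ)) atTop
      (𝓝 (dedekindZeta_residue K)) := by
  refine ((Ideal.tendsto_norm_le_div_atTop₀ K).comp tendsto_natCast_atTop_atTop).congr fun n ↦ ?_
  simp only [Function.comp_apply, Nat.cast_le, idealCount, ← Nat.cast_sum]
  congr
  rw [← add_left_inj 1, ← card_norm_le_eq_card_norm_le_add_one,
    show Finset.Icc 1 n = Finset.Ioc 0 n from Finset.Icc_succ_left_eq_Ioc _ _,
    show 1 = Nat.card {I : Ideal (𝓞 K) // absNorm I = 0} by simp [Ideal.absNorm_eq_zero_iff],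
    Finset.sum_Ioc_add_eq_sum_Icc (n.zero_le),
    ← Finset.card_preimage_eq_sum_card_image_eq (fun k _ ↦ finite_setOfPred_absNorm_eq k)]
  simp [Set.coe_eq_subtype]

theorem lseriesSummable_idealCount {s : ℝ} (hs : 1 < s) :
    LSeriesSummable (fun n => (idealCount K n : ℂ)) s := by
  refine LSeriesSummable_of_sum_norm_bigO_and_nonneg ?_ (idealCount_nonneg K) zero_le_one
    (by simpa using hs)
  exact Asymptotics.isBigO_atTop_natCast_rpow_of_tendsto_div_rpow
    (a := dedekindZeta_residue K) (by simpa using tendsto_sum_idealCount K)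

lemma term_idealCount {s : ℝ} (hs : 1 < s) (n : ℕ) :
    LSeries.term (fun n => (idealCount K n : ℂ)) s n =
      ((idealCount K n * (n : ℝ) ^ (-s) : ℝ) : ℂ) := by
  rcases Nat.eq_zero_or_pos n with rfl | hn
  · have : -s ≠ 0 := by linarith
    simp [Real.zero_rpow this]
  · rw [LSeries.term_of_ne_zero hn.ne', Complex.ofReal_mul, Real.rpow_neg (Nat.cast_nonneg n),
      Complex.ofReal_inv, Complex.ofReal_cpow (Nat.cast_nonneg n), div_eq_mul_inv]
    simp

theorem summable_idealCount {s : ℝ} (hs : 1 < s) :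
    Summable fun n : ℕ => idealCount K n * (n : ℝ) ^ (-s) := by
  have h := lseriesSummable_idealCount K hs
  rw [LSeriesSummable] at h
  have h2 : Summable fun n : ℕ => ((idealCount K n * (n : ℝ) ^ (-s) : ℝ) : ℂ) :=
    h.congr (term_idealCount K hs)
  exact Complex.summable_ofReal.mp h2

/-- the Dedekind zeta function at a real argument, as a sum over nonzero ideals -/
noncomputable def idealZeta (s : ℝ) : ℝ :=
  ∑' I : (Ideal (𝓞 K))⁰, (absNorm (I : Ideal (𝓞 K)) : ℝ) ^ (-s)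

lemma card_fiber (n : ℕ) (hn : n ≠ 0) :
    (Nat.card {I : (Ideal (𝓞 K))⁰ // absNorm (I : Ideal (𝓞 K)) = n} : ℝ) = idealCount K n := by
  rw [idealCount]
  congr 1
  refine Nat.card_congr ⟨fun I => ⟨I.1.1, I.2⟩, fun I => ⟨⟨I.1, ?_⟩, I.2⟩, fun _ => rfl,
    fun _ => rfl⟩
  rw [mem_nonZeroDivisors_iff_ne_zero]
  rintro h
  apply hn
  rw [← I.2, h]
  simp

lemma finite_fiber (n : ℕ) : Finite {I : (Ideal (𝓞 K))⁰ // absNorm (I : Ideal (𝓞 K)) = n} := by
  have := finite_setOfPred_absNorm_le₀ (S := 𝓞 K) n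
  exact (this.subset fun I (hI : absNorm (I : Ideal (𝓞 K)) = n) => hI.le).to_subtype

theorem hasSum_idealZeta_aux {s : ℝ} (hs : 1 < s) :
    Summable (fun I : (Ideal (𝓞 K))⁰ => (absNorm (I : Ideal (𝓞 K)) : ℝ) ^ (-s)) ∧
    ∑' I : (Ideal (𝓞 K))⁰, (absNorm (I : Ideal (𝓞 K)) : ℝ) ^ (-s) =
      ∑' n : ℕ, idealCount K n * (n : ℝ) ^ (-s) := by
  let e := Equiv.sigmaFiberEquiv (fun I : (Ideal (𝓞 K))⁰ => absNorm (I : Ideal (𝓞 K)))
  have hfib : ∀ n : ℕ, ∑' y : {I : (Ideal (𝓞 K))⁰ // absNorm (I : Ideal (𝓞 K)) = n},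
      (absNorm ((e ⟨n, y⟩ : (Ideal (𝓞 K))⁰) : Ideal (𝓞 K)) : ℝ) ^ (-s) =
      idealCount K n * (n : ℝ) ^ (-s) := by
    intro n
    have h1 : ∀ y : {I : (Ideal (𝓞 K))⁰ // absNorm (I : Ideal (𝓞 K)) = n},
        (absNorm ((e ⟨n, y⟩ : (Ideal (𝓞 K))⁰) : Ideal (𝓞 K)) : ℝ) ^ (-s) = (n : ℝ) ^ (-s) := by
      intro y
      have : absNorm ((e ⟨n, y⟩ : (Ideal (𝓞 K))⁰) : Ideal (𝓞 K)) = n := y.2
      rw [this]
    rw [tsum_congr h1, tsum_const, nsmul_eq_mul]
    rcases Nat.eq_zero_or_pos n with rfl | hn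
    · have : -s ≠ 0 := by linarith
      simp [Real.zero_rpow this]
    · rw [card_fiber K n hn.ne']
  have hsum : Summable (fun x : (Σ n : ℕ, {I : (Ideal (𝓞 K))⁰ // absNorm (I : Ideal (𝓞 K)) = n}) =>
      (absNorm ((e x : (Ideal (𝓞 K))⁰) : Ideal (𝓞 K)) : ℝ) ^ (-s)) := by
    rw [summable_sigma_of_nonneg (fun _ => by positivity)]
    refine ⟨fun n => ?_, ?_⟩
    · have := finite_fiber K n
      exact Summable.of_finite
    · exact (summable_idealCount K hs).congr fun n => (hfib n).symm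
  refine ⟨(e.summable_iff (f := fun I : (Ideal (𝓞 K))⁰ =>
    (absNorm (I : Ideal (𝓞 K)) : ℝ) ^ (-s))).mp hsum, ?_⟩
  rw [← e.tsum_eq (fun I : (Ideal (𝓞 K))⁰ => (absNorm (I : Ideal (𝓞 K)) : ℝ) ^ (-s)),
    hsum.tsum_sigma]
  exact tsum_congr hfib

theorem summable_idealZeta {s : ℝ} (hs : 1 < s) :
    Summable (fun I : (Ideal (𝓞 K))⁰ => (absNorm (I : Ideal (𝓞 K)) : ℝ) ^ (-s)) :=
  (hasSum_idealZeta_aux K hs).1

theorem idealZeta_eq_dedekindZeta {s : ℝ} (hs : 1 < s) :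
    (idealZeta K s : ℂ) = dedekindZeta K s := by
  rw [idealZeta, (hasSum_idealZeta_aux K hs).2, Complex.ofReal_tsum, dedekindZeta, LSeries]
  refine tsum_congr fun n => ?_
  rw [← term_idealCount K hs n]
  simp [idealCount]

theorem tendsto_sub_one_mul_idealZeta :
    Tendsto (fun s : ℝ ↦ (s - 1) * idealZeta K s) (𝓝[>] 1) (𝓝 (dedekindZeta_residue K)) := by
  have h := tendsto_sub_one_mul_dedekindZeta_nhdsGT K
  have h2 : Tendsto (fun s : ℝ ↦ (((s - 1) * idealZeta K s : ℝ) : ℂ)) (𝓝[>] 1)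
      (𝓝 (dedekindZeta_residue K : ℂ)) := by
    refine h.congr' ?_
    filter_upwards [self_mem_nhdsWithin] with s hs
    rw [Complex.ofReal_mul, idealZeta_eq_dedekindZeta K hs]
    simp
  exact (Complex.continuous_re.tendsto _).comp h2

lemma one_le_idealZeta {s : ℝ} (hs : 1 < s) : 1 ≤ idealZeta K s := by
  have := (summable_idealZeta K hs).le_tsum (1 : (Ideal (𝓞 K))⁰) (fun _ _ => by positivity)
  simpa [idealZeta] using this

end Fermat.Agent.S14
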