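import Fermat.Agent.S14.IdealMonoid
import Fermat.Agent.S14.EulerFinite
import Fermat.Agent.S14.ZetaSum

set_option autoImplicit false

/-!
# Lower bound for `|L(s,χ)|` when `χ` is trivial on all primes outside a set of `bad` primes
-/

namespace Fermat.Agent.S14

open NumberField Ideal nonZeroDivisors Filter Topology

variable {K : Type*} [Field K] [NumberField K]

lemma summable_normPow {s : ℝ} (hs : 1 < s) : Summable (normPow K s) :=
  summable_idealZeta K hs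

lemma tsum_normPow (s : ℝ) : ∑' I, normPow K s I = idealZeta K s := rfl

lemma euler_hyp (F : Finset (Ideal (𝓞 K))⁰) (hF : ∀ q ∈ F, (q : Ideal (𝓞 K)).IsPrime) :
    ∀ q ∈ F, ∀ q' ∈ F, q ≠ q' → ∀ I, q' ∣ q * I ↔ q' ∣ I :=
  fun q hq q' hq' hne I => nzd_dvd_prime_mul_iff (hF q hq) (hF q' hq') hne I

theorem euler_normPow (F : Finset (Ideal (𝓞 K))⁰) (hF : ∀ q ∈ F, (q : Ideal (𝓞 K)).IsPrime)
    {s : ℝ} (hs : 1 < s) :
    (∏ q ∈ F, (1 - normPow K s q)) * idealZeta K s = coprimeSum (normPow K s) F :=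
  prod_mul_tsum_eq_coprimeSum (normPow K s) (summable_normPow hs) F (euler_hyp F hF)

theorem one_le_coprimeSum_normPow (F : Finset (Ideal (𝓞 K))⁰)
    (hF : ∀ q ∈ F, (q : Ideal (𝓞 K)).IsPrime) {s : ℝ} (hs : 1 < s) :
    1 ≤ coprimeSum (normPow K s) F := by
  classical
  have h := (summable_coprime (normPow K s) (summable_normPow hs) F).le_tsum
    (1 : (Ideal (𝓞 K))⁰) (fun I _ => by
      split_ifs
      · exact (normPow_pos s I).le
      · exact le_rfl)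
  have h1 : ∀ q ∈ F, ¬ q ∣ (1 : (Ideal (𝓞 K))⁰) := fun q hq => nzd_prime_not_dvd_one (hF q hq)
  rw [if_pos h1, map_one] at h
  exact h

theorem one_le_prod_mul_idealZeta (F : Finset (Ideal (𝓞 K))⁰)
    (hF : ∀ q ∈ F, (q : Ideal (𝓞 K)).IsPrime) {s : ℝ} (hs : 1 < s) :
    1 ≤ (∏ q ∈ F, (1 - normPow K s q)) * idealZeta K s := by
  rw [euler_normPow F hF hs]
  exact one_le_coprimeSum_normPow F hF hs

/-- the twisted completely multiplicative function `I ↦ χ([I]) N(I)^(-s)` -/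
noncomputable def twistPow (χ : ClassGroup (𝓞 K) →* ℂˣ) (s : ℝ) : (Ideal (𝓞 K))⁰ →* ℂ where
  toFun I := (χ (ClassGroup.mk0 I) : ℂ) * (normPow K s I : ℂ)
  map_one' := by simp
  map_mul' a b := by
    simp only [map_mul, Units.val_mul, Complex.ofReal_mul]
    ring

lemma twistPow_apply (χ : ClassGroup (𝓞 K) →* ℂˣ) (s : ℝ) (I : (Ideal (𝓞 K))⁰) :
    twistPow χ s I = (χ (ClassGroup.mk0 I) : ℂ) * (normPow K s I : ℂ) := rfl

lemma norm_classChar (χ : ClassGroup (𝓞 K) →* ℂˣ) (C : ClassGroup (𝓞 K)) :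
    ‖(χ C : ℂ)‖ = 1 := by
  have h : (χ C : ℂ) ^ (Fintype.card (ClassGroup (𝓞 K))) = 1 := by
    rw [← Units.val_pow_eq_pow_val, ← map_pow, pow_card_eq_one, map_one, Units.val_one]
  exact Complex.norm_eq_one_of_pow_eq_one h Fintype.card_ne_zero

lemma norm_twistPow (χ : ClassGroup (𝓞 K) →* ℂˣ) (s : ℝ) (I : (Ideal (𝓞 K))⁰) :
    ‖twistPow χ s I‖ = normPow K s I := by
  rw [twistPow_apply, norm_mul, norm_classChar, one_mul, Complex.norm_real,
    Real.norm_of_nonneg (normPow_pos s I).le]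

lemma summable_twistPow (χ : ClassGroup (𝓞 K) →* ℂˣ) {s : ℝ} (hs : 1 < s) :
    Summable (twistPow χ s) :=
  Summable.of_norm ((summable_normPow hs).congr fun I => (norm_twistPow χ s I).symm)

theorem norm_LChi_ge (χ : ClassGroup (𝓞 K) →* ℂˣ) (Bad : (Ideal (𝓞 K))⁰ → Prop)
    (hBad : ∀ q, Bad q → (q : Ideal (𝓞 K)).IsPrime)
    (hgood : ∀ q : (Ideal (𝓞 K))⁰, (q : Ideal (𝓞 K)).IsPrime → ¬ Bad q →
      χ (ClassGroup.mk0 q) = 1) {s : ℝ} (hs : 1 < s) :
    ∃ F : Finset (Ideal (𝓞 K))⁰, (∀ q ∈ F, Bad q) ∧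
      1 / 2 * idealZeta K s * (∏ q ∈ F, (1 - normPow K s q)) ^ 2 ≤ ‖∑' I, twistPow χ s I‖ := by
  classical
  set f := normPow K s with hfdef
  set g := twistPow χ s with hgdef
  have hf : Summable f := summable_normPow hs
  have hg : Summable g := summable_twistPow χ hs
  -- step 1 : the tail
  obtain ⟨𝒮, h𝒮⟩ : ∃ 𝒮 : Finset (Ideal (𝓞 K))⁰, ∑' I : {x // x ∉ 𝒮}, f I < 1 / 4 :=
    ((tendsto_order.1 (tendsto_tsum_compl_atTop_zero f)).2 (1 / 4) (by norm_num)).exists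
  set X : ℕ := 𝒮.sup (fun I => absNorm (I : Ideal (𝓞 K))) with hX
  have hfin : {q : (Ideal (𝓞 K))⁰ | Bad q ∧ absNorm (q : Ideal (𝓞 K)) ≤ X}.Finite :=
    (finite_setOfPred_absNorm_le₀ (S := 𝓞 K) X).subset fun q hq => hq.2
  set F := hfin.toFinset with hFdef
  have hFmem : ∀ q, q ∈ F ↔ Bad q ∧ absNorm (q : Ideal (𝓞 K)) ≤ X := fun q => by
    rw [hFdef, Set.Finite.mem_toFinset]; rfl
  have hFprime : ∀ q ∈ F, (q : Ideal (𝓞 K)).IsPrime := fun q hq => hBad q ((hFmem q).mp hq).1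
  refine ⟨F, fun q hq => ((hFmem q).mp hq).1, ?_⟩
  -- step 2 : `g = f` on the coprime ideals in `𝒮`
  have hgf : ∀ I ∈ 𝒮, (∀ q ∈ F, ¬ q ∣ I) → g I = (f I : ℂ) := by
    intro I hI hA
    have hχ : χ (ClassGroup.mk0 I) = 1 := by
      refine nzd_induction_prime (P := fun J => χ (ClassGroup.mk0 J) = 1) (by simp)
        (fun a b ha hb => by rw [map_mul, map_mul, ha, hb, one_mul]) I fun q hq hqI => ?_
      refine hgood q hq fun hb => hA q ((hFmem q).mpr ⟨hb, ?_⟩) hqI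
      exact (nzd_absNorm_le_of_dvd hqI).trans
        (Finset.le_sup (f := fun I : (Ideal (𝓞 K))⁰ => absNorm (I : Ideal (𝓞 K))) hI)
    rw [hgdef, twistPow_apply, hχ, Units.val_one, one_mul]
  -- step 3 : comparison of the two coprime sums
  have hsg := summable_coprime g hg F
  have hsf := summable_coprime f hf F
  have hdiff : ‖coprimeSum g F - ((coprimeSum f F : ℝ) : ℂ)‖ ≤ 1 / 2 := by
    have e1 : coprimeSum g F - ((coprimeSum f F : ℝ) : ℂ) =
        ∑' I, ((if (∀ q ∈ F, ¬ q ∣ I) then g I else 0) -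
          (((if (∀ q ∈ F, ¬ q ∣ I) then f I else 0 : ℝ)) : ℂ)) := by
      rw [coprimeSum, coprimeSum, Complex.ofReal_tsum, hsg.tsum_sub]
      exact Complex.summable_ofReal.mpr hsf
    have hbound : ∀ I, ‖((if (∀ q ∈ F, ¬ q ∣ I) then g I else 0) -
          (((if (∀ q ∈ F, ¬ q ∣ I) then f I else 0 : ℝ)) : ℂ))‖ ≤
          ({x | x ∉ 𝒮} : Set (Ideal (𝓞 K))⁰).indicator (fun I => 2 * f I) I := by
      intro I
      by_cases hI : I ∈ 𝒮
      · have h0 : ({x | x ∉ 𝒮} : Set (Ideal (𝓞 K))⁰).indicator (fun I => 2 * f I) I = 0 :=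
          Set.indicator_of_notMem (by simpa using hI) _
        rw [h0]
        by_cases hA : ∀ q ∈ F, ¬ q ∣ I
        · rw [if_pos hA, if_pos hA, hgf I hI hA]; simp
        · rw [if_neg hA, if_neg hA]; simp
      · have h0 : ({x | x ∉ 𝒮} : Set (Ideal (𝓞 K))⁰).indicator (fun I => 2 * f I) I = 2 * f I :=
          Set.indicator_of_mem (by simpa using hI) _
        rw [h0]
        have hfI := (normPow_pos s I).le
        by_cases hA : ∀ q ∈ F, ¬ q ∣ I
        · rw [if_pos hA, if_pos hA]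
          calc ‖g I - (f I : ℂ)‖ ≤ ‖g I‖ + ‖(f I : ℂ)‖ := norm_sub_le _ _
            _ = 2 * f I := by
              rw [hgdef, norm_twistPow, Complex.norm_real, Real.norm_of_nonneg hfI]; ring
        · rw [if_neg hA, if_neg hA]
          simpa using hfI
    have hsind : Summable (({x | x ∉ 𝒮} : Set (Ideal (𝓞 K))⁰).indicator (fun I => 2 * f I)) :=
      (hf.mul_left 2).indicator _
    rw [e1]
    calc _ ≤ ∑' I, ({x | x ∉ 𝒮} : Set (Ideal (𝓞 K))⁰).indicator (fun I => 2 * f I) I :=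
          tsum_of_norm_bounded hsind.hasSum hbound
      _ = ∑' I : {x // x ∉ 𝒮}, 2 * f I := (tsum_subtype _ _).symm
      _ = 2 * ∑' I : {x // x ∉ 𝒮}, f I := tsum_mul_left
      _ ≤ 1 / 2 := by linarith
  have hZF : 1 ≤ coprimeSum f F := one_le_coprimeSum_normPow F hFprime hs
  have hgF : coprimeSum f F / 2 ≤ ‖coprimeSum g F‖ := by
    have h1 : ‖((coprimeSum f F : ℝ) : ℂ)‖ = coprimeSum f F := by
      rw [Complex.norm_real, Real.norm_of_nonneg (by linarith)]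
    have h2 : ‖((coprimeSum f F : ℝ) : ℂ)‖ ≤ ‖coprimeSum g F‖ +
        ‖coprimeSum g F - ((coprimeSum f F : ℝ) : ℂ)‖ := by
      have := norm_sub_le (coprimeSum g F) (coprimeSum g F - ((coprimeSum f F : ℝ) : ℂ))
      simpa using this
    rw [h1] at h2
    linarith
  -- step 4 : Euler identities
  have eg : (∏ q ∈ F, (1 - g q)) * ∑' I, g I = coprimeSum g F :=
    prod_mul_tsum_eq_coprimeSum g hg F (euler_hyp F hFprime)
  have ef : (∏ q ∈ F, (1 - f q)) * idealZeta K s = coprimeSum f F := euler_normPow F hFprime hs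
  have hfq0 : ∀ q ∈ F, 0 ≤ 1 - f q := fun q hq => by
    have := normPow_prime_le_half hs.le (hFprime q hq)
    linarith
  have hP0 : 0 ≤ ∏ q ∈ F, (1 - f q) := Finset.prod_nonneg hfq0
  have hnorm : ‖∏ q ∈ F, (1 - g q)‖ ≤ ∏ q ∈ F, (1 + f q) := by
    rw [norm_prod]
    refine Finset.prod_le_prod (fun _ _ => norm_nonneg _) fun q _ => ?_
    calc ‖1 - g q‖ ≤ ‖(1 : ℂ)‖ + ‖g q‖ := norm_sub_le _ _
      _ = 1 + f q := by rw [norm_one, hgdef, norm_twistPow]
  have hprod1 : (∏ q ∈ F, (1 + f q)) * (∏ q ∈ F, (1 - f q)) ≤ 1 := by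
    rw [← Finset.prod_mul_distrib]
    refine Finset.prod_le_one (fun q hq => ?_) fun q hq => ?_
    · exact mul_nonneg (by have := (normPow_pos s q).le; linarith) (hfq0 q hq)
    · have := (normPow_pos s q).le
      nlinarith
  set Lχ := ‖∑' I, g I‖ with hLχ
  have hL0 : 0 ≤ Lχ := norm_nonneg _
  have h5 : (∏ q ∈ F, (1 - f q)) * idealZeta K s / 2 ≤ (∏ q ∈ F, (1 + f q)) * Lχ := by
    rw [ef]
    refine hgF.trans ?_
    rw [← eg, norm_mul]
    exact mul_le_mul_of_nonneg_right hnorm hL0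
  calc 1 / 2 * idealZeta K s * (∏ q ∈ F, (1 - f q)) ^ 2
      = ((∏ q ∈ F, (1 - f q)) * idealZeta K s / 2) * (∏ q ∈ F, (1 - f q)) := by ring
    _ ≤ ((∏ q ∈ F, (1 + f q)) * Lχ) * (∏ q ∈ F, (1 - f q)) :=
        mul_le_mul_of_nonneg_right h5 hP0
    _ = ((∏ q ∈ F, (1 + f q)) * (∏ q ∈ F, (1 - f q))) * Lχ := by ring
    _ ≤ 1 * Lχ := mul_le_mul_of_nonneg_right hprod1 hL0
    _ = Lχ := one_mul _

end Fermat.Agent.S14
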