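import Fermat.Agent.S14.LowerBound
import Fermat.Agent.S14.KummerSplit

set_option autoImplicit false

/-!
# The Euler product over the residue primes is controlled by the zeta function of `K(u^(1/p))`
-/

namespace Fermat.Agent.S14

open NumberField Ideal nonZeroDivisors Polynomial

variable (p : ℕ) [Fact p.Prime] (K : Type*) [Field K] [NumberField K]
  (L : Type*) [Field L] [NumberField L] [Algebra K L]

open scoped Classical in
/-- the primes of `L` above `q`, as a finset of nonzero ideals -/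
noncomputable def primesAbove (q : (Ideal (𝓞 K))⁰) : Finset (Ideal (𝓞 L))⁰ :=
  (Algebra.QuasiFinite.finite_primesOver (S := 𝓞 L) (q : Ideal (𝓞 K))).toFinset.subtype
    (· ∈ (Ideal (𝓞 L))⁰)

lemma mem_primesAbove (q : (Ideal (𝓞 K))⁰) (𝔔 : (Ideal (𝓞 L))⁰) :
    𝔔 ∈ primesAbove K L q ↔ (𝔔 : Ideal (𝓞 L)) ∈ (q : Ideal (𝓞 K)).primesOver (𝓞 L) := by
  classical
  rw [primesAbove, Finset.mem_subtype, Set.Finite.mem_toFinset]

lemma card_primesAbove (q : (Ideal (𝓞 K))⁰) :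
    (primesAbove K L q).card = ((q : Ideal (𝓞 K)).primesOver (𝓞 L)).ncard := by
  classical
  rw [primesAbove, Finset.card_subtype, Set.ncard_eq_toFinset_card _
    (Algebra.QuasiFinite.finite_primesOver (S := 𝓞 L) (q : Ideal (𝓞 K)))]
  congr 1
  refine Finset.filter_true_of_mem fun 𝔔 h𝔔 => ?_
  rw [Set.Finite.mem_toFinset] at h𝔔
  obtain ⟨-, h2⟩ := h𝔔
  rw [mem_nonZeroDivisors_iff_ne_zero]
  exact ne_bot_of_liesOver_of_ne_bot (nonZeroDivisors.coe_ne_zero q) 𝔔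

theorem one_le_prod_residue_pow_mul (ζ : K) (hζ : IsPrimitiveRoot ζ p) (u : (𝓞 K)ˣ)
    (hu : ¬ ∃ y : K, y ^ p = ((u : 𝓞 K) : K))
    [IsSplittingField K L (X ^ p - C ((u : 𝓞 K) : K))]
    (F : Finset (Ideal (𝓞 K))⁰)
    (hF : ∀ q ∈ F, (q : Ideal (𝓞 K)).IsPrime ∧ (p : 𝓞 K) ∉ (q : Ideal (𝓞 K)) ∧
      ∃ y : 𝓞 K, y ^ p - (u : 𝓞 K) ∈ (q : Ideal (𝓞 K))) {s : ℝ} (hs : 1 < s) :
    1 ≤ (∏ q ∈ F, (1 - normPow K s q)) ^ p * idealZeta L s := by
  classical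
  have hsplit : ∀ q ∈ F, (primesAbove K L q).card = p ∧
      ∀ 𝔔 ∈ primesAbove K L q, normPow L s 𝔔 = normPow K s q := by
    intro q hq
    obtain ⟨hqp, hpq, y, hy⟩ := hF q hq
    obtain ⟨h1, h2⟩ := residue_prime_splits p K L ζ hζ u hu (q : Ideal (𝓞 K))
      (nonZeroDivisors.coe_ne_zero q) hpq y hy
    refine ⟨by rw [card_primesAbove, h1], fun 𝔔 h𝔔 => ?_⟩
    rw [normPow_apply, normPow_apply, h2 _ ((mem_primesAbove K L q 𝔔).mp h𝔔)]
  have hdisj : (F : Set (Ideal (𝓞 K))⁰).PairwiseDisjoint (primesAbove K L) := by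
    intro q _ q' _ hne
    rw [Function.onFun, Finset.disjoint_left]
    intro 𝔔 h1 h2
    obtain ⟨-, h1⟩ := (mem_primesAbove K L q 𝔔).mp h1
    obtain ⟨-, h2⟩ := (mem_primesAbove K L q' 𝔔).mp h2
    exact hne (Subtype.ext (h1.over.trans h2.over.symm))
  have hprime : ∀ 𝔔 ∈ F.biUnion (primesAbove K L), (𝔔 : Ideal (𝓞 L)).IsPrime := by
    intro 𝔔 h𝔔
    obtain ⟨q, -, h⟩ := Finset.mem_biUnion.mp h𝔔
    exact ((mem_primesAbove K L q 𝔔).mp h).1
  have h := one_le_prod_mul_idealZeta (F.biUnion (primesAbove K L)) hprime hs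
  rw [Finset.prod_biUnion hdisj] at h
  have e : ∏ q ∈ F, ∏ 𝔔 ∈ primesAbove K L q, (1 - normPow L s 𝔔) =
      (∏ q ∈ F, (1 - normPow K s q)) ^ p := by
    rw [← Finset.prod_pow]
    refine Finset.prod_congr rfl fun q hq => ?_
    obtain ⟨h1, h2⟩ := hsplit q hq
    rw [Finset.prod_congr rfl fun 𝔔 h𝔔 => by rw [h2 𝔔 h𝔔], Finset.prod_const, h1]
  rwa [e] at h

end Fermat.Agent.S14
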